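import Fermat.Agent.S52.Core.Defs

/-!
# S52, FORMULAS: the group law on a short Weierstrass curve in "cleared" form

helper86.  For a curve `W : y² = x³ + a₄ x + a₆` over a field (`a₁ = a₂ = a₃ = 0`) we give
criteria for `P + Q = R` and `P + P = R` in terms of polynomial identities between the
coordinates (no division), in the exact shape of the coordinate identities of `Klein/Laws.lean`.
Also: the coefficients, the equation and the nonsingularity for the curve
`((h86_shortZ A B).map (Int.castRingHom ℚ))⁄ℚ̄` underlying `h86_Pt A B`.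
-/

set_option autoImplicit false
set_option linter.unusedSectionVars false

namespace Fermat.Agent.S52

open WeierstrassCurve WeierstrassCurve.Affine

section generic

variable {K : Type*} [Field K] [DecidableEq K] {W : WeierstrassCurve K}

/-- Equation of a short curve. -/
theorem h86_short_equation_iff (h1 : W.a₁ = 0) (h2 : W.a₂ = 0) (h3 : W.a₃ = 0) (x y : K) :
    W.toAffine.Equation x y ↔ y ^ 2 = x ^ 3 + W.a₄ * x + W.a₆ := by
  rw [Affine.equation_iff, h1, h2, h3]
  constructor <;> intro h <;> linear_combination h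

theorem h86_short_negY (h1 : W.a₁ = 0) (h3 : W.a₃ = 0) (x y : K) :
    W.toAffine.negY x y = -y := by
  simp [Affine.negY, h1, h3]

/-- Negation on a short curve. -/
theorem h86_short_neg (h1 : W.a₁ = 0) (h3 : W.a₃ = 0) {x y : K}
    (h : W.toAffine.Nonsingular x y) (h' : W.toAffine.Nonsingular x (-y)) :
    -Point.some x y h = Point.some x (-y) h' := by
  rw [Point.neg_some]
  congr 1
  exact h86_short_negY h1 h3 x y

/-- Addition of two points with distinct `x`-coordinates, cleared form. -/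
theorem h86_short_add (h1 : W.a₁ = 0) (h2 : W.a₂ = 0) (h3 : W.a₃ = 0)
    {x₁ y₁ x₂ y₂ x₃ y₃ : K}
    (hP : W.toAffine.Nonsingular x₁ y₁) (hQ : W.toAffine.Nonsingular x₂ y₂)
    (hR : W.toAffine.Nonsingular x₃ y₃) (hx : x₁ ≠ x₂)
    (hx3 : (x₃ + x₁ + x₂) * (x₁ - x₂) ^ 2 = (y₁ - y₂) ^ 2)
    (hy3 : (y₃ + y₁) * (x₁ - x₂) = -((y₁ - y₂) * (x₃ - x₁))) :
    Point.some x₁ y₁ hP + Point.some x₂ y₂ hQ = Point.some x₃ y₃ hR := by
  rw [Point.add_of_X_ne hx]
  have hne : x₁ - x₂ ≠ 0 := sub_ne_zero.mpr hx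
  have hX : W.toAffine.addX x₁ x₂ (W.toAffine.slope x₁ x₂ y₁ y₂) = x₃ := by
    rw [Affine.slope_of_X_ne hx]
    simp only [Affine.addX, h1, h2]
    field_simp
    linear_combination -hx3
  have hY : W.toAffine.addY x₁ x₂ y₁ (W.toAffine.slope x₁ x₂ y₁ y₂) = y₃ := by
    simp only [Affine.addY, Affine.negAddY, Affine.negY, h1, h3]
    rw [hX, Affine.slope_of_X_ne hx]
    field_simp
    linear_combination -hy3
  simp only [hX, hY]

/-- Duplication, cleared form. -/
theorem h86_short_dbl (h1 : W.a₁ = 0) (h2 : W.a₂ = 0) (h3 : W.a₃ = 0)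
    {x y x' y' : K}
    (hP : W.toAffine.Nonsingular x y) (hR : W.toAffine.Nonsingular x' y')
    (h2y : 2 * y ≠ 0)
    (hx' : (x' + 2 * x) * (2 * y) ^ 2 = (3 * x ^ 2 + W.a₄) ^ 2)
    (hy' : (y' + y) * (2 * y) = -((3 * x ^ 2 + W.a₄) * (x' - x))) :
    Point.some x y hP + Point.some x y hP = Point.some x' y' hR := by
  have hy : y ≠ W.toAffine.negY x y := by
    rw [h86_short_negY h1 h3]
    intro h
    apply h2y
    linear_combination h
  rw [Point.add_self_of_Y_ne hy]
  have h20 : (2 : K) ≠ 0 := left_ne_zero_of_mul h2y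
  have hy0 : y ≠ 0 := right_ne_zero_of_mul h2y
  have hsl : W.toAffine.slope x x y y = (3 * x ^ 2 + W.a₄) / (2 * y) := by
    rw [Affine.slope_of_Y_ne rfl hy, h86_short_negY h1 h3, h1, h2]
    congr 1 <;> ring
  have hX : W.toAffine.addX x x (W.toAffine.slope x x y y) = x' := by
    rw [hsl]
    simp only [Affine.addX, h1, h2]
    field_simp
    linear_combination -hx'
  have hY : W.toAffine.addY x x y (W.toAffine.slope x x y y) = y' := by
    simp only [Affine.addY, Affine.negAddY, Affine.negY, h1, h3]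
    rw [hX, hsl]
    field_simp
    linear_combination -hy'
  simp only [hX, hY]

/-- On a nonsingular short curve a point with `y = 0` has `3 x² + a₄ ≠ 0`. -/
theorem h86_short_deriv_ne_zero (h1 : W.a₁ = 0) (h2 : W.a₂ = 0) (h3 : W.a₃ = 0)
    {x y : K} (hP : W.toAffine.Nonsingular x y) (hy : y = 0) :
    3 * x ^ 2 + W.a₄ ≠ 0 := by
  intro h
  rw [Affine.nonsingular_iff] at hP
  rcases hP.2 with h' | h'
  · apply h'
    rw [h1, h2, hy]
    linear_combination -h
  · apply h'
    rw [h1, h3, hy]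
    ring

end generic

section curve

local notation "Qbar" => AlgebraicClosure ℚ

/-- The curve underlying `h86_Pt A B`. -/
noncomputable abbrev h86_E (A B : ℤ) : WeierstrassCurve Qbar :=
  ((h86_shortZ A B).map (Int.castRingHom ℚ))⁄Qbar

theorem h86_E_a₁ (A B : ℤ) : (h86_E A B).a₁ = 0 := by
  simp [h86_E, h86_shortZ, WeierstrassCurve.baseChange]

theorem h86_E_a₂ (A B : ℤ) : (h86_E A B).a₂ = 0 := by
  simp [h86_E, h86_shortZ, WeierstrassCurve.baseChange]

theorem h86_E_a₃ (A B : ℤ) : (h86_E A B).a₃ = 0 := by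
  simp [h86_E, h86_shortZ, WeierstrassCurve.baseChange]

theorem h86_E_a₄ (A B : ℤ) : (h86_E A B).a₄ = -27 * (A : Qbar) := by
  simp [h86_E, h86_shortZ, WeierstrassCurve.baseChange]

theorem h86_E_a₆ (A B : ℤ) : (h86_E A B).a₆ = -54 * (B : Qbar) := by
  simp [h86_E, h86_shortZ, WeierstrassCurve.baseChange]

theorem h86_shortZ_Δ (A B : ℤ) : (h86_shortZ A B).Δ = 1259712 * (A ^ 3 - B ^ 2) := by
  simp only [h86_shortZ, WeierstrassCurve.Δ, WeierstrassCurve.b₂, WeierstrassCurve.b₄,
    WeierstrassCurve.b₆, WeierstrassCurve.b₈]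
  ring

theorem h86_shortZ_Δ_ne_zero {A B : ℤ} (h : A ^ 3 ≠ B ^ 2) : (h86_shortZ A B).Δ ≠ 0 := by
  rw [h86_shortZ_Δ]
  exact mul_ne_zero (by norm_num) (sub_ne_zero.mpr h)

theorem h86_E_Δ_ne_zero {A B : ℤ} (h : A ^ 3 ≠ B ^ 2) : (h86_E A B).Δ ≠ 0 := by
  have h0 := h86_shortZ_Δ_ne_zero h
  simp only [h86_E, WeierstrassCurve.baseChange, WeierstrassCurve.map_Δ]
  intro h1
  apply h0
  have h2 : ((algebraMap ℚ Qbar) ((Int.castRingHom ℚ) (h86_shortZ A B).Δ)) = 0 := h1
  have h3 : (Int.castRingHom ℚ) (h86_shortZ A B).Δ = 0 :=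
    (map_eq_zero (algebraMap ℚ Qbar)).mp h2
  have h4 : (((h86_shortZ A B).Δ : ℤ) : ℚ) = 0 := h3
  exact_mod_cast h4

/-- The equation of `h86_E A B` at a base point `(u, v)`: the universal curve
`y² = x³ + 27 H(u,v) x + 54 T(u,v)`. -/
theorem h86_E_equation_iff {A B : ℤ} {u v : Qbar} (hb : h86_Base A B u v) (x y : Qbar) :
    (h86_E A B).toAffine.Equation x y ↔
      y ^ 2 = x ^ 3 + 27 * h42rr_H u v * x + 54 * h42rr_T u v := by
  rw [h86_short_equation_iff (h86_E_a₁ A B) (h86_E_a₂ A B) (h86_E_a₃ A B), h86_E_a₄, h86_E_a₆,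
    hb.2.1, hb.2.2]
  constructor <;> intro h <;> linear_combination h

/-- Nonsingularity is automatic at a base point. -/
theorem h86_E_nonsingular {A B : ℤ} {u v : Qbar} (hb : h86_Base A B u v) {x y : Qbar}
    (h : y ^ 2 = x ^ 3 + 27 * h42rr_H u v * x + 54 * h42rr_T u v) :
    (h86_E A B).toAffine.Nonsingular x y :=
  (Affine.equation_iff_nonsingular_of_Δ_ne_zero (h86_E_Δ_ne_zero hb.1)).mp
    ((h86_E_equation_iff hb x y).mpr h)

/-- `27 H(u, v)` is the coefficient `a₄` at a base point. -/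
theorem h86_E_a₄_base {A B : ℤ} {u v : Qbar} (hb : h86_Base A B u v) :
    (h86_E A B).a₄ = 27 * h42rr_H u v := by
  rw [h86_E_a₄, hb.2.1]; ring

end curve

end Fermat.Agent.S52
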