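import Fermat.Agent.S52.Klein.Defs

/-!
# S52 FORMULAS block: coordinate identities for the universal 5-torsion points

Owner: helper5.  Polynomial identities, valid in every commutative ring `R`; `z` is any element
with `z⁴ + z³ + z² + z + 1 = 0`.  The universal curve is `y² = x³ + 27 H x + 54 T`.
The universal point `P10` has coordinates `(kl_X10 z u v / 5, kl_Y10 z u v / 5)`; all identities
are stated after clearing the denominators.  `P11 = P10 + P01` has coordinates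
`(kl_x01 (z u) v, kl_y01 (z u) v)`.
-/

set_option autoImplicit false

namespace Fermat.Agent.S52

variable {R : Type*} [CommRing R]

/-- `P01` lies on the universal curve. -/
theorem kl_on01 (u v : R) :
    kl_y01 u v ^ 2 = kl_x01 u v ^ 3 + 27 * h42rr_H u v * kl_x01 u v + 54 * h42rr_T u v := by
  unfold kl_y01 kl_x01 h42rr_H h42rr_T; ring

/-- `2 • P01` lies on the universal curve. -/
theorem kl_on02 (u v : R) :
    kl_y02 u v ^ 2 = kl_x02 u v ^ 3 + 27 * h42rr_H u v * kl_x02 u v + 54 * h42rr_T u v := by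
  unfold kl_y02 kl_x02 h42rr_H h42rr_T; ring

/-- Duplication `2 • P01 = P02`, `x`-coordinate. -/
theorem kl_dup01_x (u v : R) :
    (kl_x02 u v + 2 * kl_x01 u v) * (2 * kl_y01 u v) ^ 2
      = (3 * kl_x01 u v ^ 2 + 27 * h42rr_H u v) ^ 2 := by
  unfold kl_x02 kl_y01 kl_x01 h42rr_H; ring

/-- Duplication `2 • P01 = P02`, `y`-coordinate. -/
theorem kl_dup01_y (u v : R) :
    (kl_y02 u v + kl_y01 u v) * (2 * kl_y01 u v)
      = -((3 * kl_x01 u v ^ 2 + 27 * h42rr_H u v) * (kl_x02 u v - kl_x01 u v)) := by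
  unfold kl_y02 kl_x02 kl_y01 kl_x01 h42rr_H; ring

/-- Duplication `2 • P02 = - P01`, `x`-coordinate. -/
theorem kl_dup02_x (u v : R) :
    (kl_x01 u v + 2 * kl_x02 u v) * (2 * kl_y02 u v) ^ 2
      = (3 * kl_x02 u v ^ 2 + 27 * h42rr_H u v) ^ 2 := by
  unfold kl_x02 kl_y02 kl_x01 h42rr_H; ring

/-- Duplication `2 • P02 = - P01`, `y`-coordinate. -/
theorem kl_dup02_y (u v : R) :
    (-kl_y01 u v + kl_y02 u v) * (2 * kl_y02 u v)
      = -((3 * kl_x02 u v ^ 2 + 27 * h42rr_H u v) * (kl_x01 u v - kl_x02 u v)) := by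
  unfold kl_y02 kl_x02 kl_y01 kl_x01 h42rr_H; ring

theorem kl_zeta_pow_five (z : R) (hz : z ^ 4 + z ^ 3 + z ^ 2 + z + 1 = 0) : z ^ 5 = 1 := by
  linear_combination (z - 1) * hz

/-- `P10` lies on the universal curve (denominators cleared). -/
theorem kl_on10 (u v z : R) (hz : z ^ 4 + z ^ 3 + z ^ 2 + z + 1 = 0) :
    5 * kl_Y10 z u v ^ 2 = kl_X10 z u v ^ 3 + 675 * h42rr_H u v * kl_X10 z u v + 6750 * h42rr_T u v := by
  unfold kl_Y10 kl_X10 h42rr_H h42rr_T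
  linear_combination (793152 * u^30 - 559872 * u^30 * z + 793152 * u^30 * z^2 + 93312 * u^30 * z^4 + 46656 * u^30 * z^5 + 16842816 * u^25 * v^5 - 12643776 * u^25 * v^5 * z + 16842816 * u^25 * v^5 * z^2 + 3079296 * u^25 * v^5 * z^4 + 1539648 * u^25 * v^5 * z^5 + 81414720 * u^20 * v^10 - 73249920 * u^20 * v^10 * z + 81414720 * u^20 * v^10 * z^2 + 33592320 * u^20 * v^10 * z^4 + 16796160 * u^20 * v^10 * z^5 - 81414720 * u^15 * v^15 - 14230080 * u^15 * v^15 * z - 81414720 * u^15 * v^15 * z^2 + 118039680 * u^15 * v^15 * z^4 + 59019840 * u^15 * v^15 * z^5 + 58553280 * u^10 * v^20 + 73249920 * u^10 * v^20 * z + 58553280 * u^10 * v^20 * z^2 - 33592320 * u^10 * v^20 * z^4 - 16796160 * u^10 * v^20 * z^5 - 8817984 * u^5 * v^25 - 12643776 * u^5 * v^25 * z - 8817984 * u^5 * v^25 * z^2 + 3079296 * u^5 * v^25 * z^4 + 1539648 * u^5 * v^25 * z^5 + 373248 * v^30 + 559872 * v^30 * z +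 373248 * v^30 * z^2 - 93312 * v^30 * z^4 - 46656 * v^30 * z^5) * hz

/-- Duplication `2 • P10(z) = P10(z²)`, `x`-coordinate. -/
theorem kl_dup10_x (u v z : R) (hz : z ^ 4 + z ^ 3 + z ^ 2 + z + 1 = 0) :
    (kl_X10 (z ^ 2) u v + 2 * kl_X10 z u v) * (4 * kl_Y10 z u v ^ 2 * 5) = (3 * kl_X10 z u v ^ 2 + 675 * h42rr_H u v) ^ 2 := by
  unfold kl_Y10 kl_X10 h42rr_H
  linear_combination (-703759104 * u^40 + 443418624 * u^40 * z - 901953792 * u^40 * z^2 - 67184640 * u^40 * z^3 - 325845504 * u^40 * z^4 - 58786560 * u^40 * z^5 - 265379328 * u^40 * z^6 + 80621568 * u^40 * z^7 - 90699264 * u^40 * z^8 - 14673125376 * u^35 * v^5 + 9432723456 * u^35 * v^5 * z - 21168200448 * u^35 * v^5 * z^2 - 1948354560 * u^35 * v^5 * z^3 - 10600056576 * u^35 * v^5 * z^4 - 1788791040 * u^35 * v^5 * z^5 - 8989304832 * u^35 * v^5 * z^6 + 2245646592 * u^35 * v^5 * z^7 - 3108969216 * u^35 * v^5 * z^8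 - 65409285888 * u^30 * v^10 + 46160886528 * u^30 * v^10 * z - 135316583424 * u^30 * v^10 * z^2 - 15586836480 * u^30 * v^10 * z^3 - 112690476288 * u^30 * v^10 * z^4 - 16451838720 * u^30 * v^10 * z^5 - 103256073216 * u^30 * v^10 * z^6 + 15336573696 * u^30 * v^10 * z^7 - 36469502208 * u^30 * v^10 * z^8 + 122783288832 * u^25 * v^15 - 38315400192 * u^25 * v^15 * z - 113380798464 * u^25 * v^15 * z^2 + 2888939520 * u^25 * v^15 * z^3 - 371359738368 * u^25 * v^15 * z^4 - 29090949120 * u^25 * v^15 * z^5 - 421476120576 * u^25 * v^15 * z^6 - 47254316544 * u^25 * v^15 * z^7 - 156234521088 * u^25 * v^15 * z^8 + 29888766720 * u^20 * v^20 + 44686183680 * u^20 * v^20 * z + 139256962560 * u^20 * v^20 * z^2 + 267394867200 * u^20 * v^20 * z^3 + 155859966720 * u^20 * v^20 * z^4 + 112618252800 * u^20 * v^20 * z^5 - 223069800960 * u^20 * v^20 * z^6 - 552618858240 * u^20 * v^20 * z^7 - 111534900480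 * u^20 * v^20 * z^8 - 92466220032 * u^15 * v^25 - 131325815808 * u^15 * v^25 * z - 183323367936 * u^15 * v^25 * z^2 - 438917253120 * u^15 * v^25 * z^3 - 609703967232 * u^15 * v^25 * z^4 - 406937364480 * u^15 * v^25 * z^5 - 14552193024 * u^15 * v^25 * z^6 + 156261394944 * u^15 * v^25 * z^7 + 47227442688 * u^15 * v^25 * z^8 - 14139007488 * u^10 * v^30 - 26062601472 * u^10 * v^30 * z + 6904901376 * u^10 * v^30 * z^2 + 105681438720 * u^10 * v^30 * z^3 + 160163142912 * u^10 * v^30 * z^4 + 104816436480 * u^10 * v^30 * z^5 + 18012201984 * u^10 * v^30 * z^6 - 14980495104 * u^10 * v^30 * z^7 - 6152433408 * u^10 * v^30 * z^8 + 4679410176 * u^5 * v^35 + 7783340544 * u^5 * v^35 * z + 2860386048 * u^5 * v^35 * z^2 - 9137111040 * u^5 * v^35 * z^3 - 14342241024 * u^5 * v^35 * z^4 - 9296674560 * u^5 * v^35 * z^5 - 2096160768 * u^5 * v^35 * z^6 + 525719808 * u^5 * v^35 * z^7 + 337602816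 * u^5 * v^35 * z^8 - 241864704 * v^40 - 396389376 * v^40 * z - 188116992 * v^40 * z^2 + 268738560 * v^40 * z^3 + 429981696 * v^40 * z^4 + 277136640 * v^40 * z^5 + 70543872 * v^40 * z^6 - 3359232 * v^40 * z^7 - 6718464 * v^40 * z^8) * hz

/-- Duplication `2 • P10(z) = P10(z²)`, `y`-coordinate. -/
theorem kl_dup10_y (u v z : R) (hz : z ^ 4 + z ^ 3 + z ^ 2 + z + 1 = 0) :
    5 * (kl_Y10 (z ^ 2) u v + kl_Y10 z u v) * (2 * kl_Y10 z u v) = -((3 * kl_X10 z u v ^ 2 + 675 * h42rr_H u v) * (kl_X10 (z ^ 2) u v - kl_X10 z u v)) := by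
  unfold kl_Y10 kl_X10 h42rr_H
  linear_combination (233280 * u^30 + 466560 * u^30 * z + 559872 * u^30 * z^2 + 699840 * u^30 * z^3 - 979776 * u^30 * z^4 + 466560 * u^30 * z^5 - 139968 * u^30 * z^7 - 139968 * u^30 * z^8 + 4199040 * u^25 * v^5 + 8398080 * u^25 * v^5 * z + 11477376 * u^25 * v^5 * z^2 + 13763520 * u^25 * v^5 * z^3 - 17169408 * u^25 * v^5 * z^4 + 9564480 * u^25 * v^5 * z^5 - 4618944 * u^25 * v^5 * z^7 - 4618944 * u^25 * v^5 * z^8 + 8164800 * u^20 * v^10 + 16329600 * u^20 * v^10 * z + 49921920 * u^20 * v^10 * z^2 + 47822400 * u^20 * v^10 * z^3 - 20295360 * u^20 * v^10 * z^4 + 39657600 * u^20 * v^10 * z^5 - 50388480 * u^20 * v^10 * z^7 - 50388480 * u^20 * v^10 * z^8 - 95644800 * u^15 * v^15 - 191289600 * u^15 * v^15 * z - 73249920 * u^15 * v^15 * z^2 - 199454400 * u^15 * v^15 * z^3 + 539343360 * u^15 * v^15 * z^4 - 103809600 * u^15 * v^15 * z^5 - 177059520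 * u^15 * v^15 * z^7 - 177059520 * u^15 * v^15 * z^8 + 131803200 * u^10 * v^20 + 263606400 * u^10 * v^20 * z + 230014080 * u^10 * v^20 * z^2 + 92145600 * u^10 * v^20 * z^3 - 119672640 * u^10 * v^20 * z^4 - 39657600 * u^10 * v^20 * z^5 + 50388480 * u^10 * v^20 * z^7 + 50388480 * u^10 * v^20 * z^8 - 21461760 * u^5 * v^25 - 42923520 * u^5 * v^25 * z - 39844224 * u^5 * v^25 * z^2 - 11897280 * u^5 * v^25 * z^3 + 8491392 * u^5 * v^25 * z^4 + 9564480 * u^5 * v^25 * z^5 - 4618944 * u^5 * v^25 * z^7 - 4618944 * u^5 * v^25 * z^8 + 933120 * v^30 + 1866240 * v^30 * z + 1772928 * v^30 * z^2 + 466560 * v^30 * z^3 - 186624 * v^30 * z^4 - 466560 * v^30 * z^5 + 139968 * v^30 * z^7 + 139968 * v^30 * z^8) * hz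

/-- `P10(z⁴) = - P10(z)`, `x`-coordinate. -/
theorem kl_neg10_x (u v z : R) (hz : z ^ 4 + z ^ 3 + z ^ 2 + z + 1 = 0) :
    kl_X10 (z ^ 4) u v = kl_X10 z u v := by
  unfold kl_X10
  linear_combination (36 * u^10 * z^2 - 36 * u^10 * z^4 + 36 * u^10 * z^7 - 36 * u^10 * z^8 + 396 * u^5 * v^5 * z^2 - 396 * u^5 * v^5 * z^4 + 396 * u^5 * v^5 * z^7 - 396 * u^5 * v^5 * z^8 - 36 * v^10 * z^2 + 36 * v^10 * z^4 - 36 * v^10 * z^7 + 36 * v^10 * z^8) * hz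

/-- `P10(z⁴) = - P10(z)`, `y`-coordinate. -/
theorem kl_neg10_y (u v z : R) (hz : z ^ 4 + z ^ 3 + z ^ 2 + z + 1 = 0) :
    kl_Y10 (z ^ 4) u v = - kl_Y10 z u v := by
  unfold kl_Y10
  linear_combination (-216 * u^15 + 324 * u^15 * z^2 - 432 * u^15 * z^3 + 108 * u^15 * z^4 + 324 * u^15 * z^7 - 324 * u^15 * z^8 - 1944 * u^10 * v^5 + 3456 * u^10 * v^5 * z^2 - 4968 * u^10 * v^5 * z^3 + 1512 * u^10 * v^5 * z^4 + 3456 * u^10 * v^5 * z^7 - 3456 * u^10 * v^5 * z^8 + 4968 * u^5 * v^10 - 1512 * u^5 * v^10 * z^2 - 1944 * u^5 * v^10 * z^3 + 3456 * u^5 * v^10 * z^4 - 1512 * u^5 * v^10 * z^7 + 1512 * u^5 * v^10 * z^8 - 432 * v^15 + 108 * v^15 * z^2 + 216 * v^15 * z^3 - 324 * v^15 * z^4 + 108 * v^15 * z^7 - 108 * v^15 * z^8) * hz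

/-- Addition `P10 + P01 = P11`, `x`-coordinate. -/
theorem kl_add11_x (u v z : R) (hz : z ^ 4 + z ^ 3 + z ^ 2 + z + 1 = 0) :
    (5 * kl_x01 (z * u) v + kl_X10 z u v + 5 * kl_x01 u v) * (kl_X10 z u v - 5 * kl_x01 u v) ^ 2 = 5 * (kl_Y10 z u v - 5 * kl_y01 u v) ^ 2 := by
  unfold kl_Y10 kl_X10 kl_x01 kl_y01
  linear_combination (-968112 * u^30 + 734832 * u^30 * z - 909792 * u^30 * z^2 + 3888 * u^30 * z^4 - 241056 * u^30 * z^5 + 194400 * u^30 * z^6 - 97200 * u^30 * z^7 + 97200 * u^30 * z^9 - 19440 * u^30 * z^10 + 19440 * u^30 * z^11 + 19440 * u^30 * z^12 - 1516320 * u^28 * v^2 + 349920 * u^28 * v^2 * z + 738720 * u^28 * v^2 * z^2 - 2332800 * u^28 * v^2 * z^3 + 2527200 * u^28 * v^2 * z^4 - 1749600 * u^28 * v^2 * z^5 + 583200 * u^28 * v^2 * z^6 + 972000 * u^28 * v^2 * z^7 - 233280 * u^28 * v^2 * z^8 + 427680 * u^28 * v^2 * z^9 + 233280 * u^28 * v^2 * z^10 + 349920 * u^27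 * v^3 - 1516320 * u^27 * v^3 * z + 2760480 * u^27 * v^3 * z^2 - 2332800 * u^27 * v^3 * z^3 + 972000 * u^27 * v^3 * z^4 + 583200 * u^27 * v^3 * z^5 - 1749600 * u^27 * v^3 * z^6 + 427680 * u^27 * v^3 * z^7 - 233280 * u^27 * v^3 * z^8 - 427680 * u^27 * v^3 * z^9 - 1185840 * u^26 * v^4 - 3479760 * u^26 * v^4 * z + 6143040 * u^26 * v^4 * z^2 - 9331200 * u^26 * v^4 * z^3 + 7387200 * u^26 * v^4 * z^4 - 1652400 * u^26 * v^4 * z^5 + 1185840 * u^26 * v^4 * z^6 + 2410560 * u^26 * v^4 * z^7 + 466560 * u^26 * v^4 * z^8 + 388800 * u^26 * v^4 * z^9 - 20886336 * u^25 * v^5 + 16687296 * u^25 * v^5 * z - 17659296 * u^25 * v^5 * z^2 - 3273696 * u^25 * v^5 * z^4 - 1345248 * u^25 * v^5 * z^5 - 194400 * u^25 * v^5 * z^6 - 3304800 * u^25 * v^5 * z^7 + 1555200 * u^25 * v^5 * z^9 - 427680 * u^25 * v^5 * z^10 + 427680 * u^25 * v^5 * z^11 + 427680 * u^25 * v^5 * z^12 + 7484400 * u^24 * v^6 -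 13316400 * u^24 * v^6 * z + 9525600 * u^24 * v^6 * z^2 - 11664000 * u^24 * v^6 * z^3 + 17301600 * u^24 * v^6 * z^4 - 4179600 * u^24 * v^6 * z^5 + 8845200 * u^24 * v^6 * z^6 + 3693600 * u^24 * v^6 * z^7 + 972000 * u^24 * v^6 * z^9 - 41796000 * u^23 * v^7 + 24300000 * u^23 * v^7 * z + 13608000 * u^23 * v^7 * z^2 - 34525440 * u^23 * v^7 * z^3 + 32581440 * u^23 * v^7 * z^4 - 25932960 * u^23 * v^7 * z^5 - 1360800 * u^23 * v^7 * z^6 + 15940800 * u^23 * v^7 * z^7 - 5132160 * u^23 * v^7 * z^8 + 7853760 * u^23 * v^7 * z^9 + 5132160 * u^23 * v^7 * z^10 + 41018400 * u^22 * v^8 - 76010400 * u^22 * v^8 * z + 81764640 * u^22 * v^8 * z^2 - 80015040 * u^22 * v^8 * z^3 + 75699360 * u^22 * v^8 * z^4 - 6804000 * u^22 * v^8 * z^5 - 14191200 * u^22 * v^8 * z^6 + 18545760 * u^22 * v^8 * z^7 - 5132160 * u^22 * v^8 * z^8 - 6881760 * u^22 * v^8 * z^9 - 80870400 * u^21 * v^9 + 7153920 * u^21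 * v^9 * z + 114734880 * u^21 * v^9 * z^2 - 152565120 * u^21 * v^9 * z^3 + 67456800 * u^21 * v^9 * z^4 - 972000 * u^21 * v^9 * z^5 - 16290720 * u^21 * v^9 * z^6 + 38452320 * u^21 * v^9 * z^7 + 10264320 * u^21 * v^9 * z^8 + 4471200 * u^21 * v^9 * z^9 + 19945440 * u^20 * v^10 - 57270240 * u^20 * v^10 * z - 8592480 * u^20 * v^10 * z^2 - 93312000 * u^20 * v^10 * z^3 + 104723280 * u^20 * v^10 * z^4 - 2896560 * u^20 * v^10 * z^5 - 2235600 * u^20 * v^10 * z^6 - 13510800 * u^20 * v^10 * z^7 + 5346000 * u^20 * v^10 * z^9 - 2313360 * u^20 * v^10 * z^10 + 2313360 * u^20 * v^10 * z^11 + 2313360 * u^20 * v^10 * z^12 - 63763200 * u^19 * v^11 + 777600 * u^19 * v^11 * z + 135108000 * u^19 * v^11 * z^2 - 93312000 * u^19 * v^11 * z^3 + 60847200 * u^19 * v^11 * z^4 + 14968800 * u^19 * v^11 * z^5 + 69012000 * u^19 * v^11 * z^6 + 42962400 * u^19 * v^11 * z^7 + 10692000 * u^19 * v^11 * z^9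 + 74358000 * u^18 * v^12 - 128012400 * u^18 * v^12 * z + 164073600 * u^18 * v^12 * z^2 - 193855680 * u^18 * v^12 * z^3 + 368038080 * u^18 * v^12 * z^4 - 116698320 * u^18 * v^12 * z^5 - 27702000 * u^18 * v^12 * z^6 + 57931200 * u^18 * v^12 * z^7 - 27760320 * u^18 * v^12 * z^8 + 33981120 * u^18 * v^12 * z^9 + 27760320 * u^18 * v^12 * z^10 - 27799200 * u^17 * v^13 - 150660000 * u^17 * v^13 * z + 564965280 * u^17 * v^13 * z^2 - 413138880 * u^17 * v^13 * z^3 + 294671520 * u^17 * v^13 * z^4 - 44128800 * u^17 * v^13 * z^5 - 41018400 * u^17 * v^13 * z^6 + 151593120 * u^17 * v^13 * z^7 - 27760320 * u^17 * v^13 * z^8 - 23289120 * u^17 * v^13 * z^9 + 115765200 * u^16 * v^14 - 300522960 * u^16 * v^14 * z + 671729760 * u^16 * v^14 * z^2 - 807848640 * u^16 * v^14 * z^3 + 575618400 * u^16 * v^14 * z^4 + 35283600 * u^16 * v^14 * z^5 - 165453840 * u^16 * v^14 * z^6 + 128420640 * u^16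 * v^14 * z^7 + 55520640 * u^16 * v^14 * z^8 + 1749600 * u^16 * v^14 * z^9 + 226787040 * u^15 * v^15 - 329430240 * u^15 * v^15 * z + 690120000 * u^15 * v^15 * z^2 - 577368000 * u^15 * v^15 * z^3 + 395176320 * u^15 * v^15 * z^4 + 62868960 * u^15 * v^15 * z^5 + 6415200 * u^15 * v^15 * z^6 + 122472000 * u^15 * v^15 * z^7 + 583200 * u^15 * v^15 * z^9 + 427680 * u^15 * v^15 * z^10 - 427680 * u^15 * v^15 * z^11 - 427680 * u^15 * v^15 * z^12 + 516909600 * u^14 * v^16 - 500580000 * u^14 * v^16 * z + 623829600 * u^14 * v^16 * z^2 - 326592000 * u^14 * v^16 * z^3 + 455090400 * u^14 * v^16 * z^4 + 260301600 * u^14 * v^16 * z^5 + 91951200 * u^14 * v^16 * z^6 + 21967200 * u^14 * v^16 * z^7 - 972000 * u^14 * v^16 * z^9 + 524685600 * u^13 * v^17 - 406879200 * u^13 * v^17 * z + 710920800 * u^13 * v^17 * z^2 + 90512640 * u^13 * v^17 * z^3 + 430284960 * u^13 * v^17 * z^4 + 180480960 *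 u^13 * v^17 * z^5 - 17884800 * u^13 * v^17 * z^6 + 7581600 * u^13 * v^17 * z^7 + 5132160 * u^13 * v^17 * z^8 - 5715360 * u^13 * v^17 * z^9 - 5132160 * u^13 * v^17 * z^10 + 644922000 * u^12 * v^18 - 58222800 * u^12 * v^18 * z + 704194560 * u^12 * v^18 * z^2 + 165162240 * u^12 * v^18 * z^3 + 277914240 * u^12 * v^18 * z^4 + 52390800 * u^12 * v^18 * z^5 - 5734800 * u^12 * v^18 * z^6 - 16407360 * u^12 * v^18 * z^7 + 5132160 * u^12 * v^18 * z^8 + 4743360 * u^12 * v^18 * z^9 + 715197600 * u^11 * v^19 + 226320480 * u^11 * v^19 * z + 536505120 * u^11 * v^19 * z^2 + 163062720 * u^11 * v^19 * z^3 + 77954400 * u^11 * v^19 * z^4 + 20606400 * u^11 * v^19 * z^5 + 22317120 * u^11 * v^19 * z^6 - 17068320 * u^11 * v^19 * z^7 - 10264320 * u^11 * v^19 * z^8 - 194400 * u^11 * v^19 * z^9 + 629544960 * u^10 * v^20 + 177603840 * u^10 * v^20 * z + 293777280 * u^10 * v^20 * z^2 + 75816000 *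 u^10 * v^20 * z^3 + 59155920 * u^10 * v^20 * z^4 + 10866960 * u^10 * v^20 * z^5 - 5734800 * u^10 * v^20 * z^6 - 17398800 * u^10 * v^20 * z^7 - 97200 * u^10 * v^20 * z^9 - 19440 * u^10 * v^20 * z^10 + 19440 * u^10 * v^20 * z^11 + 19440 * u^10 * v^20 * z^12 + 470059200 * u^9 * v^21 + 232113600 * u^9 * v^21 * z + 205286400 * u^9 * v^21 * z^2 + 29160000 * u^9 * v^21 * z^3 - 3499200 * u^9 * v^21 * z^4 - 37324800 * u^9 * v^21 * z^5 - 20995200 * u^9 * v^21 * z^6 - 2332800 * u^9 * v^21 * z^7 + 324259200 * u^8 * v^22 + 180792000 * u^8 * v^22 * z + 87480000 * u^8 * v^22 * z^2 - 39424320 * u^8 * v^22 * z^3 - 34058880 * u^8 * v^22 * z^4 - 23561280 * u^8 * v^22 * z^5 + 2332800 * u^8 * v^22 * z^6 - 1166400 * u^8 * v^22 * z^7 - 233280 * u^8 * v^22 * z^8 + 233280 * u^8 * v^22 * z^9 + 233280 * u^8 * v^22 * z^10 + 189540000 * u^7 * v^23 + 89229600 * u^7 * v^23 * z + 7931520 * u^7 *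 v^23 * z^2 - 41757120 * u^7 * v^23 * z^3 - 23094720 * u^7 * v^23 * z^4 - 4665600 * u^7 * v^23 * z^5 + 1166400 * u^7 * v^23 * z^6 + 233280 * u^7 * v^23 * z^7 - 233280 * u^7 * v^23 * z^8 - 233280 * u^7 * v^23 * z^9 + 85147200 * u^6 * v^24 + 19128960 * u^6 * v^24 * z - 13296960 * u^6 * v^24 * z^2 - 26127360 * u^6 * v^24 * z^3 - 5832000 * u^6 * v^24 * z^4 - 2332800 * u^6 * v^24 * z^5 - 466560 * u^6 * v^24 * z^6 + 466560 * u^6 * v^24 * z^7 + 466560 * u^6 * v^24 * z^8 + 32145984 * u^5 * v^25 + 12643776 * u^5 * v^25 * z - 2846016 * u^5 * v^25 * z^2 - 11664000 * u^5 * v^25 * z^3 - 5995296 * u^5 * v^25 * z^4 - 2122848 * u^5 * v^25 * z^5 + 583200 * u^5 * v^25 * z^6 + 583200 * u^5 * v^25 * z^7 + 6998400 * u^4 * v^26 - 4665600 * u^4 * v^26 * z - 8164800 * u^4 * v^26 * z^2 - 5832000 * u^4 * v^26 * z^3 - 1166400 * u^4 * v^26 * z^4 + 1166400 * u^4 * v^26 * z^5 + 1166400 * u^4 * v^26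 * z^6 - 466560 * u^3 * v^27 - 5365440 * u^3 * v^27 * z - 4199040 * u^3 * v^27 * z^2 - 699840 * u^3 * v^27 * z^3 + 699840 * u^3 * v^27 * z^4 + 699840 * u^3 * v^27 * z^5 - 1866240 * u^2 * v^28 - 2799360 * u^2 * v^28 * z - 933120 * u^2 * v^28 * z^2 + 466560 * u^2 * v^28 * z^3 + 466560 * u^2 * v^28 * z^4 - 933120 * u * v^29 - 466560 * u * v^29 * z + 233280 * u * v^29 * z^3 - 373248 * v^30 - 559872 * v^30 * z - 373248 * v^30 * z^2 + 93312 * v^30 * z^4 + 46656 * v^30 * z^5) * hz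

/-- Addition `P10 + P01 = P11`, `y`-coordinate. -/
theorem kl_add11_y (u v z : R) (hz : z ^ 4 + z ^ 3 + z ^ 2 + z + 1 = 0) :
    (kl_y01 (z * u) v + kl_y01 u v) * (kl_X10 z u v - 5 * kl_x01 u v) = -((kl_Y10 z u v - 5 * kl_y01 u v) * (kl_x01 (z * u) v - kl_x01 u v)) := by
  unfold kl_Y10 kl_X10 kl_x01 kl_y01
  linear_combination (324 * u^25 + 324 * u^25 * z - 972 * u^25 * z^2 + 1296 * u^25 * z^3 - 972 * u^25 * z^4 + 324 * u^25 * z^5 + 324 * u^25 * z^6 - 972 * u^25 * z^7 + 1296 * u^25 * z^8 - 972 * u^25 * z^9 - 6156 * u^23 * v^2 + 13932 * u^23 * v^2 * z - 15552 * u^23 * v^2 * z^2 + 15552 * u^23 * v^2 * z^3 - 7776 * u^23 * v^2 * z^4 - 6156 * u^23 * v^2 * z^5 + 13932 * u^23 * v^2 * z^6 - 15552 * u^23 * v^2 * z^7 + 11664 * u^23 * v^2 * z^8 - 11664 * u^23 * v^2 * z^9 + 3888 * u^23 * v^2 * z^10 - 3888 * u^23 * v^2 * z^12 - 13932 * u^22 * v^3 + 6156 * u^22 * v^3 * z + 7776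 * u^22 * v^3 * z^2 - 15552 * u^22 * v^3 * z^3 + 15552 * u^22 * v^3 * z^4 - 13932 * u^22 * v^3 * z^5 + 6156 * u^22 * v^3 * z^6 + 11664 * u^22 * v^3 * z^7 - 11664 * u^22 * v^3 * z^8 + 3888 * u^22 * v^3 * z^9 - 3888 * u^22 * v^3 * z^11 - 32400 * u^21 * v^4 + 47952 * u^21 * v^4 * z - 38880 * u^21 * v^4 * z^2 + 31104 * u^21 * v^4 * z^3 - 7776 * u^21 * v^4 * z^4 - 32400 * u^21 * v^4 * z^5 + 40176 * u^21 * v^4 * z^6 - 46656 * u^21 * v^4 * z^7 + 34992 * u^21 * v^4 * z^8 - 19440 * u^21 * v^4 * z^9 - 15552 * u^21 * v^4 * z^10 + 12636 * u^20 * v^5 + 12636 * u^20 * v^5 * z - 39528 * u^20 * v^5 * z^2 + 53784 * u^20 * v^5 * z^3 - 39528 * u^20 * v^5 * z^4 + 2916 * u^20 * v^5 * z^5 + 2916 * u^20 * v^5 * z^6 + 9072 * u^20 * v^5 * z^7 - 23976 * u^20 * v^5 * z^8 + 9072 * u^20 * v^5 * z^9 - 30780 * u^19 * v^6 + 69660 * u^19 * v^6 * z - 77760 * u^19 * v^6 * z^2 + 77760 * u^19 * v^6 * z^3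 - 58320 * u^19 * v^6 * z^4 - 50220 * u^19 * v^6 * z^5 + 89100 * u^19 * v^6 * z^6 - 97200 * u^19 * v^6 * z^7 + 38880 * u^19 * v^6 * z^8 - 38880 * u^19 * v^6 * z^9 - 34992 * u^18 * v^7 + 128304 * u^18 * v^7 * z - 225504 * u^18 * v^7 * z^2 + 213840 * u^18 * v^7 * z^3 - 104976 * u^18 * v^7 * z^4 - 48600 * u^18 * v^7 * z^5 + 91368 * u^18 * v^7 * z^6 - 73872 * u^18 * v^7 * z^7 + 31104 * u^18 * v^7 * z^8 - 69984 * u^18 * v^7 * z^9 + 42768 * u^18 * v^7 * z^10 - 42768 * u^18 * v^7 * z^12 - 259524 * u^17 * v^8 + 205092 * u^17 * v^8 * z - 31104 * u^17 * v^8 * z^2 - 155520 * u^17 * v^8 * z^3 + 151632 * u^17 * v^8 * z^4 - 242028 * u^17 * v^8 * z^5 + 121500 * u^17 * v^8 * z^6 - 85536 * u^17 * v^8 * z^7 + 27216 * u^17 * v^8 * z^8 - 54432 * u^17 * v^8 * z^9 - 42768 * u^17 * v^8 * z^11 - 302940 * u^16 * v^9 + 446796 * u^16 * v^9 * z - 548208 * u^16 * v^9 * z^2 + 326592 * u^16 * v^9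 * z^3 - 31104 * u^16 * v^9 * z^4 - 388476 * u^16 * v^9 * z^5 + 232956 * u^16 * v^9 * z^6 - 182736 * u^16 * v^9 * z^7 + 132192 * u^16 * v^9 * z^8 - 58320 * u^16 * v^9 * z^9 - 171072 * u^16 * v^9 * z^10 - 171072 * u^15 * v^10 + 331128 * u^15 * v^10 * z - 442584 * u^15 * v^10 * z^2 + 433512 * u^15 * v^10 * z^3 - 539784 * u^15 * v^10 * z^4 - 161352 * u^15 * v^10 * z^5 + 340848 * u^15 * v^10 * z^6 - 325944 * u^15 * v^10 * z^7 - 13608 * u^15 * v^10 * z^8 - 34344 * u^15 * v^10 * z^9 - 82620 * u^14 * v^11 + 413100 * u^14 * v^11 * z - 913680 * u^14 * v^11 * z^2 + 699840 * u^14 * v^11 * z^3 - 466560 * u^14 * v^11 * z^4 - 325620 * u^14 * v^11 * z^5 + 422820 * u^14 * v^11 * z^6 - 194400 * u^14 * v^11 * z^7 - 233280 * u^14 * v^11 * z^8 - 19440 * u^14 * v^11 * z^9 - 210924 * u^13 * v^12 + 222588 * u^13 * v^12 * z - 742608 * u^13 * v^12 * z^2 + 552096 * u^13 * v^12 * z^3 - 517104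 * u^13 * v^12 * z^4 - 164268 * u^13 * v^12 * z^5 + 210924 * u^13 * v^12 * z^6 - 334368 * u^13 * v^12 * z^7 - 11664 * u^13 * v^12 * z^8 - 7776 * u^13 * v^12 * z^9 - 3888 * u^13 * v^12 * z^10 + 3888 * u^13 * v^12 * z^12 - 337608 * u^12 * v^13 + 578664 * u^12 * v^13 * z - 1251936 * u^12 * v^13 * z^2 - 27216 * u^12 * v^13 * z^3 + 256608 * u^12 * v^13 * z^4 - 355104 * u^12 * v^13 * z^5 - 877392 * u^12 * v^13 * z^6 - 69984 * u^12 * v^13 * z^7 - 7776 * u^12 * v^13 * z^8 - 3888 * u^12 * v^13 * z^9 + 3888 * u^12 * v^13 * z^11 - 805140 * u^11 * v^14 + 470772 * u^11 * v^14 * z - 1461888 * u^11 * v^14 * z^2 + 108864 * u^11 * v^14 * z^3 - 190512 * u^11 * v^14 * z^4 - 1308636 * u^11 * v^14 * z^5 + 29484 * u^11 * v^14 * z^6 - 31104 * u^11 * v^14 * z^7 - 15552 * u^11 * v^14 * z^8 + 15552 * u^11 * v^14 * z^10 - 757512 * u^10 * v^15 + 214488 * u^10 * v^15 * z - 1147284 * u^10 * v^15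 * z^2 - 564408 * u^10 * v^15 * z^3 - 1147284 * u^10 * v^15 * z^4 - 96552 * u^10 * v^15 * z^5 + 648 * u^10 * v^15 * z^6 - 324 * u^10 * v^15 * z^7 - 648 * u^10 * v^15 * z^8 - 324 * u^10 * v^15 * z^9 - 806760 * u^9 * v^16 - 223560 * u^9 * v^16 * z - 952560 * u^9 * v^16 * z^2 - 952560 * u^9 * v^16 * z^3 - 97200 * u^9 * v^16 * z^4 - 38880 * u^9 * v^16 * z^5 - 19440 * u^9 * v^16 * z^6 + 19440 * u^9 * v^16 * z^8 - 499608 * u^8 * v^17 - 410184 * u^8 * v^17 * z - 1096416 * u^8 * v^17 * z^2 - 334368 * u^8 * v^17 * z^3 - 38880 * u^8 * v^17 * z^4 - 27216 * u^8 * v^17 * z^5 - 7776 * u^8 * v^17 * z^6 + 19440 * u^8 * v^17 * z^7 - 435456 * u^7 * v^18 - 540432 * u^7 * v^18 * z - 447120 * u^7 * v^18 * z^2 - 171072 * u^7 * v^18 * z^3 - 77760 * u^7 * v^18 * z^4 + 7776 * u^7 * v^18 * z^5 + 85536 * u^7 * v^18 * z^6 - 320760 * u^6 * v^19 - 293544 * u^6 * v^19 * z - 209952 * u^6 * v^19 *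 z^2 - 120528 * u^6 * v^19 * z^3 - 15552 * u^6 * v^19 * z^4 + 104976 * u^6 * v^19 * z^5 - 174960 * u^5 * v^20 - 174960 * u^5 * v^20 * z - 106920 * u^5 * v^20 * z^2 - 19440 * u^5 * v^20 * z^3 + 87480 * u^5 * v^20 * z^4 - 77760 * u^4 * v^21 - 77760 * u^4 * v^21 * z - 38880 * u^4 * v^21 * z^2 + 38880 * u^4 * v^21 * z^3 - 46656 * u^3 * v^22 - 23328 * u^3 * v^22 * z + 23328 * u^3 * v^22 * z^2 - 15552 * u^2 * v^23 + 7776 * u^2 * v^23 * z) * hz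

/-- `P10` is invariant under `u ↦ z u`, `x`-coordinate. -/
theorem kl_t10_x (u v z : R) (hz : z ^ 4 + z ^ 3 + z ^ 2 + z + 1 = 0) :
    kl_X10 z (z * u) v = kl_X10 z u v := by
  unfold kl_X10
  linear_combination (93 * u^10 - 93 * u^10 * z + 36 * u^10 * z^2 - 36 * u^10 * z^4 + 93 * u^10 * z^5 - 93 * u^10 * z^6 + 36 * u^10 * z^7 - 36 * u^10 * z^9 + 198 * u^5 * v^5 - 198 * u^5 * v^5 * z + 396 * u^5 * v^5 * z^2 - 396 * u^5 * v^5 * z^4) * hz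

/-- `P10` is invariant under `u ↦ z u`, `y`-coordinate. -/
theorem kl_t10_y (u v z : R) (hz : z ^ 4 + z ^ 3 + z ^ 2 + z + 1 = 0) :
    kl_Y10 z (z * u) v = kl_Y10 z u v := by
  unfold kl_Y10
  linear_combination (108 * u^15 + 108 * u^15 * z - 324 * u^15 * z^2 + 432 * u^15 * z^3 - 324 * u^15 * z^4 + 108 * u^15 * z^5 + 108 * u^15 * z^6 - 324 * u^15 * z^7 + 432 * u^15 * z^8 - 324 * u^15 * z^9 + 108 * u^15 * z^10 + 108 * u^15 * z^11 - 324 * u^15 * z^12 + 432 * u^15 * z^13 - 324 * u^15 * z^14 + 972 * u^10 * v^5 + 972 * u^10 * v^5 * z - 3456 * u^10 * v^5 * z^2 + 4968 * u^10 * v^5 * z^3 - 3456 * u^10 * v^5 * z^4 + 972 * u^10 * v^5 * z^5 + 972 * u^10 * v^5 * z^6 - 3456 * u^10 * v^5 * z^7 + 4968 * u^10 * v^5 * z^8 - 3456 * u^10 * v^5 * z^9 - 2484 * u^5 * v^10 - 2484 * u^5 * v^10 * z + 1512 * u^5 * v^10 * z^2 + 1944 * u^5 * v^10 * z^3 + 1512 * u^5 * v^10 * z^4) * hz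

/-- `H` is invariant under `u ↦ z u`. -/
theorem kl_H_t (u v z : R) (hz : z ^ 4 + z ^ 3 + z ^ 2 + z + 1 = 0) :
    h42rr_H (z * u) v = h42rr_H u v := by
  unfold h42rr_H
  linear_combination (u^20 - u^20 * z + u^20 * z^5 - u^20 * z^6 + u^20 * z^10 - u^20 * z^11 + u^20 * z^15 - u^20 * z^16 - 228 * u^15 * v^5 + 228 * u^15 * v^5 * z - 228 * u^15 * v^5 * z^5 + 228 * u^15 * v^5 * z^6 - 228 * u^15 * v^5 * z^10 + 228 * u^15 * v^5 * z^11 + 494 * u^10 * v^10 - 494 * u^10 * v^10 * z + 494 * u^10 * v^10 * z^5 - 494 * u^10 * v^10 * z^6 + 228 * u^5 * v^15 - 228 * u^5 * v^15 * z) * hz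

/-- `T` is invariant under `u ↦ z u`. -/
theorem kl_T_t (u v z : R) (hz : z ^ 4 + z ^ 3 + z ^ 2 + z + 1 = 0) :
    h42rr_T (z * u) v = h42rr_T u v := by
  unfold h42rr_T
  linear_combination (-u^30 + u^30 * z - u^30 * z^5 + u^30 * z^6 - u^30 * z^10 + u^30 * z^11 - u^30 * z^15 + u^30 * z^16 - u^30 * z^20 + u^30 * z^21 - u^30 * z^25 + u^30 * z^26 - 522 * u^25 * v^5 + 522 * u^25 * v^5 * z - 522 * u^25 * v^5 * z^5 + 522 * u^25 * v^5 * z^6 - 522 * u^25 * v^5 * z^10 + 522 * u^25 * v^5 * z^11 - 522 * u^25 * v^5 * z^15 + 522 * u^25 * v^5 * z^16 - 522 * u^25 * v^5 * z^20 + 522 * u^25 * v^5 * z^21 + 10005 * u^20 * v^10 - 10005 * u^20 * v^10 * z + 10005 * u^20 * v^10 * z^5 - 10005 * u^20 * v^10 * z^6 + 10005 * u^20 * v^10 * z^10 - 10005 * u^20 * v^10 * z^11 + 10005 * u^20 * v^10 * z^15 - 10005 * u^20 * v^10 * z^16 + 10005 * u^10 * v^20 - 10005 * u^10 * v^20 * z + 10005 * u^10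 * v^20 * z^5 - 10005 * u^10 * v^20 * z^6 + 522 * u^5 * v^25 - 522 * u^5 * v^25 * z) * hz

/-- `f` is multiplied by `z` under `u ↦ z u`. -/
theorem kl_f_t (u v z : R) (hz : z ^ 4 + z ^ 3 + z ^ 2 + z + 1 = 0) :
    h42rr_f (z * u) v = z * h42rr_f u v := by
  unfold h42rr_f
  linear_combination (-u^11 * v * z + u^11 * v * z^2 - u^11 * v * z^6 + u^11 * v * z^7 - 11 * u^6 * v^6 * z + 11 * u^6 * v^6 * z^2) * hz

end Fermat.Agent.S52
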