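import Fermat.Agent.S52.Klein.Short
import Fermat.Agent.S52.Klein.Laws

/-!
# S52, FORMULAS: the universal points `klP01`, `klP10` as points of `h86_Pt A B`

helper86 (definitions; the laws of `h86_KlData` about them are separate files).
`klP01 A B u v` is the point `(kl_x01 u v, kl_y01 u v)` when `(u, v)` is a base point of
`(A, B)`, and `0` otherwise; `klP10 ζ A B u v` is `(kl_x10 ζ u v, kl_y10 ζ u v)` when moreover
`ζ` is a primitive fifth root of unity.
-/

set_option autoImplicit false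

namespace Fermat.Agent.S52

open WeierstrassCurve WeierstrassCurve.Affine

local notation "Qbar" => AlgebraicClosure ℚ

/-- `P10` lies on the universal curve (field form). -/
theorem kl_on10_field {K : Type*} [Field K] (h5 : (5 : K) ≠ 0) (u v z : K)
    (hz : z ^ 4 + z ^ 3 + z ^ 2 + z + 1 = 0) :
    kl_y10 z u v ^ 2 = kl_x10 z u v ^ 3 + 27 * h42rr_H u v * kl_x10 z u v + 54 * h42rr_T u v := by
  have h := kl_on10 u v z hz
  unfold kl_y10 kl_x10
  field_simp
  linear_combination h

theorem h86_five_ne_zero : (5 : Qbar) ≠ 0 := by norm_num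

open Classical in
/-- The universal point `P01` at a base point `(u, v)` of `(A, B)` (and `0` elsewhere). -/
noncomputable def klP01 (A B : ℤ) (u v : Qbar) : h86_Pt A B :=
  if hb : h86_Base A B u v then
    Point.some (kl_x01 u v) (kl_y01 u v) (h86_E_nonsingular hb (kl_on01 u v))
  else 0

open Classical in
/-- The universal point `P10` at a base point `(u, v)` of `(A, B)`, for a primitive fifth root of
unity `ζ` (and `0` elsewhere). -/
noncomputable def klP10 (ζ : Qbar) (A B : ℤ) (u v : Qbar) : h86_Pt A B :=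
  if hb : h86_Z5 ζ ∧ h86_Base A B u v then
    Point.some (kl_x10 ζ u v) (kl_y10 ζ u v)
      (h86_E_nonsingular hb.2 (kl_on10_field h86_five_ne_zero u v ζ hb.1))
  else 0

theorem klP01_eq {A B : ℤ} {u v : Qbar} (hb : h86_Base A B u v) :
    klP01 A B u v =
      Point.some (kl_x01 u v) (kl_y01 u v) (h86_E_nonsingular hb (kl_on01 u v)) :=
  dif_pos hb

theorem klP10_eq {ζ : Qbar} (hζ : h86_Z5 ζ) {A B : ℤ} {u v : Qbar} (hb : h86_Base A B u v) :
    klP10 ζ A B u v =
      Point.some (kl_x10 ζ u v) (kl_y10 ζ u v)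
        (h86_E_nonsingular hb (kl_on10_field h86_five_ne_zero u v ζ hζ)) :=
  dif_pos ⟨hζ, hb⟩

/-- Two affine points of `h86_Pt A B` with the same coordinates are equal. -/
theorem h86_some_congr {A B : ℤ} {x y x' y' : Qbar}
    (h : (h86_E A B).toAffine.Nonsingular x y) (h' : (h86_E A B).toAffine.Nonsingular x' y')
    (hx : x = x') (hy : y = y') :
    (Point.some x y h : h86_Pt A B) = Point.some x' y' h' := by
  subst hx; subst hy; rfl

/-- The Galois action on an affine point. -/
theorem h86_smul_some {A B : ℤ} (σ : Qbar ≃ₐ[ℚ] Qbar) {x y : Qbar}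
    (h : (h86_E A B).toAffine.Nonsingular x y)
    (h' : (h86_E A B).toAffine.Nonsingular (σ x) (σ y)) :
    σ • (Point.some x y h : h86_Pt A B) = Point.some (σ x) (σ y) h' := by
  rfl

/-- The Galois group preserves base points. -/
theorem h86_Base_map {A B : ℤ} {u v : Qbar} (hb : h86_Base A B u v) (σ : Qbar ≃ₐ[ℚ] Qbar) :
    h86_Base A B (σ u) (σ v) := by
  refine ⟨hb.1, ?_, ?_⟩
  · rw [← h42rr_H_map σ, hb.2.1, map_neg, map_intCast]
  · rw [← h42rr_T_map σ, hb.2.2, map_neg, map_intCast]

/-- Primitive fifth roots of unity are preserved by Galois. -/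
theorem h86_Z5_map {ζ : Qbar} (hζ : h86_Z5 ζ) (σ : Qbar ≃ₐ[ℚ] Qbar) : h86_Z5 (σ ζ) := by
  unfold h86_Z5 at hζ ⊢
  have := congrArg σ hζ
  simpa using this

/-- Scalars `lam` with `lam ^ 10 = 1` preserve base points. -/
theorem h86_Base_smul {A B : ℤ} {u v : Qbar} (hb : h86_Base A B u v) {lam : Qbar}
    (hl : lam ^ 10 = 1) : h86_Base A B (lam * u) (lam * v) := by
  refine ⟨hb.1, ?_, ?_⟩
  · rw [h42rr_H_smul, ← hb.2.1]
    have : lam ^ 20 = 1 := by
      have : lam ^ 20 = (lam ^ 10) ^ 2 := by ring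
      rw [this, hl, one_pow]
    rw [this, one_mul]
  · rw [h42rr_T_smul, ← hb.2.2]
    have : lam ^ 30 = 1 := by
      have : lam ^ 30 = (lam ^ 10) ^ 3 := by ring
      rw [this, hl, one_pow]
    rw [this, one_mul]

/-- Klein symmetries preserve base points. -/
theorem h86_Base_sym {A B : ℤ} {u v : Qbar} (hb : h86_Base A B u v) {a b c d : Qbar}
    (hs : IsKleinSym a b c d) : h86_Base A B (a * u + b * v) (c * u + d * v) := by
  obtain ⟨-, hH, hT, -, -⟩ := hs u v
  exact ⟨hb.1, by rw [hH, hb.2.1], by rw [hT, hb.2.2]⟩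

/-- At a base point `f ≠ 0`. -/
theorem h86_Base_f_ne_zero {A B : ℤ} {u v : Qbar} (hb : h86_Base A B u v) :
    h42rr_f u v ≠ 0 := by
  intro hf
  have h := h42rr_klein_rel u v
  rw [hb.2.1, hb.2.2, hf] at h
  apply hb.1
  have h2 : ((A ^ 3 - B ^ 2 : ℤ) : Qbar) = 0 := by
    push_cast
    linear_combination -h
  have h3 : (A ^ 3 - B ^ 2 : ℤ) = 0 := by exact_mod_cast h2
  linarith

end Fermat.Agent.S52
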