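import Fermat.Agent.S52.Klein.Points

/-!
# S52, FORMULAS: independence of the universal points `klP10`, `klP01`

helper86.  The coordinate identity `(5 x01 - X10) * C = 180 f²` (cofactor `C` of degree 14 with
coefficients in `ℤ[z]`) shows `x(P01) ≠ x(P10)` at every base point; applied to `z` and `z²`
it gives `P01 ∉ ⟨P10⟩`, hence the independence statement (field `indep` of `h86_KlData`), given
the torsion and duplication laws.
-/

set_option autoImplicit false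

namespace Fermat.Agent.S52

open WeierstrassCurve WeierstrassCurve.Affine

local notation "Qbar" => AlgebraicClosure ℚ

/-- The cofactor of `5 x01 - X10` in `180 f²`. -/
def kl_indepC {R : Type*} [CommRing R] (z u v : R) : R :=
  2 * u^12 * v^2 - u^12 * v^2 * z^2 - u^12 * v^2 * z^3 - 5 * u^10 * v^4 + 5 * u^10 * v^4 * z^2 + 5 * u^10 * v^4 * z^3 + 5 * u^9 * v^5 - 5 * u^9 * v^5 * z^2 - 5 * u^9 * v^5 * z^3 + 5 * u^8 * v^6 - 10 * u^8 * v^6 * z^2 - 10 * u^8 * v^6 * z^3 + 7 * u^7 * v^7 + 14 * u^7 * v^7 * z^2 + 14 * u^7 * v^7 * z^3 - 15 * u^5 * v^9 - 10 * u^5 * v^9 * z^2 - 10 * u^5 * v^9 * z^3 + 15 * u^4 * v^10 + 10 * u^4 * v^10 * z^2 + 10 * u^4 * v^10 * z^3 - 10 * u^3 * v^11 - 5 * u^3 * v^11 * z^2 - 5 * u^3 * v^11 * z^3 + 3 * u^2 * v^12 + u^2 * v^12 * z^2 + u^2 * v^12 * z^3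

/-- `(5 x01 - X10) * C = 180 f²`. -/
theorem kl_indep_identity {R : Type*} [CommRing R] (u v z : R)
    (hz : z ^ 4 + z ^ 3 + z ^ 2 + z + 1 = 0) :
    (5 * kl_x01 u v - kl_X10 z u v) * kl_indepC z u v = 180 * h42rr_f u v ^ 2 := by
  unfold kl_indepC kl_x01 kl_X10 h42rr_f
  linear_combination (36 * u^22 * v^2 - 36 * u^22 * v^2 * z - 36 * u^22 * v^2 * z^2 - 180 * u^20 * v^4 + 180 * u^20 * v^4 * z + 180 * u^20 * v^4 * z^2 + 180 * u^19 * v^5 - 180 * u^19 * v^5 * z - 180 * u^19 * v^5 * z^2 + 360 * u^18 * v^6 - 360 * u^18 * v^6 * z - 360 * u^18 * v^6 * z^2 - 108 * u^17 * v^7 + 108 * u^17 * v^7 * z + 108 * u^17 * v^7 * z^2 - 1620 * u^15 * v^9 + 1620 * u^15 * v^9 * z + 1620 * u^15 * v^9 * z^2 + 1620 * u^14 * v^10 - 1620 * u^14 * v^10 * z - 1620 * u^14 * v^10 * z^2 + 4140 * u^13 * v^11 - 4140 * u^13 * v^11 * z - 4140 * u^13 * v^11 * z^2 - 5616 * u^12 * v^12 + 5616 * u^12 * v^12 * z + 5616 * u^12 * v^12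 * z^2 + 4140 * u^10 * v^14 - 4140 * u^10 * v^14 * z - 4140 * u^10 * v^14 * z^2 - 4140 * u^9 * v^15 + 4140 * u^9 * v^15 * z + 4140 * u^9 * v^15 * z^2 + 1620 * u^8 * v^16 - 1620 * u^8 * v^16 * z - 1620 * u^8 * v^16 * z^2 + 108 * u^7 * v^17 - 108 * u^7 * v^17 * z - 108 * u^7 * v^17 * z^2 - 360 * u^5 * v^19 + 360 * u^5 * v^19 * z + 360 * u^5 * v^19 * z^2 + 360 * u^4 * v^20 - 360 * u^4 * v^20 * z - 360 * u^4 * v^20 * z^2 - 180 * u^3 * v^21 + 180 * u^3 * v^21 * z + 180 * u^3 * v^21 * z^2 + 36 * u^2 * v^22 - 36 * u^2 * v^22 * z - 36 * u^2 * v^22 * z^2) * hz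

/-- The square of a primitive fifth root of unity is one. -/
theorem h86_Z5_sq {ζ : Qbar} (hζ : h86_Z5 ζ) : h86_Z5 (ζ ^ 2) := by
  unfold h86_Z5 at hζ ⊢
  have h5 : ζ ^ 5 = 1 := kl_zeta_pow_five ζ hζ
  have e8 : ζ ^ 8 = ζ ^ 3 := by
    have : ζ ^ 8 = ζ ^ 5 * ζ ^ 3 := by ring
    rw [this, h5, one_mul]
  have e6 : ζ ^ 6 = ζ := by
    have : ζ ^ 6 = ζ ^ 5 * ζ := by ring
    rw [this, h5, one_mul]
  have : (ζ ^ 2) ^ 4 + (ζ ^ 2) ^ 3 + (ζ ^ 2) ^ 2 + ζ ^ 2 + 1 = ζ ^ 8 + ζ ^ 6 + ζ ^ 4 + ζ ^ 2 + 1 := by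
    ring
  rw [this, e8, e6]
  linear_combination hζ

/-- At a point with `f ≠ 0` the `x`-coordinates of `P10` and `P01` differ. -/
theorem kl_x01_ne_x10 {K : Type*} [Field K] [CharZero K] (u v z : K)
    (hz : z ^ 4 + z ^ 3 + z ^ 2 + z + 1 = 0) (hf : h42rr_f u v ≠ 0) :
    kl_x10 z u v ≠ kl_x01 u v := by
  intro h
  have h5 : (5 : K) ≠ 0 := by norm_num
  have hX : kl_X10 z u v = 5 * kl_x01 u v := by
    rw [← h]
    unfold kl_x10
    field_simp
  have hid := kl_indep_identity u v z hz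
  rw [hX, sub_self, zero_mul] at hid
  have : (180 : K) * h42rr_f u v ^ 2 ≠ 0 := mul_ne_zero (by norm_num) (pow_ne_zero _ hf)
  exact this hid.symm

/-- Multiples of a `5`-torsion element only depend on the residue mod `5`. -/
theorem h86_zsmul_emod {G : Type*} [AddCommGroup G] {X : G} (hX : (5 : ℤ) • X = 0) (n : ℤ) :
    n • X = (n % 5) • X := by
  conv_lhs => rw [← Int.emod_add_mul_ediv n 5]
  rw [add_smul, mul_comm, mul_smul, hX, smul_zero, add_zero]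

/-- A nonzero `5`-torsion element has exact order `5`. -/
theorem h86_dvd_of_zsmul_eq_zero {G : Type*} [AddCommGroup G] {X : G} (hX : (5 : ℤ) • X = 0)
    (hX0 : X ≠ 0) {n : ℤ} (hn : n • X = 0) : (5 : ℤ) ∣ n := by
  by_contra hd
  have hc : IsCoprime n 5 := by
    rw [Int.isCoprime_iff_gcd_eq_one]
    have h5 : Nat.Prime 5 := by norm_num
    have := (Nat.Prime.coprime_iff_not_dvd h5).mpr
      (fun h : 5 ∣ n.natAbs => hd (Int.natCast_dvd.mpr h))
    rw [Int.gcd_comm]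
    exact this
  obtain ⟨a, b, hab⟩ := hc
  apply hX0
  have : X = (a * n + b * 5) • X := by rw [hab, one_smul]
  rw [this, add_smul, mul_smul, mul_smul, hn, hX, smul_zero, smul_zero, add_zero]

/-- Solving `i • P + j • Q = 0` for `Q` when `5 ∤ j`. -/
theorem h86_solve_zsmul {G : Type*} [AddCommGroup G] {P Q : G} (hQ5 : (5 : ℤ) • Q = 0)
    {i j : ℤ} (h : i • P + j • Q = 0) (hd : ¬ (5 : ℤ) ∣ j) : ∃ m : ℤ, Q = m • P := by
  have hc : IsCoprime j 5 := by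
    rw [Int.isCoprime_iff_gcd_eq_one]
    have h5 : Nat.Prime 5 := by norm_num
    have := (Nat.Prime.coprime_iff_not_dvd h5).mpr
      (fun h : 5 ∣ j.natAbs => hd (Int.natCast_dvd.mpr h))
    rw [Int.gcd_comm]
    exact this
  obtain ⟨a, b, hab⟩ := hc
  have hjQ : j • Q = -(i • P) := by
    have := h
    rw [add_comm] at this
    exact eq_neg_of_add_eq_zero_left this
  refine ⟨-(a * i), ?_⟩
  have : Q = (a * j + b * 5) • Q := by rw [hab, one_smul]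
  rw [this, add_smul, mul_smul, mul_smul, hQ5, smul_zero, add_zero, hjQ, smul_neg,
    neg_smul, mul_smul]

/-- The multiples of a `5`-torsion element. -/
theorem h86_multiples {G : Type*} [AddCommGroup G] {P Q : G} (hP5 : (5 : ℤ) • P = 0) (m : ℤ)
    (hQ : Q = m • P) :
    Q = 0 ∨ Q = P ∨ Q = (2 : ℤ) • P ∨ Q = -((2 : ℤ) • P) ∨ Q = -P := by
  rw [h86_zsmul_emod hP5] at hQ
  have hr0 : 0 ≤ m % 5 := Int.emod_nonneg _ (by norm_num)
  have hr5 : m % 5 < 5 := Int.emod_lt_of_pos _ (by norm_num)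
  generalize m % 5 = r at hQ hr0 hr5
  interval_cases r
  · left; rw [hQ, zero_smul]
  · right; left; rw [hQ, one_smul]
  · right; right; left; exact hQ
  · right; right; right; left
    rw [hQ]
    have : (3 : ℤ) • P = (5 : ℤ) • P - (2 : ℤ) • P := by rw [← sub_smul]; norm_num
    rw [this, hP5, zero_sub]
  · right; right; right; right
    rw [hQ]
    have : (4 : ℤ) • P = (5 : ℤ) • P - (1 : ℤ) • P := by rw [← sub_smul]; norm_num
    rw [this, hP5, zero_sub, one_smul]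

/-- If `5 ∣ j` the relation `i • P + j • Q = 0` reduces to `i • P = 0`. -/
theorem h86_drop_zsmul {G : Type*} [AddCommGroup G] {P Q : G} (hQ5 : (5 : ℤ) • Q = 0)
    {i j : ℤ} (h : i • P + j • Q = 0) (hj : (5 : ℤ) ∣ j) : i • P = 0 := by
  obtain ⟨c, rfl⟩ := hj
  have hjQ : (5 * c) • Q = 0 := by rw [mul_comm, mul_smul, hQ5, smul_zero]
  rwa [hjQ, add_zero] at h

/-- **Independence** of `klP10 ζ` and `klP01` (field `indep` of `h86_KlData`), from the torsion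
laws and the duplication law `lawG`. -/
theorem klIndep_of
    (ht10 : ∀ (ζ : Qbar) (A B : ℤ) (u v : Qbar), h86_Z5 ζ → h86_Base A B u v →
      (5 : ℤ) • klP10 ζ A B u v = 0)
    (ht01 : ∀ (A B : ℤ) (u v : Qbar), h86_Base A B u v → (5 : ℤ) • klP01 A B u v = 0)
    (hG : ∀ (ζ : Qbar) (A B : ℤ) (u v : Qbar), h86_Z5 ζ → h86_Base A B u v →
      klP10 (ζ ^ 2) A B u v = (2 : ℤ) • klP10 ζ A B u v)
    (ζ : Qbar) (A B : ℤ) (u v : Qbar) (hζ : h86_Z5 ζ) (hb : h86_Base A B u v) (i j : ℤ)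
    (h : i • klP10 ζ A B u v + j • klP01 A B u v = 0) : (5 : ℤ) ∣ i ∧ (5 : ℤ) ∣ j := by
  have hf := h86_Base_f_ne_zero hb
  have hζ2 : h86_Z5 (ζ ^ 2) := h86_Z5_sq hζ
  have hP5 : (5 : ℤ) • klP10 ζ A B u v = 0 := ht10 ζ A B u v hζ hb
  have hQ5 : (5 : ℤ) • klP01 A B u v = 0 := ht01 A B u v hb
  have hPe := klP10_eq hζ hb
  have hP2e := klP10_eq hζ2 hb
  have hQe := klP01_eq hb
  have hP0 : klP10 ζ A B u v ≠ 0 := by
    rw [hPe]; exact Point.some_ne_zero _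
  have hQ0 : klP01 A B u v ≠ 0 := by
    rw [hQe]; exact Point.some_ne_zero _
  have hne1 : kl_x10 ζ u v ≠ kl_x01 u v := kl_x01_ne_x10 u v ζ hζ hf
  have hne2 : kl_x10 (ζ ^ 2) u v ≠ kl_x01 u v := kl_x01_ne_x10 u v (ζ ^ 2) hζ2 hf
  have hQP : klP01 A B u v ≠ klP10 ζ A B u v := by
    intro hh
    rw [hQe, hPe] at hh
    injection hh with hx _
    exact hne1 hx.symm
  have hQnP : klP01 A B u v ≠ -klP10 ζ A B u v := by
    intro hh
    rw [hQe, hPe, Point.neg_some] at hh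
    injection hh with hx _
    exact hne1 hx.symm
  have h2P : (2 : ℤ) • klP10 ζ A B u v = klP10 (ζ ^ 2) A B u v := (hG ζ A B u v hζ hb).symm
  have hQ2P : klP01 A B u v ≠ (2 : ℤ) • klP10 ζ A B u v := by
    intro hh
    rw [h2P, hQe, hP2e] at hh
    injection hh with hx _
    exact hne2 hx.symm
  have hQn2P : klP01 A B u v ≠ -((2 : ℤ) • klP10 ζ A B u v) := by
    intro hh
    rw [h2P, hQe, hP2e, Point.neg_some] at hh
    injection hh with hx _
    exact hne2 hx.symm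
  have hj : (5 : ℤ) ∣ j := by
    by_contra hd
    obtain ⟨m, hm⟩ := h86_solve_zsmul hQ5 h hd
    rcases h86_multiples hP5 m hm with h0 | h1 | h2 | h3 | h4
    · exact hQ0 h0
    · exact hQP h1
    · exact hQ2P h2
    · exact hQn2P h3
    · exact hQnP h4
  exact ⟨h86_dvd_of_zsmul_eq_zero hP5 hP0 (h86_drop_zsmul hQ5 h hj), hj⟩

end Fermat.Agent.S52
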