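import Fermat.Agent.S52.Klein.Points
import Fermat.Agent.S52.Klein.Indep

/-!
# S52, FORMULAS, row F-T (helper10): the laws of Klein's `T = diag (ζ³, ζ²)`

* `klLawT10 : klP10 ζ A B (ζ ^ 3 * u) (ζ ^ 2 * v) = klP10 ζ A B u v`;
* `klLawT01 : klP01 A B (ζ ^ 3 * u) (ζ ^ 2 * v) = klP01 A B u v + klP10 ζ A B u v`.

These are the fields `lawT10`, `lawT01` of `h86_KlData` for `P10 := klP10`, `P01 := klP01`.
`(ζ³ u, ζ² v) = ζ² • (ζ u, v)`; the coordinates are homogeneous of degree `10` and `15`, and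
`(ζ²)⁵ = 1`.
-/

set_option autoImplicit false

namespace Fermat.Agent.S52

open WeierstrassCurve WeierstrassCurve.Affine

local notation "Qbar" => AlgebraicClosure ℚ

section ring

variable {R : Type*} [CommRing R]

theorem h10lt_X10_smul (z c u v : R) : kl_X10 z (c * u) (c * v) = c ^ 10 * kl_X10 z u v := by
  unfold kl_X10; ring

theorem h10lt_Y10_smul (z c u v : R) : kl_Y10 z (c * u) (c * v) = c ^ 15 * kl_Y10 z u v := by
  unfold kl_Y10; ring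

theorem h10lt_x01_smul (c u v : R) : kl_x01 (c * u) (c * v) = c ^ 10 * kl_x01 u v := by
  unfold kl_x01; ring

theorem h10lt_y01_smul (c u v : R) : kl_y01 (c * u) (c * v) = c ^ 15 * kl_y01 u v := by
  unfold kl_y01; ring

theorem h10lt_sq_pow_ten (z : R) (hz : z ^ 4 + z ^ 3 + z ^ 2 + z + 1 = 0) :
    (z ^ 2) ^ 10 = 1 := by
  have h5 : z ^ 5 = 1 := kl_zeta_pow_five z hz
  have : (z ^ 2) ^ 10 = (z ^ 5) ^ 4 := by ring
  rw [this, h5, one_pow]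

theorem h10lt_sq_pow_fifteen (z : R) (hz : z ^ 4 + z ^ 3 + z ^ 2 + z + 1 = 0) :
    (z ^ 2) ^ 15 = 1 := by
  have h5 : z ^ 5 = 1 := kl_zeta_pow_five z hz
  have : (z ^ 2) ^ 15 = (z ^ 5) ^ 6 := by ring
  rw [this, h5, one_pow]

/-- `X10` is invariant under `T`. -/
theorem h10lt_X10_T (z u v : R) (hz : z ^ 4 + z ^ 3 + z ^ 2 + z + 1 = 0) :
    kl_X10 z (z ^ 3 * u) (z ^ 2 * v) = kl_X10 z u v := by
  have e : z ^ 3 * u = z ^ 2 * (z * u) := by ring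
  rw [e, h10lt_X10_smul, h10lt_sq_pow_ten z hz, one_mul, kl_t10_x u v z hz]

/-- `Y10` is invariant under `T`. -/
theorem h10lt_Y10_T (z u v : R) (hz : z ^ 4 + z ^ 3 + z ^ 2 + z + 1 = 0) :
    kl_Y10 z (z ^ 3 * u) (z ^ 2 * v) = kl_Y10 z u v := by
  have e : z ^ 3 * u = z ^ 2 * (z * u) := by ring
  rw [e, h10lt_Y10_smul, h10lt_sq_pow_fifteen z hz, one_mul, kl_t10_y u v z hz]

/-- `x01` after `T` is `x01 (z u, v)`. -/
theorem h10lt_x01_T (z u v : R) (hz : z ^ 4 + z ^ 3 + z ^ 2 + z + 1 = 0) :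
    kl_x01 (z ^ 3 * u) (z ^ 2 * v) = kl_x01 (z * u) v := by
  have e : z ^ 3 * u = z ^ 2 * (z * u) := by ring
  rw [e, h10lt_x01_smul, h10lt_sq_pow_ten z hz, one_mul]

/-- `y01` after `T` is `y01 (z u, v)`. -/
theorem h10lt_y01_T (z u v : R) (hz : z ^ 4 + z ^ 3 + z ^ 2 + z + 1 = 0) :
    kl_y01 (z ^ 3 * u) (z ^ 2 * v) = kl_y01 (z * u) v := by
  have e : z ^ 3 * u = z ^ 2 * (z * u) := by ring
  rw [e, h10lt_y01_smul, h10lt_sq_pow_fifteen z hz, one_mul]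

end ring

/-- `u ↦ ζ u` preserves base points. -/
theorem h10lt_Base_t {ζ : Qbar} (hζ : h86_Z5 ζ) {A B : ℤ} {u v : Qbar}
    (hb : h86_Base A B u v) : h86_Base A B (ζ * u) v :=
  ⟨hb.1, by rw [kl_H_t u v ζ hζ]; exact hb.2.1, by rw [kl_T_t u v ζ hζ]; exact hb.2.2⟩

/-- Klein's `T` preserves base points. -/
theorem h10lt_Base_T {ζ : Qbar} (hζ : h86_Z5 ζ) {A B : ℤ} {u v : Qbar}
    (hb : h86_Base A B u v) : h86_Base A B (ζ ^ 3 * u) (ζ ^ 2 * v) := by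
  have h1 := h86_Base_smul (h10lt_Base_t hζ hb) (lam := ζ ^ 2) (h10lt_sq_pow_ten ζ hζ)
  have e : ζ ^ 2 * (ζ * u) = ζ ^ 3 * u := by ring
  rwa [e] at h1

/-- **Law `T` for `P10`** (field `lawT10` of `h86_KlData`). -/
theorem klLawT10 (ζ : Qbar) (A B : ℤ) (u v : Qbar) (hζ : h86_Z5 ζ) (hb : h86_Base A B u v) :
    klP10 ζ A B (ζ ^ 3 * u) (ζ ^ 2 * v) = klP10 ζ A B u v := by
  rw [klP10_eq hζ (h10lt_Base_T hζ hb), klP10_eq hζ hb]
  apply h86_some_congr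
  · unfold kl_x10; rw [h10lt_X10_T ζ u v hζ]
  · unfold kl_y10; rw [h10lt_Y10_T ζ u v hζ]

/-- **Law `T` for `P01`** (field `lawT01` of `h86_KlData`). -/
theorem klLawT01 (ζ : Qbar) (A B : ℤ) (u v : Qbar) (hζ : h86_Z5 ζ) (hb : h86_Base A B u v) :
    klP01 A B (ζ ^ 3 * u) (ζ ^ 2 * v) = klP01 A B u v + klP10 ζ A B u v := by
  have hz : ζ ^ 4 + ζ ^ 3 + ζ ^ 2 + ζ + 1 = 0 := hζ
  have h5 : (5 : Qbar) ≠ 0 := h86_five_ne_zero
  have hne : kl_x01 u v ≠ kl_x10 ζ u v :=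
    (kl_x01_ne_x10 u v ζ hz (h86_Base_f_ne_zero hb)).symm
  have hR : (h86_E A B).toAffine.Nonsingular (kl_x01 (ζ * u) v) (kl_y01 (ζ * u) v) :=
    h86_E_nonsingular (h10lt_Base_t hζ hb) (kl_on01 (ζ * u) v)
  have hadd := h86_short_add (h86_E_a₁ A B) (h86_E_a₂ A B) (h86_E_a₃ A B)
    (h86_E_nonsingular hb (kl_on01 u v))
    (h86_E_nonsingular hb (kl_on10_field h86_five_ne_zero u v ζ hz)) hR hne
    (by
      have h := kl_add11_x u v ζ hz
      unfold kl_x10 kl_y10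
      field_simp
      linear_combination h)
    (by
      have h := kl_add11_y u v ζ hz
      unfold kl_x10 kl_y10
      field_simp
      linear_combination -h)
  rw [klP01_eq (h10lt_Base_T hζ hb), klP01_eq hb, klP10_eq hζ hb, hadd]
  apply h86_some_congr
  · exact h10lt_x01_T ζ u v hz
  · exact h10lt_y01_T ζ u v hz

end Fermat.Agent.S52
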