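import Fermat.Agent.S52.Klein.Points

/-!
# S52, FORMULAS: separation (field `sep` of `h86_KlData`)

helper86.  The five values `x01(zⁱ u, v)`, `i = 0..4` (the `x`-coordinates of `P01 + i • P10`)
determine the monomials `u⁴v⁶` and `u⁹v¹¹`, hence `(u, v)` up to a `10`-th root of unity:
`∑ᵢ z^(-k i) x01(zⁱ u, v)` is `15 (v¹⁰ + 30 u⁵v⁵ + u¹⁰)`, `180 (u v⁹ + 2 u⁶v⁴)`,
`180 (2 u²v⁸ - u⁷v³)`, `180 (3 u³v⁷ + u⁸v²)`, `900 u⁴v⁶` for `k = 0, 1, 2, 3, 4`, and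
`125 u⁹v¹¹ = 5 (v¹⁰ + 30 u⁵v⁵ + u¹⁰) u⁴v⁶ - 3 (3 u³v⁷ + u⁸v²)(u v⁹ + 2 u⁶v⁴) + (2 u²v⁸ - u⁷v³)²`.
-/

set_option autoImplicit false

namespace Fermat.Agent.S52

open WeierstrassCurve WeierstrassCurve.Affine

local notation "Qbar" => AlgebraicClosure ℚ

section sums

variable {R : Type*} [CommRing R]

theorem kl_sep_sum0 (u v z : R) (hz : z ^ 4 + z ^ 3 + z ^ 2 + z + 1 = 0) :
    kl_x01 (u) v + kl_x01 (z * u) v + kl_x01 (z ^ 2 * u) v + kl_x01 (z ^ 3 * u) v + kl_x01 (z ^ 4 * u) v = 15 * (v ^ 10 + 30 * (u ^ 5 * v ^ 5) + u ^ 10) := by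
  unfold kl_x01
  linear_combination (-12 * u^10 + 12 * u^10 * z - 12 * u^10 * z^5 + 12 * u^10 * z^6 - 9 * u^10 * z^10 + 9 * u^10 * z^11 - 9 * u^10 * z^15 + 9 * u^10 * z^16 - 6 * u^10 * z^20 + 6 * u^10 * z^21 - 6 * u^10 * z^25 + 6 * u^10 * z^26 - 3 * u^10 * z^30 + 3 * u^10 * z^31 - 3 * u^10 * z^35 + 3 * u^10 * z^36 + 36 * u^8 * v^2 - 36 * u^8 * v^2 * z + 36 * u^8 * v^2 * z^5 - 36 * u^8 * v^2 * z^6 + 36 * u^8 * v^2 * z^8 - 36 * u^8 * v^2 * z^9 + 36 * u^8 * v^2 * z^10 - 36 * u^8 * v^2 * z^11 + 36 * u^8 * v^2 * z^13 - 36 * u^8 * v^2 * z^14 + 36 * u^8 * v^2 * z^15 - 36 * u^8 * v^2 * z^17 + 36 * u^8 * v^2 * z^18 - 36 * u^8 * v^2 * z^19 + 36 * u^8 * v^2 * z^20 - 36 * u^8 * v^2 * z^22 + 36 * u^8 * v^2 * z^23 - 36 * u^8 * v^2 * z^27 + 36 * u^8 * v^2 * z^28 - 36 * u^7 * v^3 + 36 * u^7 * v^3 * z - 36 * u^7 * v^3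 * z^5 + 36 * u^7 * v^3 * z^6 - 36 * u^7 * v^3 * z^7 + 36 * u^7 * v^3 * z^8 - 36 * u^7 * v^3 * z^10 + 36 * u^7 * v^3 * z^11 - 36 * u^7 * v^3 * z^12 + 36 * u^7 * v^3 * z^13 - 36 * u^7 * v^3 * z^14 + 36 * u^7 * v^3 * z^16 - 36 * u^7 * v^3 * z^17 + 36 * u^7 * v^3 * z^18 - 36 * u^7 * v^3 * z^19 + 36 * u^7 * v^3 * z^23 - 36 * u^7 * v^3 * z^24 + 72 * u^6 * v^4 - 72 * u^6 * v^4 * z + 72 * u^6 * v^4 * z^5 - 72 * u^6 * v^4 * z^7 + 72 * u^6 * v^4 * z^10 - 72 * u^6 * v^4 * z^13 + 72 * u^6 * v^4 * z^15 - 72 * u^6 * v^4 * z^19 + 72 * u^6 * v^4 * z^20 - 360 * u^5 * v^5 + 360 * u^5 * v^5 * z - 270 * u^5 * v^5 * z^5 + 270 * u^5 * v^5 * z^6 - 180 * u^5 * v^5 * z^10 + 180 * u^5 * v^5 * z^11 - 90 * u^5 * v^5 * z^15 + 90 * u^5 * v^5 * z^16 + 180 * u^4 * v^6 - 180 * u^4 * v^6 * z + 180 * u^4 * v^6 * z^4 - 180 * u^4 * v^6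 * z^6 + 180 * u^4 * v^6 * z^8 - 180 * u^4 * v^6 * z^11 + 180 * u^4 * v^6 * z^12 + 108 * u^3 * v^7 - 108 * u^3 * v^7 * z + 108 * u^3 * v^7 * z^3 - 108 * u^3 * v^7 * z^4 + 108 * u^3 * v^7 * z^5 - 108 * u^3 * v^7 * z^7 + 108 * u^3 * v^7 * z^8 + 72 * u^2 * v^8 - 72 * u^2 * v^8 * z + 72 * u^2 * v^8 * z^2 - 72 * u^2 * v^8 * z^3 + 72 * u^2 * v^8 * z^4 + 36 * u * v^9) * hz

theorem kl_sep_sum1 (u v z : R) (hz : z ^ 4 + z ^ 3 + z ^ 2 + z + 1 = 0) :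
    kl_x01 (u) v + z ^ 4 * kl_x01 (z * u) v + z ^ 3 * kl_x01 (z ^ 2 * u) v + z ^ 2 * kl_x01 (z ^ 3 * u) v + z * kl_x01 (z ^ 4 * u) v = 180 * (u * v ^ 9 + 2 * (u ^ 6 * v ^ 4)) := by
  unfold kl_x01
  linear_combination (3 * u^10 - 3 * u^10 * z + 3 * u^10 * z^5 - 3 * u^10 * z^6 + 3 * u^10 * z^10 - 3 * u^10 * z^11 + 3 * u^10 * z^14 - 3 * u^10 * z^16 + 3 * u^10 * z^19 - 3 * u^10 * z^21 + 3 * u^10 * z^23 - 3 * u^10 * z^26 + 3 * u^10 * z^28 - 3 * u^10 * z^31 + 3 * u^10 * z^32 - 3 * u^10 * z^36 + 3 * u^10 * z^37 + 36 * u^8 * v^2 - 36 * u^8 * v^2 * z + 36 * u^8 * v^2 * z^5 - 36 * u^8 * v^2 * z^6 + 36 * u^8 * v^2 * z^10 - 36 * u^8 * v^2 * z^11 + 36 * u^8 * v^2 * z^12 - 36 * u^8 * v^2 * z^13 + 36 * u^8 * v^2 * z^15 - 36 * u^8 * v^2 * z^16 + 36 * u^8 * v^2 * z^17 - 36 * u^8 * v^2 * z^18 + 36 * u^8 * v^2 * z^19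 - 36 * u^8 * v^2 * z^21 + 36 * u^8 * v^2 * z^22 - 36 * u^8 * v^2 * z^23 + 36 * u^8 * v^2 * z^24 - 36 * u^8 * v^2 * z^28 + 36 * u^8 * v^2 * z^29 - 36 * u^7 * v^3 + 36 * u^7 * v^3 * z - 36 * u^7 * v^3 * z^5 + 36 * u^7 * v^3 * z^6 - 36 * u^7 * v^3 * z^10 + 36 * u^7 * v^3 * z^12 - 36 * u^7 * v^3 * z^15 + 36 * u^7 * v^3 * z^18 - 36 * u^7 * v^3 * z^20 + 36 * u^7 * v^3 * z^24 - 36 * u^7 * v^3 * z^25 - 288 * u^6 * v^4 + 288 * u^6 * v^4 * z - 288 * u^6 * v^4 * z^5 + 288 * u^6 * v^4 * z^6 - 216 * u^6 * v^4 * z^10 + 216 * u^6 * v^4 * z^11 - 144 * u^6 * v^4 * z^15 + 144 * u^6 * v^4 * z^16 - 72 * u^6 * v^4 * z^20 + 72 * u^6 * v^4 * z^21 + 90 * u^5 * v^5 - 90 * u^5 * v^5 * z + 90 * u^5 * v^5 * z^5 - 90 * u^5 * v^5 * z^6 + 90 * u^5 * v^5 * z^9 - 90 * u^5 * v^5 * z^11 + 90 * u^5 * v^5 * z^13 - 90 * u^5 * v^5 * z^16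 + 90 * u^5 * v^5 * z^17 + 180 * u^4 * v^6 - 180 * u^4 * v^6 * z + 180 * u^4 * v^6 * z^5 - 180 * u^4 * v^6 * z^6 + 180 * u^4 * v^6 * z^8 - 180 * u^4 * v^6 * z^9 + 180 * u^4 * v^6 * z^10 - 180 * u^4 * v^6 * z^12 + 180 * u^4 * v^6 * z^13 + 108 * u^3 * v^7 - 108 * u^3 * v^7 * z + 108 * u^3 * v^7 * z^5 - 108 * u^3 * v^7 * z^6 + 108 * u^3 * v^7 * z^7 - 108 * u^3 * v^7 * z^8 + 108 * u^3 * v^7 * z^9 + 72 * u^2 * v^8 - 72 * u^2 * v^8 * z + 72 * u^2 * v^8 * z^5 - 144 * u * v^9 + 144 * u * v^9 * z + 3 * v^10) * hz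

theorem kl_sep_sum2 (u v z : R) (hz : z ^ 4 + z ^ 3 + z ^ 2 + z + 1 = 0) :
    kl_x01 (u) v + z ^ 3 * kl_x01 (z * u) v + z * kl_x01 (z ^ 2 * u) v + z ^ 4 * kl_x01 (z ^ 3 * u) v + z ^ 2 * kl_x01 (z ^ 4 * u) v = 180 * (2 * (u ^ 2 * v ^ 8) - u ^ 7 * v ^ 3) := by
  unfold kl_x01
  linear_combination (3 * u^10 - 3 * u^10 * z + 3 * u^10 * z^5 - 3 * u^10 * z^6 + 3 * u^10 * z^10 - 3 * u^10 * z^11 + 3 * u^10 * z^13 - 3 * u^10 * z^14 + 3 * u^10 * z^15 - 3 * u^10 * z^16 + 3 * u^10 * z^18 - 3 * u^10 * z^19 + 3 * u^10 * z^20 - 3 * u^10 * z^22 + 3 * u^10 * z^23 - 3 * u^10 * z^24 + 3 * u^10 * z^25 - 3 * u^10 * z^27 + 3 * u^10 * z^28 - 3 * u^10 * z^29 + 3 * u^10 * z^30 - 3 * u^10 * z^32 + 3 * u^10 * z^33 - 3 * u^10 * z^37 + 3 * u^10 * z^38 + 36 * u^8 * v^2 - 36 * u^8 * v^2 * z + 36 * u^8 * v^2 * z^5 - 36 * u^8 * v^2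 * z^6 + 36 * u^8 * v^2 * z^10 - 36 * u^8 * v^2 * z^12 + 36 * u^8 * v^2 * z^15 - 36 * u^8 * v^2 * z^18 + 36 * u^8 * v^2 * z^20 - 36 * u^8 * v^2 * z^23 + 36 * u^8 * v^2 * z^25 - 36 * u^8 * v^2 * z^29 + 36 * u^8 * v^2 * z^30 + 144 * u^7 * v^3 - 144 * u^7 * v^3 * z + 144 * u^7 * v^3 * z^5 - 144 * u^7 * v^3 * z^6 + 108 * u^7 * v^3 * z^10 - 108 * u^7 * v^3 * z^11 + 72 * u^7 * v^3 * z^15 - 72 * u^7 * v^3 * z^16 + 72 * u^7 * v^3 * z^20 - 72 * u^7 * v^3 * z^21 + 36 * u^7 * v^3 * z^25 - 36 * u^7 * v^3 * z^26 + 72 * u^6 * v^4 - 72 * u^6 * v^4 * z + 72 * u^6 * v^4 * z^5 - 72 * u^6 * v^4 * z^6 + 72 * u^6 * v^4 * z^9 - 72 * u^6 * v^4 * z^11 + 72 * u^6 * v^4 * z^13 - 72 * u^6 * v^4 * z^16 + 72 * u^6 * v^4 * z^18 - 72 * u^6 * v^4 * z^21 + 72 * u^6 * v^4 * z^22 + 90 * u^5 * v^5 - 90 * u^5 * v^5 * z + 90 * u^5 * v^5 *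 z^5 - 90 * u^5 * v^5 * z^6 + 90 * u^5 * v^5 * z^8 - 90 * u^5 * v^5 * z^9 + 90 * u^5 * v^5 * z^10 - 90 * u^5 * v^5 * z^12 + 90 * u^5 * v^5 * z^13 - 90 * u^5 * v^5 * z^14 + 90 * u^5 * v^5 * z^15 - 90 * u^5 * v^5 * z^17 + 90 * u^5 * v^5 * z^18 + 180 * u^4 * v^6 - 180 * u^4 * v^6 * z + 180 * u^4 * v^6 * z^5 - 180 * u^4 * v^6 * z^6 + 180 * u^4 * v^6 * z^7 - 180 * u^4 * v^6 * z^8 + 180 * u^4 * v^6 * z^9 - 180 * u^4 * v^6 * z^11 + 180 * u^4 * v^6 * z^12 - 180 * u^4 * v^6 * z^13 + 180 * u^4 * v^6 * z^14 + 108 * u^3 * v^7 - 108 * u^3 * v^7 * z + 108 * u^3 * v^7 * z^5 - 108 * u^3 * v^7 * z^8 + 108 * u^3 * v^7 * z^10 - 288 * u^2 * v^8 + 288 * u^2 * v^8 * z - 144 * u^2 * v^8 * z^5 + 144 * u^2 * v^8 * z^6 + 36 * u * v^9 - 36 * u * v^9 * z + 36 * u * v^9 * z^3 + 3 * v^10) * hz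

theorem kl_sep_sum3 (u v z : R) (hz : z ^ 4 + z ^ 3 + z ^ 2 + z + 1 = 0) :
    kl_x01 (u) v + z ^ 2 * kl_x01 (z * u) v + z ^ 4 * kl_x01 (z ^ 2 * u) v + z * kl_x01 (z ^ 3 * u) v + z ^ 3 * kl_x01 (z ^ 4 * u) v = 180 * (3 * (u ^ 3 * v ^ 7) + u ^ 8 * v ^ 2) := by
  unfold kl_x01
  linear_combination (3 * u^10 - 3 * u^10 * z + 3 * u^10 * z^5 - 3 * u^10 * z^6 + 3 * u^10 * z^10 - 3 * u^10 * z^11 + 3 * u^10 * z^12 - 3 * u^10 * z^13 + 3 * u^10 * z^15 - 3 * u^10 * z^16 + 3 * u^10 * z^17 - 3 * u^10 * z^18 + 3 * u^10 * z^20 - 3 * u^10 * z^21 + 3 * u^10 * z^22 - 3 * u^10 * z^23 + 3 * u^10 * z^24 - 3 * u^10 * z^26 + 3 * u^10 * z^27 - 3 * u^10 * z^28 + 3 * u^10 * z^29 - 3 * u^10 * z^33 + 3 * u^10 * z^34 - 3 * u^10 * z^38 + 3 * u^10 * z^39 - 144 * u^8 * v^2 + 144 * u^8 * v^2 * z - 144 * u^8 * v^2 * z^5 + 144 * u^8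 * v^2 * z^6 - 108 * u^8 * v^2 * z^10 + 108 * u^8 * v^2 * z^11 - 108 * u^8 * v^2 * z^15 + 108 * u^8 * v^2 * z^16 - 72 * u^8 * v^2 * z^20 + 72 * u^8 * v^2 * z^21 - 36 * u^8 * v^2 * z^25 + 36 * u^8 * v^2 * z^26 - 36 * u^8 * v^2 * z^30 + 36 * u^8 * v^2 * z^31 - 36 * u^7 * v^3 + 36 * u^7 * v^3 * z - 36 * u^7 * v^3 * z^5 + 36 * u^7 * v^3 * z^6 - 36 * u^7 * v^3 * z^9 + 36 * u^7 * v^3 * z^11 - 36 * u^7 * v^3 * z^14 + 36 * u^7 * v^3 * z^16 - 36 * u^7 * v^3 * z^18 + 36 * u^7 * v^3 * z^21 - 36 * u^7 * v^3 * z^22 + 36 * u^7 * v^3 * z^26 - 36 * u^7 * v^3 * z^27 + 72 * u^6 * v^4 - 72 * u^6 * v^4 * z + 72 * u^6 * v^4 * z^5 - 72 * u^6 * v^4 * z^6 + 72 * u^6 * v^4 * z^8 - 72 * u^6 * v^4 * z^9 + 72 * u^6 * v^4 * z^10 - 72 * u^6 * v^4 * z^11 + 72 * u^6 * v^4 * z^13 - 72 * u^6 * v^4 * z^14 + 72 * u^6 * v^4 * z^15 - 72 *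 u^6 * v^4 * z^17 + 72 * u^6 * v^4 * z^18 - 72 * u^6 * v^4 * z^22 + 72 * u^6 * v^4 * z^23 + 90 * u^5 * v^5 - 90 * u^5 * v^5 * z + 90 * u^5 * v^5 * z^5 - 90 * u^5 * v^5 * z^6 + 90 * u^5 * v^5 * z^7 - 90 * u^5 * v^5 * z^8 + 90 * u^5 * v^5 * z^10 - 90 * u^5 * v^5 * z^11 + 90 * u^5 * v^5 * z^12 - 90 * u^5 * v^5 * z^13 + 90 * u^5 * v^5 * z^14 - 90 * u^5 * v^5 * z^18 + 90 * u^5 * v^5 * z^19 + 180 * u^4 * v^6 - 180 * u^4 * v^6 * z + 180 * u^4 * v^6 * z^5 - 180 * u^4 * v^6 * z^7 + 180 * u^4 * v^6 * z^10 - 180 * u^4 * v^6 * z^14 + 180 * u^4 * v^6 * z^15 - 432 * u^3 * v^7 + 432 * u^3 * v^7 * z - 324 * u^3 * v^7 * z^5 + 324 * u^3 * v^7 * z^6 - 108 * u^3 * v^7 * z^10 + 108 * u^3 * v^7 * z^11 + 72 * u^2 * v^8 - 72 * u^2 * v^8 * z + 72 * u^2 * v^8 * z^4 - 72 * u^2 * v^8 * z^6 + 72 * u^2 * v^8 * z^7 + 36 * u * v^9 -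 36 * u * v^9 * z + 36 * u * v^9 * z^3 + 3 * v^10) * hz

theorem kl_sep_sum4 (u v z : R) (hz : z ^ 4 + z ^ 3 + z ^ 2 + z + 1 = 0) :
    kl_x01 (u) v + z * kl_x01 (z * u) v + z ^ 2 * kl_x01 (z ^ 2 * u) v + z ^ 3 * kl_x01 (z ^ 3 * u) v + z ^ 4 * kl_x01 (z ^ 4 * u) v = 900 * (u ^ 4 * v ^ 6) := by
  unfold kl_x01
  linear_combination (3 * u^10 - 3 * u^10 * z + 3 * u^10 * z^5 - 3 * u^10 * z^6 + 3 * u^10 * z^10 - 3 * u^10 * z^12 + 3 * u^10 * z^15 - 3 * u^10 * z^17 + 3 * u^10 * z^20 - 3 * u^10 * z^23 + 3 * u^10 * z^25 - 3 * u^10 * z^28 + 3 * u^10 * z^30 - 3 * u^10 * z^34 + 3 * u^10 * z^35 - 3 * u^10 * z^39 + 3 * u^10 * z^40 + 36 * u^8 * v^2 - 36 * u^8 * v^2 * z + 36 * u^8 * v^2 * z^5 - 36 * u^8 * v^2 * z^6 + 36 * u^8 * v^2 * z^9 - 36 * u^8 * v^2 * z^11 + 36 * u^8 * v^2 * z^14 - 36 * u^8 * v^2 * z^16 + 36 * u^8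 * v^2 * z^18 - 36 * u^8 * v^2 * z^21 + 36 * u^8 * v^2 * z^23 - 36 * u^8 * v^2 * z^26 + 36 * u^8 * v^2 * z^27 - 36 * u^8 * v^2 * z^31 + 36 * u^8 * v^2 * z^32 - 36 * u^7 * v^3 + 36 * u^7 * v^3 * z - 36 * u^7 * v^3 * z^5 + 36 * u^7 * v^3 * z^6 - 36 * u^7 * v^3 * z^8 + 36 * u^7 * v^3 * z^9 - 36 * u^7 * v^3 * z^10 + 36 * u^7 * v^3 * z^11 - 36 * u^7 * v^3 * z^13 + 36 * u^7 * v^3 * z^14 - 36 * u^7 * v^3 * z^15 + 36 * u^7 * v^3 * z^17 - 36 * u^7 * v^3 * z^18 + 36 * u^7 * v^3 * z^19 - 36 * u^7 * v^3 * z^20 + 36 * u^7 * v^3 * z^22 - 36 * u^7 * v^3 * z^23 + 36 * u^7 * v^3 * z^27 - 36 * u^7 * v^3 * z^28 + 72 * u^6 * v^4 - 72 * u^6 * v^4 * z + 72 * u^6 * v^4 * z^5 - 72 * u^6 * v^4 * z^6 + 72 * u^6 * v^4 * z^7 - 72 * u^6 * v^4 * z^8 + 72 * u^6 * v^4 * z^10 - 72 * u^6 * v^4 * z^11 + 72 * u^6 * v^4 * z^12 - 72 * u^6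 * v^4 * z^13 + 72 * u^6 * v^4 * z^14 - 72 * u^6 * v^4 * z^16 + 72 * u^6 * v^4 * z^17 - 72 * u^6 * v^4 * z^18 + 72 * u^6 * v^4 * z^19 - 72 * u^6 * v^4 * z^23 + 72 * u^6 * v^4 * z^24 + 90 * u^5 * v^5 - 90 * u^5 * v^5 * z + 90 * u^5 * v^5 * z^5 - 90 * u^5 * v^5 * z^7 + 90 * u^5 * v^5 * z^10 - 90 * u^5 * v^5 * z^13 + 90 * u^5 * v^5 * z^15 - 90 * u^5 * v^5 * z^19 + 90 * u^5 * v^5 * z^20 - 720 * u^4 * v^6 + 720 * u^4 * v^6 * z - 540 * u^4 * v^6 * z^5 + 540 * u^4 * v^6 * z^6 - 360 * u^4 * v^6 * z^10 + 360 * u^4 * v^6 * z^11 - 180 * u^4 * v^6 * z^15 + 180 * u^4 * v^6 * z^16 + 108 * u^3 * v^7 - 108 * u^3 * v^7 * z + 108 * u^3 * v^7 * z^4 - 108 * u^3 * v^7 * z^6 + 108 * u^3 * v^7 * z^8 - 108 * u^3 * v^7 * z^11 + 108 * u^3 * v^7 * z^12 + 72 * u^2 * v^8 - 72 * u^2 * v^8 * z + 72 * u^2 * v^8 * z^3 - 72 * u^2 * v^8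 * z^4 + 72 * u^2 * v^8 * z^5 - 72 * u^2 * v^8 * z^7 + 72 * u^2 * v^8 * z^8 + 36 * u * v^9 - 36 * u * v^9 * z + 36 * u * v^9 * z^2 - 36 * u * v^9 * z^3 + 36 * u * v^9 * z^4 + 3 * v^10) * hz

end sums

section algebra

variable {K : Type*} [Field K] [CharZero K]

/-- **Separation, coordinate level.**  If the five values `x01(zⁱ u, v)` agree at `(u, v)` and
`(u', v')` (all coordinates nonzero), then `(u', v') = lam • (u, v)` with `lam ^ 10 = 1`. -/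
theorem kl_sep_alg (z u v u' v' : K) (hz : z ^ 4 + z ^ 3 + z ^ 2 + z + 1 = 0)
    (hu : u ≠ 0) (hv : v ≠ 0) (hu' : u' ≠ 0) (hv' : v' ≠ 0)
    (h0 : kl_x01 u v = kl_x01 u' v') (h1 : kl_x01 (z * u) v = kl_x01 (z * u') v')
    (h2 : kl_x01 (z ^ 2 * u) v = kl_x01 (z ^ 2 * u') v')
    (h3 : kl_x01 (z ^ 3 * u) v = kl_x01 (z ^ 3 * u') v')
    (h4 : kl_x01 (z ^ 4 * u) v = kl_x01 (z ^ 4 * u') v') :
    ∃ lam : K, lam ^ 10 = 1 ∧ u' = lam * u ∧ v' = lam * v := by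
  have s0 := kl_sep_sum0 u v z hz
  have s0' := kl_sep_sum0 u' v' z hz
  have s1 := kl_sep_sum1 u v z hz
  have s1' := kl_sep_sum1 u' v' z hz
  have s2 := kl_sep_sum2 u v z hz
  have s2' := kl_sep_sum2 u' v' z hz
  have s3 := kl_sep_sum3 u v z hz
  have s3' := kl_sep_sum3 u' v' z hz
  have s4 := kl_sep_sum4 u v z hz
  have s4' := kl_sep_sum4 u' v' z hz
  rw [h0, h1, h2, h3, h4] at s0 s1 s2 s3 s4
  have e0 : v ^ 10 + 30 * (u ^ 5 * v ^ 5) + u ^ 10 = v' ^ 10 + 30 * (u' ^ 5 * v' ^ 5) + u' ^ 10 := by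
    have := s0.symm.trans s0'
    have h15 : (15 : K) ≠ 0 := by norm_num
    exact mul_left_cancel₀ h15 this
  have e1 : u * v ^ 9 + 2 * (u ^ 6 * v ^ 4) = u' * v' ^ 9 + 2 * (u' ^ 6 * v' ^ 4) := by
    have := s1.symm.trans s1'
    have h180 : (180 : K) ≠ 0 := by norm_num
    exact mul_left_cancel₀ h180 this
  have e2 : 2 * (u ^ 2 * v ^ 8) - u ^ 7 * v ^ 3 = 2 * (u' ^ 2 * v' ^ 8) - u' ^ 7 * v' ^ 3 := by
    have := s2.symm.trans s2'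
    have h180 : (180 : K) ≠ 0 := by norm_num
    exact mul_left_cancel₀ h180 this
  have e3 : 3 * (u ^ 3 * v ^ 7) + u ^ 8 * v ^ 2 = 3 * (u' ^ 3 * v' ^ 7) + u' ^ 8 * v' ^ 2 := by
    have := s3.symm.trans s3'
    have h180 : (180 : K) ≠ 0 := by norm_num
    exact mul_left_cancel₀ h180 this
  have e4 : u ^ 4 * v ^ 6 = u' ^ 4 * v' ^ 6 := by
    have := s4.symm.trans s4'
    have h900 : (900 : K) ≠ 0 := by norm_num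
    exact mul_left_cancel₀ h900 this
  -- `u⁹ v¹¹`
  have key : ∀ a b : K, 125 * (a ^ 9 * b ^ 11) =
      5 * (b ^ 10 + 30 * (a ^ 5 * b ^ 5) + a ^ 10) * (a ^ 4 * b ^ 6)
        - 3 * (3 * (a ^ 3 * b ^ 7) + a ^ 8 * b ^ 2) * (a * b ^ 9 + 2 * (a ^ 6 * b ^ 4))
        + (2 * (a ^ 2 * b ^ 8) - a ^ 7 * b ^ 3) ^ 2 := by
    intro a b; ring
  have e9 : u ^ 9 * v ^ 11 = u' ^ 9 * v' ^ 11 := by
    have h125 : (125 : K) ≠ 0 := by norm_num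
    apply mul_left_cancel₀ h125
    rw [key u v, key u' v', e0, e1, e2, e3, e4]
  have hm4 : u ^ 4 * v ^ 6 ≠ 0 := mul_ne_zero (pow_ne_zero _ hu) (pow_ne_zero _ hv)
  -- `u⁵ v⁵`
  have e5 : u ^ 5 * v ^ 5 = u' ^ 5 * v' ^ 5 := by
    apply mul_left_cancel₀ hm4
    calc u ^ 4 * v ^ 6 * (u ^ 5 * v ^ 5) = u ^ 9 * v ^ 11 := by ring
      _ = u' ^ 9 * v' ^ 11 := e9
      _ = u' ^ 4 * v' ^ 6 * (u' ^ 5 * v' ^ 5) := by ring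
      _ = u ^ 4 * v ^ 6 * (u' ^ 5 * v' ^ 5) := by rw [e4]
  -- `u v' = u' v`
  have hc : u ^ 4 * v ^ 5 * (u' ^ 4 * v' ^ 5) ≠ 0 :=
    mul_ne_zero (mul_ne_zero (pow_ne_zero _ hu) (pow_ne_zero _ hv))
      (mul_ne_zero (pow_ne_zero _ hu') (pow_ne_zero _ hv'))
  have hr : u * v' = u' * v := by
    apply mul_left_cancel₀ hc
    calc u ^ 4 * v ^ 5 * (u' ^ 4 * v' ^ 5) * (u * v') = (u ^ 5 * v ^ 5) * (u' ^ 4 * v' ^ 6) := by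
          ring
      _ = (u' ^ 5 * v' ^ 5) * (u ^ 4 * v ^ 6) := by rw [e5, e4]
      _ = u ^ 4 * v ^ 5 * (u' ^ 4 * v' ^ 5) * (u' * v) := by ring
  refine ⟨v' / v, ?_, ?_, ?_⟩
  · have h10 : (v' / v) ^ 10 * (u ^ 4 * v ^ 6) = u ^ 4 * v ^ 6 := by
      have hu'' : u' = v' / v * u := by
        field_simp
        linear_combination -hr
      calc (v' / v) ^ 10 * (u ^ 4 * v ^ 6) = (v' / v * u) ^ 4 * (v' / v * v) ^ 6 := by ring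
        _ = u' ^ 4 * v' ^ 6 := by
            rw [← hu'']
            congr 2
            field_simp
        _ = u ^ 4 * v ^ 6 := e4.symm
    exact mul_right_cancel₀ hm4 (by rw [h10, one_mul])
  · field_simp
    linear_combination -hr
  · field_simp

end algebra

section points

/-- `u ≠ 0` and `v ≠ 0` at a point with `f ≠ 0`. -/
theorem h86_uv_ne_zero {K : Type*} [Field K] {u v : K} (hf : h42rr_f u v ≠ 0) :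
    u ≠ 0 ∧ v ≠ 0 := by
  constructor
  · rintro rfl
    apply hf
    unfold h42rr_f
    ring
  · rintro rfl
    apply hf
    unfold h42rr_f
    ring

/-- The `x`-coordinate of a point (`0` at infinity). -/
noncomputable def h86_xOf {A B : ℤ} : h86_Pt A B → Qbar
  | .zero => 0
  | .some x _ _ => x

theorem klP01_xOf {A B : ℤ} {u v : Qbar} (hb : h86_Base A B u v) :
    h86_xOf (klP01 A B u v) = kl_x01 u v := by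
  rw [klP01_eq hb]
  rfl

/-- `(u, v) ↦ (ζ u, v)` preserves base points. -/
theorem h86_Base_zeta {A B : ℤ} {u v ζ : Qbar} (hζ : h86_Z5 ζ) (hb : h86_Base A B u v) :
    h86_Base A B (ζ * u) v :=
  ⟨hb.1, by rw [kl_H_t u v ζ hζ, hb.2.1], by rw [kl_T_t u v ζ hζ, hb.2.2]⟩

/-- **Separation** (field `sep` of `h86_KlData`) from the laws `lawT10`, `lawT01`, `lawScal10`,
`lawScal01`. -/
theorem klSep_of
    (hT10 : ∀ (ζ : Qbar) (A B : ℤ) (u v : Qbar), h86_Z5 ζ → h86_Base A B u v →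
      klP10 ζ A B (ζ ^ 3 * u) (ζ ^ 2 * v) = klP10 ζ A B u v)
    (hT01 : ∀ (ζ : Qbar) (A B : ℤ) (u v : Qbar), h86_Z5 ζ → h86_Base A B u v →
      klP01 A B (ζ ^ 3 * u) (ζ ^ 2 * v) = klP01 A B u v + klP10 ζ A B u v)
    (hS10 : ∀ (ζ : Qbar) (A B : ℤ) (u v lam : Qbar), h86_Z5 ζ → h86_Base A B u v →
      lam ^ 5 = 1 → klP10 ζ A B (lam * u) (lam * v) = klP10 ζ A B u v)
    (hS01 : ∀ (A B : ℤ) (u v lam : Qbar), h86_Base A B u v → lam ^ 5 = 1 →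
      klP01 A B (lam * u) (lam * v) = klP01 A B u v)
    (ζ : Qbar) (A B : ℤ) (u v u' v' : Qbar) (hζ : h86_Z5 ζ) (hb : h86_Base A B u v)
    (hb' : h86_Base A B u' v')
    (h10 : klP10 ζ A B u v = klP10 ζ A B u' v') (h01 : klP01 A B u v = klP01 A B u' v') :
    ∃ lam : Qbar, lam ^ 10 = 1 ∧ u' = lam * u ∧ v' = lam * v := by
  have h5 : ζ ^ 5 = 1 := kl_zeta_pow_five ζ hζ
  have hl3 : (ζ ^ 3) ^ 5 = 1 := by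
    have : (ζ ^ 3) ^ 5 = (ζ ^ 5) ^ 3 := by ring
    rw [this, h5, one_pow]
  have hl2 : (ζ ^ 2) ^ 10 = 1 := by
    have : (ζ ^ 2) ^ 10 = (ζ ^ 5) ^ 4 := by ring
    rw [this, h5, one_pow]
  -- the laws in the form `(u, v) ↦ (ζ u, v)`
  have hargs : ∀ a b : Qbar, ζ ^ 3 * (ζ ^ 3 * a) = ζ * a ∧ ζ ^ 3 * (ζ ^ 2 * b) = b := by
    intro a b
    constructor
    · have : ζ ^ 3 * (ζ ^ 3 * a) = ζ ^ 5 * (ζ * a) := by ring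
      rw [this, h5, one_mul]
    · have : ζ ^ 3 * (ζ ^ 2 * b) = ζ ^ 5 * b := by ring
      rw [this, h5, one_mul]
  have hbt : ∀ a b : Qbar, h86_Base A B a b → h86_Base A B (ζ ^ 3 * a) (ζ ^ 2 * b) := by
    intro a b hab
    have h1 := h86_Base_smul (h86_Base_zeta hζ hab) hl2
    have e1 : ζ ^ 2 * (ζ * a) = ζ ^ 3 * a := by ring
    rwa [e1] at h1
  have T10 : ∀ a b : Qbar, h86_Base A B a b → klP10 ζ A B (ζ * a) b = klP10 ζ A B a b := by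
    intro a b hab
    have h1 := hS10 ζ A B (ζ ^ 3 * a) (ζ ^ 2 * b) (ζ ^ 3) hζ (hbt a b hab) hl3
    rw [(hargs a b).1, (hargs a b).2] at h1
    rw [h1, hT10 ζ A B a b hζ hab]
  have T01 : ∀ a b : Qbar, h86_Base A B a b →
      klP01 A B (ζ * a) b = klP01 A B a b + klP10 ζ A B a b := by
    intro a b hab
    have h1 := hS01 A B (ζ ^ 3 * a) (ζ ^ 2 * b) (ζ ^ 3) (hbt a b hab) hl3
    rw [(hargs a b).1, (hargs a b).2] at h1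
    rw [h1, hT01 ζ A B a b hζ hab]
  -- iterate
  have iter : ∀ (n : ℕ) (a b : Qbar), h86_Base A B a b →
      h86_Base A B (ζ ^ n * a) b ∧
      klP10 ζ A B (ζ ^ n * a) b = klP10 ζ A B a b ∧
      klP01 A B (ζ ^ n * a) b = klP01 A B a b + n • klP10 ζ A B a b := by
    intro n
    induction n with
    | zero =>
      intro a b hab
      rw [pow_zero, one_mul, zero_nsmul, add_zero]
      exact ⟨hab, rfl, rfl⟩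
    | succ n ih =>
      intro a b hab
      obtain ⟨hbn, h10n, h01n⟩ := ih a b hab
      have e : ζ ^ (n + 1) * a = ζ * (ζ ^ n * a) := by ring
      rw [e]
      refine ⟨h86_Base_zeta hζ hbn, ?_, ?_⟩
      · rw [T10 _ _ hbn, h10n]
      · rw [T01 _ _ hbn, h01n, h10n, succ_nsmul, add_assoc]
  -- equality of the `x`-coordinates
  have hx : ∀ n : ℕ, kl_x01 (ζ ^ n * u) v = kl_x01 (ζ ^ n * u') v' := by
    intro n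
    obtain ⟨hbn, -, h01n⟩ := iter n u v hb
    obtain ⟨hbn', -, h01n'⟩ := iter n u' v' hb'
    have : klP01 A B (ζ ^ n * u) v = klP01 A B (ζ ^ n * u') v' := by
      rw [h01n, h01n', h10, h01]
    have h2 := congrArg h86_xOf this
    rwa [klP01_xOf hbn, klP01_xOf hbn'] at h2
  obtain ⟨hu, hv⟩ := h86_uv_ne_zero (h86_Base_f_ne_zero hb)
  obtain ⟨hu', hv'⟩ := h86_uv_ne_zero (h86_Base_f_ne_zero hb')
  have hx0 := hx 0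
  have hx1 := hx 1
  simp only [pow_zero, one_mul, pow_one] at hx0 hx1
  exact kl_sep_alg ζ u v u' v' hζ hu hv hu' hv' hx0 hx1 (hx 2) (hx 3) (hx 4)

end points

end Fermat.Agent.S52
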