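import Fermat.Agent.S52.Klein.Points

/-!
# S52, FORMULAS, row F-TORS01: the universal point `P01` is killed by `5`

Author: helper49.  `2 • P01 = P02`, `2 • P02 = -P01` (coordinate identities `kl_dup01_*`,
`kl_dup02_*` of `Klein/Laws.lean`), hence `4 • P01 = -P01` and `5 • P01 = 0`.
-/

set_option autoImplicit false

namespace Fermat.Agent.S52

open WeierstrassCurve WeierstrassCurve.Affine

local notation "Qbar" => AlgebraicClosure ℚ

/-- At a base point `y01 ≠ 0`. -/
theorem h49_kl_y01_ne_zero {A B : ℤ} {u v : Qbar} (hb : h86_Base A B u v) :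
    2 * kl_y01 u v ≠ 0 := by
  intro h
  have hy : kl_y01 u v = 0 := by
    rcases mul_eq_zero.1 h with h2 | h2
    · exact absurd h2 (by norm_num)
    · exact h2
  have hns := h86_E_nonsingular hb (kl_on01 u v)
  have hd := h86_short_deriv_ne_zero (h86_E_a₁ A B) (h86_E_a₂ A B) (h86_E_a₃ A B) hns hy
  apply hd
  rw [h86_E_a₄_base hb]
  have hx := kl_dup01_x u v
  rw [hy] at hx
  have h0 : (3 * kl_x01 u v ^ 2 + 27 * h42rr_H u v) ^ 2 = 0 := by
    rw [← hx]; ring
  exact pow_eq_zero_iff (by norm_num) |>.1 h0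

/-- At a base point `y02 ≠ 0`. -/
theorem h49_kl_y02_ne_zero {A B : ℤ} {u v : Qbar} (hb : h86_Base A B u v) :
    2 * kl_y02 u v ≠ 0 := by
  intro h
  have hy : kl_y02 u v = 0 := by
    rcases mul_eq_zero.1 h with h2 | h2
    · exact absurd h2 (by norm_num)
    · exact h2
  have hns := h86_E_nonsingular hb (kl_on02 u v)
  have hd := h86_short_deriv_ne_zero (h86_E_a₁ A B) (h86_E_a₂ A B) (h86_E_a₃ A B) hns hy
  apply hd
  rw [h86_E_a₄_base hb]
  have hx := kl_dup02_x u v
  rw [hy] at hx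
  have h0 : (3 * kl_x02 u v ^ 2 + 27 * h42rr_H u v) ^ 2 = 0 := by
    rw [← hx]; ring
  exact pow_eq_zero_iff (by norm_num) |>.1 h0

/-- The equation of the universal curve at `(x01, -y01)`. -/
theorem h49_kl_on01_neg {R : Type*} [CommRing R] (u v : R) :
    (-kl_y01 u v) ^ 2 = kl_x01 u v ^ 3 + 27 * h42rr_H u v * kl_x01 u v + 54 * h42rr_T u v := by
  rw [neg_sq]; exact kl_on01 u v

/-- The point `P02 = 2 • P01`. -/
noncomputable def h49_klP02 {A B : ℤ} {u v : Qbar} (hb : h86_Base A B u v) : h86_Pt A B :=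
  Point.some (kl_x02 u v) (kl_y02 u v) (h86_E_nonsingular hb (kl_on02 u v))

/-- `P01 + P01 = P02`. -/
theorem h49_klP01_add_self {A B : ℤ} {u v : Qbar} (hb : h86_Base A B u v) :
    klP01 A B u v + klP01 A B u v = h49_klP02 hb := by
  rw [klP01_eq hb, h49_klP02]
  refine h86_short_dbl (h86_E_a₁ A B) (h86_E_a₂ A B) (h86_E_a₃ A B) _ _
    (h49_kl_y01_ne_zero hb) ?_ ?_
  · rw [h86_E_a₄_base hb]; exact kl_dup01_x u v
  · rw [h86_E_a₄_base hb]; exact kl_dup01_y u v

/-- `P02 + P02 = -P01`. -/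
theorem h49_klP02_add_self {A B : ℤ} {u v : Qbar} (hb : h86_Base A B u v) :
    h49_klP02 hb + h49_klP02 hb = -klP01 A B u v := by
  rw [klP01_eq hb, h49_klP02,
    h86_short_neg (h86_E_a₁ A B) (h86_E_a₃ A B) _ (h86_E_nonsingular hb (h49_kl_on01_neg u v))]
  refine h86_short_dbl (h86_E_a₁ A B) (h86_E_a₂ A B) (h86_E_a₃ A B) _ _
    (h49_kl_y02_ne_zero hb) ?_ ?_
  · rw [h86_E_a₄_base hb]; exact kl_dup02_x u v
  · rw [h86_E_a₄_base hb]; exact kl_dup02_y u v

/-- **(F-TORS01)** The universal point `P01` is killed by `5`. -/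
theorem klTors01 : ∀ (A B : ℤ) (u v : Qbar), h86_Base A B u v →
    (5 : ℤ) • klP01 A B u v = 0 := by
  intro A B u v hb
  have h1 := h49_klP01_add_self hb
  have h2 := h49_klP02_add_self hb
  have h3 : (5 : ℤ) • klP01 A B u v
      = (klP01 A B u v + klP01 A B u v) + (klP01 A B u v + klP01 A B u v) + klP01 A B u v := by
    abel
  rw [h3, h1, h2]
  exact neg_add_cancel _

/-- `2 • P01 = P02` and `4 • P01 = -P01` in `smul` form. -/
theorem h49_two_smul_klP01 {A B : ℤ} {u v : Qbar} (hb : h86_Base A B u v) :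
    (2 : ℤ) • klP01 A B u v = h49_klP02 hb := by
  rw [two_zsmul]; exact h49_klP01_add_self hb

end Fermat.Agent.S52
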