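import Fermat.Agent.S52.Klein.Points

/-!
# S52, FORMULAS, row F-TORS10 (helper57): `klLawG` and `klTors10`

* `klLawG   : klP10 (ζ ^ 2) A B u v = (2 : ℤ) • klP10 ζ A B u v`;
* `klTors10 : (5 : ℤ) • klP10 ζ A B u v = 0`.
-/

set_option autoImplicit false

namespace Fermat.Agent.S52

open WeierstrassCurve WeierstrassCurve.Affine

local notation "Qbar" => AlgebraicClosure ℚ

/-- The square of a primitive fifth root of unity is a primitive fifth root of unity. -/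
theorem h57_Z5_sq {ζ : Qbar} (hζ : h86_Z5 ζ) : h86_Z5 (ζ ^ 2) := by
  unfold h86_Z5 at hζ ⊢
  linear_combination (ζ ^ 4 - ζ ^ 3 + ζ ^ 2 - ζ + 1) * hζ

/-- The `y`-coordinate of `P10` does not vanish at a base point. -/
theorem h57_two_y10_ne_zero {ζ : Qbar} (hζ : h86_Z5 ζ) {A B : ℤ} {u v : Qbar}
    (hb : h86_Base A B u v) : 2 * kl_y10 ζ u v ≠ 0 := by
  intro h
  have hy : kl_y10 ζ u v = 0 := by
    rcases mul_eq_zero.1 h with h2 | h2
    · norm_num at h2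
    · exact h2
  have hns : (h86_E A B).toAffine.Nonsingular (kl_x10 ζ u v) (kl_y10 ζ u v) :=
    h86_E_nonsingular hb (kl_on10_field h86_five_ne_zero u v ζ hζ)
  have hd := h86_short_deriv_ne_zero (h86_E_a₁ A B) (h86_E_a₂ A B) (h86_E_a₃ A B) hns hy
  rw [h86_E_a₄_base hb] at hd
  apply hd
  have hx := kl_dup10_x u v ζ hζ
  have hY : kl_Y10 ζ u v = 0 := by
    unfold kl_y10 at hy
    exact (div_eq_zero_iff.1 hy).resolve_right h86_five_ne_zero
  rw [hY] at hx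
  have h0 : (3 * kl_X10 ζ u v ^ 2 + 675 * h42rr_H u v) ^ 2 = 0 := by
    rw [← hx]
    ring
  have h1 : 3 * kl_X10 ζ u v ^ 2 + 675 * h42rr_H u v = 0 := by
    exact pow_eq_zero_iff (n := 2) (by norm_num) |>.1 h0
  unfold kl_x10
  have h5 : (5 : Qbar) ≠ 0 := h86_five_ne_zero
  field_simp
  linear_combination h1

/-- **`lawG`**: `P10(ζ²) = 2 • P10(ζ)`. -/
theorem klLawG (ζ : Qbar) (A B : ℤ) (u v : Qbar) (hζ : h86_Z5 ζ) (hb : h86_Base A B u v) :
    klP10 (ζ ^ 2) A B u v = (2 : ℤ) • klP10 ζ A B u v := by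
  rw [klP10_eq (h57_Z5_sq hζ) hb, klP10_eq hζ hb, two_zsmul]
  symm
  have h5 : (5 : Qbar) ≠ 0 := h86_five_ne_zero
  refine h86_short_dbl (h86_E_a₁ A B) (h86_E_a₂ A B) (h86_E_a₃ A B) _ _
    (h57_two_y10_ne_zero hζ hb) ?_ ?_
  · rw [h86_E_a₄_base hb]
    have h := kl_dup10_x u v ζ hζ
    unfold kl_x10 kl_y10
    field_simp
    linear_combination h
  · rw [h86_E_a₄_base hb]
    have h := kl_dup10_y u v ζ hζ
    unfold kl_x10 kl_y10
    field_simp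
    linear_combination h

/-- `P10(ζ⁴) = - P10(ζ)`. -/
theorem h57_klP10_pow_four (ζ : Qbar) (A B : ℤ) (u v : Qbar) (hζ : h86_Z5 ζ)
    (hb : h86_Base A B u v) : klP10 (ζ ^ 4) A B u v = -klP10 ζ A B u v := by
  have hζ4 : h86_Z5 (ζ ^ 4) := by
    have := h57_Z5_sq (h57_Z5_sq hζ)
    rwa [← pow_mul] at this
  rw [klP10_eq hζ4 hb, klP10_eq hζ hb]
  have hx : kl_x10 (ζ ^ 4) u v = kl_x10 ζ u v := by
    unfold kl_x10
    rw [kl_neg10_x u v ζ hζ]
  have hy : kl_y10 (ζ ^ 4) u v = -kl_y10 ζ u v := by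
    unfold kl_y10
    rw [kl_neg10_y u v ζ hζ, neg_div]
  have hns : (h86_E A B).toAffine.Nonsingular (kl_x10 ζ u v) (-kl_y10 ζ u v) := by
    have := h86_E_nonsingular hb (kl_on10_field h86_five_ne_zero u v (ζ ^ 4) hζ4)
    rwa [hx, hy] at this
  rw [h86_short_neg (h86_E_a₁ A B) (h86_E_a₃ A B) _ hns]
  exact h86_some_congr _ _ hx hy

/-- **`tors10`**: `5 • P10(ζ) = 0`. -/
theorem klTors10 (ζ : Qbar) (A B : ℤ) (u v : Qbar) (hζ : h86_Z5 ζ) (hb : h86_Base A B u v) :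
    (5 : ℤ) • klP10 ζ A B u v = 0 := by
  have h1 := klLawG ζ A B u v hζ hb
  have h2 := klLawG (ζ ^ 2) A B u v (h57_Z5_sq hζ) hb
  have h3 := h57_klP10_pow_four ζ A B u v hζ hb
  rw [← pow_mul] at h2
  norm_num at h2
  rw [h1, h3] at h2
  -- `h2 : - P = 2 • 2 • P`
  have h4 : (5 : ℤ) • klP10 ζ A B u v
      = (2 : ℤ) • (2 : ℤ) • klP10 ζ A B u v + klP10 ζ A B u v := by
    rw [smul_smul, ← add_one_zsmul]
    norm_num
  rw [h4, ← h2, neg_add_cancel]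

end Fermat.Agent.S52
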