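import Fermat.Agent.S52.Klein.LawS
import Fermat.Agent.S52.Klein.LawT
import Fermat.Agent.S52.Klein.Tors01
import Fermat.Agent.S52.Klein.Tors10
import Fermat.Agent.S52.Klein.Indep
import Fermat.Agent.S52.Klein.Sep

/-!
# S52, FORMULAS row F-DATA: the universal 5-torsion datum `klData : h86_KlData`

helper86.  Assembles the fields proved in `Klein/LawS.lean` (helper5), `Klein/LawT.lean`
(helper10), `Klein/Tors01.lean` (helper49), `Klein/Tors10.lean` (helper57), `Klein/Indep.lean`,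
`Klein/Sep.lean` (helper86), and proves the scalar, negation and Galois laws (row F-SCAL) on
the way.
-/

set_option autoImplicit false

namespace Fermat.Agent.S52

open WeierstrassCurve WeierstrassCurve.Affine

local notation "Qbar" => AlgebraicClosure ℚ

theorem h86d_pow_ten {lam : Qbar} (hl : lam ^ 5 = 1) : lam ^ 10 = 1 := by
  have : lam ^ 10 = (lam ^ 5) ^ 2 := by ring
  rw [this, hl, one_pow]

theorem h86d_pow_fifteen {lam : Qbar} (hl : lam ^ 5 = 1) : lam ^ 15 = 1 := by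
  have : lam ^ 15 = (lam ^ 5) ^ 3 := by ring
  rw [this, hl, one_pow]

/-- Field `lawScal01`. -/
theorem h86d_lawScal01 (A B : ℤ) (u v lam : Qbar) (hb : h86_Base A B u v) (hl : lam ^ 5 = 1) :
    klP01 A B (lam * u) (lam * v) = klP01 A B u v := by
  have hb' := h86_Base_smul hb (h86d_pow_ten hl)
  rw [klP01_eq hb', klP01_eq hb]
  apply h86_some_congr
  · rw [kl_x01_smul, h86d_pow_ten hl, one_mul]
  · rw [kl_y01_smul, h86d_pow_fifteen hl, one_mul]

/-- Field `lawScal10`. -/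
theorem h86d_lawScal10 (ζ : Qbar) (A B : ℤ) (u v lam : Qbar) (hζ : h86_Z5 ζ)
    (hb : h86_Base A B u v) (hl : lam ^ 5 = 1) :
    klP10 ζ A B (lam * u) (lam * v) = klP10 ζ A B u v := by
  have hb' := h86_Base_smul hb (h86d_pow_ten hl)
  rw [klP10_eq hζ hb', klP10_eq hζ hb]
  apply h86_some_congr
  · unfold kl_x10
    rw [kl_X10_smul, h86d_pow_ten hl, one_mul]
  · unfold kl_y10
    rw [kl_Y10_smul, h86d_pow_fifteen hl, one_mul]

theorem h86d_Base_neg {A B : ℤ} {u v : Qbar} (hb : h86_Base A B u v) :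
    h86_Base A B (-u) (-v) := by
  have h := h86_Base_smul hb (lam := -1) (by norm_num)
  simpa using h

/-- Field `lawNeg01`. -/
theorem h86d_lawNeg01 (A B : ℤ) (u v : Qbar) (hb : h86_Base A B u v) :
    klP01 A B (-u) (-v) = -klP01 A B u v := by
  have hb' := h86d_Base_neg hb
  have hon : (-kl_y01 u v) ^ 2
      = kl_x01 u v ^ 3 + 27 * h42rr_H u v * kl_x01 u v + 54 * h42rr_T u v := by
    rw [neg_sq]; exact kl_on01 u v
  rw [klP01_eq hb', klP01_eq hb,
    h86_short_neg (h86_E_a₁ A B) (h86_E_a₃ A B) _ (h86_E_nonsingular hb hon)]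
  apply h86_some_congr
  · have h := kl_x01_smul (-1 : Qbar) u v
    simp only [neg_one_mul] at h
    rw [h]; norm_num
  · have h := kl_y01_smul (-1 : Qbar) u v
    simp only [neg_one_mul] at h
    rw [h]; norm_num

/-- Field `lawNeg10`. -/
theorem h86d_lawNeg10 (ζ : Qbar) (A B : ℤ) (u v : Qbar) (hζ : h86_Z5 ζ)
    (hb : h86_Base A B u v) :
    klP10 ζ A B (-u) (-v) = -klP10 ζ A B u v := by
  have hb' := h86d_Base_neg hb
  have hon : (-kl_y10 ζ u v) ^ 2
      = kl_x10 ζ u v ^ 3 + 27 * h42rr_H u v * kl_x10 ζ u v + 54 * h42rr_T u v := by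
    rw [neg_sq]; exact kl_on10_field h86_five_ne_zero u v ζ hζ
  rw [klP10_eq hζ hb', klP10_eq hζ hb,
    h86_short_neg (h86_E_a₁ A B) (h86_E_a₃ A B) _ (h86_E_nonsingular hb hon)]
  apply h86_some_congr
  · have h := kl_X10_smul ζ (-1 : Qbar) u v
    simp only [neg_one_mul] at h
    unfold kl_x10
    rw [h]; norm_num
  · have h := kl_Y10_smul ζ (-1 : Qbar) u v
    simp only [neg_one_mul] at h
    unfold kl_y10
    rw [h]; norm_num
    ring

theorem h86d_x01_map (σ : Qbar ≃ₐ[ℚ] Qbar) (u v : Qbar) :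
    σ (kl_x01 u v) = kl_x01 (σ u) (σ v) := by
  simp only [kl_x01, map_add, map_sub, map_mul, map_pow, map_ofNat]

theorem h86d_y01_map (σ : Qbar ≃ₐ[ℚ] Qbar) (u v : Qbar) :
    σ (kl_y01 u v) = kl_y01 (σ u) (σ v) := by
  simp only [kl_y01, map_add, map_mul, map_pow, map_ofNat]

theorem h86d_x10_map (σ : Qbar ≃ₐ[ℚ] Qbar) (ζ u v : Qbar) :
    σ (kl_x10 ζ u v) = kl_x10 (σ ζ) (σ u) (σ v) := by
  simp only [kl_x10, kl_X10, map_div₀, map_add, map_sub, map_neg, map_mul, map_pow, map_ofNat]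

theorem h86d_y10_map (σ : Qbar ≃ₐ[ℚ] Qbar) (ζ u v : Qbar) :
    σ (kl_y10 ζ u v) = kl_y10 (σ ζ) (σ u) (σ v) := by
  simp only [kl_y10, kl_Y10, map_div₀, map_add, map_sub, map_neg, map_mul, map_pow, map_ofNat]

/-- Field `gal01`. -/
theorem h86d_gal01 (σ : Qbar ≃ₐ[ℚ] Qbar) (A B : ℤ) (u v : Qbar) (hb : h86_Base A B u v) :
    σ • klP01 A B u v = klP01 A B (σ u) (σ v) := by
  have hb' := h86_Base_map hb σ
  rw [klP01_eq hb, klP01_eq hb']
  have hns : (h86_E A B).toAffine.Nonsingular (σ (kl_x01 u v)) (σ (kl_y01 u v)) := by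
    rw [h86d_x01_map, h86d_y01_map]
    exact h86_E_nonsingular hb' (kl_on01 _ _)
  rw [h86_smul_some σ _ hns]
  exact h86_some_congr _ _ (h86d_x01_map σ u v) (h86d_y01_map σ u v)

/-- Field `gal10`. -/
theorem h86d_gal10 (σ : Qbar ≃ₐ[ℚ] Qbar) (ζ : Qbar) (A B : ℤ) (u v : Qbar) (hζ : h86_Z5 ζ)
    (hb : h86_Base A B u v) :
    σ • klP10 ζ A B u v = klP10 (σ ζ) A B (σ u) (σ v) := by
  have hb' := h86_Base_map hb σ
  have hζ' := h86_Z5_map hζ σ
  rw [klP10_eq hζ hb, klP10_eq hζ' hb']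
  have hns : (h86_E A B).toAffine.Nonsingular (σ (kl_x10 ζ u v)) (σ (kl_y10 ζ u v)) := by
    rw [h86d_x10_map, h86d_y10_map]
    exact h86_E_nonsingular hb' (kl_on10_field h86_five_ne_zero _ _ _ hζ')
  rw [h86_smul_some σ _ hns]
  exact h86_some_congr _ _ (h86d_x10_map σ ζ u v) (h86d_y10_map σ ζ u v)

/-- **The universal 5-torsion datum.** -/
noncomputable def klData : h86_KlData where
  Sa := kl_Sa
  Sb := kl_Sb
  Sc := kl_Sc
  Sd := kl_Sd
  P10 := klP10
  P01 := klP01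
  symS := klSymS
  tors10 := klTors10
  tors01 := klTors01
  indep := klIndep_of klTors10 klTors01 klLawG
  lawT10 := klLawT10
  lawT01 := klLawT01
  lawS10 := klLawS10
  lawS01 := klLawS01
  lawG := klLawG
  lawScal10 := fun ζ A B u v lam hζ hb hl => h86d_lawScal10 ζ A B u v lam hζ hb hl
  lawScal01 := fun A B u v lam hb hl => h86d_lawScal01 A B u v lam hb hl
  lawNeg10 := h86d_lawNeg10
  lawNeg01 := h86d_lawNeg01
  gal10 := h86d_gal10
  gal01 := h86d_gal01
  sep := klSep_of klLawT10 klLawT01 h86d_lawScal10 h86d_lawScal01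

/-- **(FORMULAS)** `IfaceKlData`. -/
theorem ifaceKlData : IfaceKlData := ⟨klData⟩

end Fermat.Agent.S52
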