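import Fermat.Agent.S52.RealRoot

/-!
# S52 (3-5 switch), FORMULAS block: DEFINITIONS of the universal 5-torsion points

Owner: helper5.  Definitions only.  `f, H, T` are `h42rr_f, h42rr_H, h42rr_T` (`RealRoot.lean`).

* The universal curve at `w = (u, v)` is `y² = x³ + 27 H(u,v) x + 54 T(u,v)`.
* `kl_x01, kl_y01` (resp. `kl_x02, kl_y02`): coordinates of the universal point `P01`
  (resp. `2 • P01`): forms of degree 10 and 15 with integer coefficients.
* `kl_X10 z, kl_Y10 z`: `5 x` and `5 y` for the universal point `P10`; here `z` is a root of the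
  fifth cyclotomic polynomial.  Over a field, `kl_x10 z = kl_X10 z / 5`, `kl_y10 z = kl_Y10 z / 5`.
* `kl_gauss z = z - z² - z³ + z⁴` is a square root of `5`; `(kl_sU z u v, kl_sV z u v)` is
  `√5 • S (u, v)` for Klein's `S`; over a field the entries of `S` are `kl_Sa z, kl_Sb z, kl_Sc z,
  kl_Sd z` (determinant one).
* Klein's `T` is `diag (z³, z²)`.
-/

set_option autoImplicit false

namespace Fermat.Agent.S52

section ring

variable {R : Type*} [CommRing R]

/-- `x`-coordinate of the universal point `P01`. -/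
def kl_x01 (u v : R) : R :=
  3 * u^10 + 36 * u^8 * v^2 - 36 * u^7 * v^3 + 72 * u^6 * v^4 + 90 * u^5 * v^5 + 180 * u^4 * v^6 + 108 * u^3 * v^7 + 72 * u^2 * v^8 + 36 * u * v^9 + 3 * v^10

/-- `y`-coordinate of the universal point `P01`. -/
def kl_y01 (u v : R) : R :=
  108 * u^13 * v^2 + 108 * u^12 * v^3 + 432 * u^11 * v^4 + 540 * u^9 * v^6 + 648 * u^8 * v^7 + 2268 * u^7 * v^8 + 3132 * u^6 * v^9 + 2700 * u^5 * v^10 + 1620 * u^4 * v^11 + 972 * u^3 * v^12 + 432 * u^2 * v^13 + 108 * u * v^14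

/-- `x`-coordinate of `2 • P01`. -/
def kl_x02 (u v : R) : R :=
  3 * u^10 - 36 * u^9 * v + 72 * u^8 * v^2 - 108 * u^7 * v^3 + 180 * u^6 * v^4 - 90 * u^5 * v^5 + 72 * u^4 * v^6 + 36 * u^3 * v^7 + 36 * u^2 * v^8 + 3 * v^10

/-- `y`-coordinate of `2 • P01`. -/
def kl_y02 (u v : R) : R :=
  108 * u^14 * v - 432 * u^13 * v^2 + 972 * u^12 * v^3 - 1620 * u^11 * v^4 + 2700 * u^10 * v^5 - 3132 * u^9 * v^6 + 2268 * u^8 * v^7 - 648 * u^7 * v^8 + 540 * u^6 * v^9 + 432 * u^4 * v^11 - 108 * u^3 * v^12 + 108 * u^2 * v^13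

/-- `5 x` for the universal point `P10`. -/
def kl_X10 (z u v : R) : R :=
  -93 * u^10 - 36 * u^10 * z^2 - 36 * u^10 * z^3 - 198 * u^5 * v^5 - 396 * u^5 * v^5 * z^2 - 396 * u^5 * v^5 * z^3 - 57 * v^10 + 36 * v^10 * z^2 + 36 * v^10 * z^3

/-- `5 y` for the universal point `P10`. -/
def kl_Y10 (z u v : R) : R :=
  -108 * u^15 - 216 * u^15 * z + 108 * u^15 * z^2 - 324 * u^15 * z^3 - 972 * u^10 * v^5 - 1944 * u^10 * v^5 * z + 1512 * u^10 * v^5 * z^2 - 3456 * u^10 * v^5 * z^3 + 2484 * u^5 * v^10 + 4968 * u^5 * v^10 * z + 3456 * u^5 * v^10 * z^2 + 1512 * u^5 * v^10 * z^3 - 216 * v^15 - 432 * v^15 * z - 324 * v^15 * z^2 - 108 * v^15 * z^3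

/-- The quadratic Gauss sum `√5 = z - z² - z³ + z⁴`. -/
def kl_gauss (z : R) : R := z - z ^ 2 - z ^ 3 + z ^ 4

/-- First coordinate of `√5 • S (u, v)`. -/
def kl_sU (z u v : R) : R := -(z - z ^ 4) * u + (z ^ 2 - z ^ 3) * v

/-- Second coordinate of `√5 • S (u, v)`. -/
def kl_sV (z u v : R) : R := (z ^ 2 - z ^ 3) * u + (z - z ^ 4) * v

end ring

section field

variable {K : Type*} [Field K]

/-- `x`-coordinate of the universal point `P10`. -/
def kl_x10 (z u v : K) : K := kl_X10 z u v / 5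

/-- `y`-coordinate of the universal point `P10`. -/
def kl_y10 (z u v : K) : K := kl_Y10 z u v / 5

/-- Entry `a` of Klein's `S = [[a, b], [c, d]]`. -/
def kl_Sa (z : K) : K := -(z - z ^ 4) / kl_gauss z

/-- Entry `b` of Klein's `S = [[a, b], [c, d]]`. -/
def kl_Sb (z : K) : K := (z ^ 2 - z ^ 3) / kl_gauss z

/-- Entry `c` of Klein's `S = [[a, b], [c, d]]`. -/
def kl_Sc (z : K) : K := (z ^ 2 - z ^ 3) / kl_gauss z

/-- Entry `d` of Klein's `S = [[a, b], [c, d]]`. -/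
def kl_Sd (z : K) : K := (z - z ^ 4) / kl_gauss z

end field

end Fermat.Agent.S52
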