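import Fermat.Agent.S52.Klein.Defs

/-!
# S52 FORMULAS block, L7: separation at coordinate level

Let `z` be a primitive fifth root of unity in a field `K` of characteristic zero and
`u, v ≠ 0`.  If the `x`-coordinates `kl_x01 (z^i u) v` of the points `P01 + i • P10` and
`kl_x02 (z^i u) v` of their doubles agree for `(u, v)` and `(u', v')`, `i = 0, …, 4`, then
`(u', v') = lam • (u, v)` with `lam ^ 10 = 1`.

Proof: by discrete Fourier inversion the five classes of monomials `u^k v^(10-k)`, `k mod 5`,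
of `kl_x01` and `kl_x02` agree; the classes `180 u⁴ v⁶`, `72 u⁶ v⁴ + 36 u v⁹` (of `kl_x01`) and
`180 u⁶ v⁴` (of `kl_x02`) give `a⁴ b⁶ = a⁶ b⁴ = a b⁹ = 1` for `a = u'/u`, `b = v'/v`, whence
`b ^ 10 = 1` and `a = b`.
-/

set_option autoImplicit false

namespace Fermat.Agent.S52

section ring

variable {R : Type*} [CommRing R]

/-- Expansion of `kl_x01 (w u) v` for `w ^ 5 = 1` by classes of monomials. -/
theorem h19sep_x01_expand (w u v : R) (hw : w ^ 5 = 1) :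
    kl_x01 (w * u) v = (3 * u ^ 10 + 90 * u ^ 5 * v ^ 5 + 3 * v ^ 10)
      + w * (72 * u ^ 6 * v ^ 4 + 36 * u * v ^ 9)
      + w ^ 2 * (-36 * u ^ 7 * v ^ 3 + 72 * u ^ 2 * v ^ 8)
      + w ^ 3 * (36 * u ^ 8 * v ^ 2 + 108 * u ^ 3 * v ^ 7)
      + w ^ 4 * (180 * u ^ 4 * v ^ 6) := by
  unfold kl_x01
  linear_combination (3 * u ^ 10 * (w ^ 5 + 1) + 36 * u ^ 8 * v ^ 2 * w ^ 3
    - 36 * u ^ 7 * v ^ 3 * w ^ 2 + 72 * u ^ 6 * v ^ 4 * w + 90 * u ^ 5 * v ^ 5) * hw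

/-- Expansion of `kl_x02 (w u) v` for `w ^ 5 = 1` by classes of monomials. -/
theorem h19sep_x02_expand (w u v : R) (hw : w ^ 5 = 1) :
    kl_x02 (w * u) v = (3 * u ^ 10 - 90 * u ^ 5 * v ^ 5 + 3 * v ^ 10)
      + w * (180 * u ^ 6 * v ^ 4)
      + w ^ 2 * (-108 * u ^ 7 * v ^ 3 + 36 * u ^ 2 * v ^ 8)
      + w ^ 3 * (72 * u ^ 8 * v ^ 2 + 36 * u ^ 3 * v ^ 7)
      + w ^ 4 * (-36 * u ^ 9 * v + 72 * u ^ 4 * v ^ 6) := by
  unfold kl_x02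
  linear_combination (3 * u ^ 10 * (w ^ 5 + 1) - 36 * u ^ 9 * v * w ^ 4
    + 72 * u ^ 8 * v ^ 2 * w ^ 3 - 108 * u ^ 7 * v ^ 3 * w ^ 2 + 180 * u ^ 6 * v ^ 4 * w
    - 90 * u ^ 5 * v ^ 5) * hw

/-- Discrete Fourier inversion on `ℤ/5`, first coefficient. -/
theorem h19sep_dft1 (z d0 d1 d2 d3 d4 : R) (hz : z ^ 4 + z ^ 3 + z ^ 2 + z + 1 = 0)
    (e0 : d0 + 1 * d1 + 1 * d2 + 1 * d3 + 1 * d4 = 0)
    (e1 : d0 + z * d1 + z ^ 2 * d2 + z ^ 3 * d3 + z ^ 4 * d4 = 0)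
    (e2 : d0 + z ^ 2 * d1 + (z ^ 2) ^ 2 * d2 + (z ^ 2) ^ 3 * d3 + (z ^ 2) ^ 4 * d4 = 0)
    (e3 : d0 + z ^ 3 * d1 + (z ^ 3) ^ 2 * d2 + (z ^ 3) ^ 3 * d3 + (z ^ 3) ^ 4 * d4 = 0)
    (e4 : d0 + z ^ 4 * d1 + (z ^ 4) ^ 2 * d2 + (z ^ 4) ^ 3 * d3 + (z ^ 4) ^ 4 * d4 = 0) :
    5 * d1 = 0 := by
  linear_combination e0 + z ^ 4 * e1 + z ^ 3 * e2 + z ^ 2 * e3 + z * e4
    + (-z^13 * d4 + z^12 * d4 - z^10 * d4 - z^9 * d3 + z^9 * d4 + z^8 * d3 - z^8 * d4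
      - z^7 * d3 + z^6 * d3 + z^6 * d4 - z^5 * d2 - z^5 * d3 - z^5 * d4 - 4 * z * d1 + z * d2
      + z * d3 + z * d4 - d0 + 4 * d1 - d2 - d3 - d4) * hz

/-- Discrete Fourier inversion on `ℤ/5`, fourth coefficient. -/
theorem h19sep_dft4 (z d0 d1 d2 d3 d4 : R) (hz : z ^ 4 + z ^ 3 + z ^ 2 + z + 1 = 0)
    (e0 : d0 + 1 * d1 + 1 * d2 + 1 * d3 + 1 * d4 = 0)
    (e1 : d0 + z * d1 + z ^ 2 * d2 + z ^ 3 * d3 + z ^ 4 * d4 = 0)
    (e2 : d0 + z ^ 2 * d1 + (z ^ 2) ^ 2 * d2 + (z ^ 2) ^ 3 * d3 + (z ^ 2) ^ 4 * d4 = 0)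
    (e3 : d0 + z ^ 3 * d1 + (z ^ 3) ^ 2 * d2 + (z ^ 3) ^ 3 * d3 + (z ^ 3) ^ 4 * d4 = 0)
    (e4 : d0 + z ^ 4 * d1 + (z ^ 4) ^ 2 * d2 + (z ^ 4) ^ 3 * d3 + (z ^ 4) ^ 4 * d4 = 0) :
    5 * d4 = 0 := by
  linear_combination e0 + z * e1 + z ^ 2 * e2 + z ^ 3 * e3 + z ^ 4 * e4
    + (-z^16 * d4 + z^15 * d4 - z^12 * d3 + z^11 * d3 - 2 * z^11 * d4 + 2 * z^10 * d4
      - z^8 * d2 - z^8 * d3 + z^7 * d2 + z^6 * d3 - 3 * z^6 * d4 - z^5 * d2 + 3 * z^5 * d4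
      - z^4 * d1 + z^4 * d2 - z^4 * d3 + z^3 * d1 - z^3 * d2 - z^2 * d1 + z * d1 + z * d2
      + z * d3 - 4 * z * d4 - d0 - d1 - d2 - d3 + 4 * d4) * hz

end ring

section field

variable {K : Type*} [Field K] [CharZero K]

omit [CharZero K] in
/-- The elementary core of the separation: the three monomial identities force
`(u', v') = lam • (u, v)` with `lam ^ 10 = 1`. -/
theorem h19sep_of_monomials (u v u' v' : K) (hu : u ≠ 0) (hv : v ≠ 0)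
    (E1 : u ^ 4 * v ^ 6 = u' ^ 4 * v' ^ 6) (E2 : u ^ 6 * v ^ 4 = u' ^ 6 * v' ^ 4)
    (E3 : u * v ^ 9 = u' * v' ^ 9) :
    ∃ lam : K, lam ^ 10 = 1 ∧ u' = lam * u ∧ v' = lam * v := by
  have h46 : u' ^ 4 * v' ^ 6 ≠ 0 := by
    rw [← E1]; exact mul_ne_zero (pow_ne_zero _ hu) (pow_ne_zero _ hv)
  have hu' : u' ≠ 0 := by
    intro h; apply h46; rw [h]; ring
  have hv' : v' ≠ 0 := by
    intro h; apply h46; rw [h]; ring
  -- `(u' v)² = (u v')²`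
  have hX : (u' * v) ^ 2 = (u * v') ^ 2 := by
    have h0 : u' ^ 4 * v' ^ 4 * ((u' * v) ^ 2 - (u * v') ^ 2) = 0 := by
      linear_combination u ^ 2 * E1 - v ^ 2 * E2
    rcases mul_eq_zero.mp h0 with h | h
    · exact absurd h (mul_ne_zero (pow_ne_zero _ hu') (pow_ne_zero _ hv'))
    · exact sub_eq_zero.mp h
  -- `v' ^ 10 = v ^ 10`
  have h10 : v' ^ 10 = v ^ 10 := by
    have h0 : u ^ 4 * (v' ^ 10 - v ^ 10) = 0 := by
      linear_combination -v ^ 4 * E1 - v' ^ 6 * ((u' * v) ^ 2 + (u * v') ^ 2) * hX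
    rcases mul_eq_zero.mp h0 with h | h
    · exact absurd h (pow_ne_zero _ hu)
    · exact sub_eq_zero.mp h
  -- `u v' = u' v`
  have huv : u * v' = u' * v := by
    have h0 : v' ^ 9 * (u * v' - u' * v) = 0 := by
      linear_combination u * h10 + v * E3
    rcases mul_eq_zero.mp h0 with h | h
    · exact absurd h (pow_ne_zero _ hv')
    · exact sub_eq_zero.mp h
  refine ⟨v' / v, ?_, ?_, ?_⟩
  · rw [div_pow, h10, div_self (pow_ne_zero _ hv)]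
  · field_simp
    linear_combination -huv
  · field_simp

/-- **Separation at coordinate level.** -/
theorem h19sep_coord (z u v u' v' : K) (hz : z ^ 4 + z ^ 3 + z ^ 2 + z + 1 = 0)
    (hu : u ≠ 0) (hv : v ≠ 0)
    (h1 : ∀ i : ℕ, i < 5 → kl_x01 (z ^ i * u) v = kl_x01 (z ^ i * u') v')
    (h2 : ∀ i : ℕ, i < 5 → kl_x02 (z ^ i * u) v = kl_x02 (z ^ i * u') v') :
    ∃ lam : K, lam ^ 10 = 1 ∧ u' = lam * u ∧ v' = lam * v := by
  have hz5 : z ^ 5 = 1 := by linear_combination (z - 1) * hz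
  have hw : ∀ i : ℕ, (z ^ i) ^ 5 = 1 := by
    intro i
    rw [← pow_mul, mul_comm, pow_mul, hz5, one_pow]
  have h5 : (5 : K) ≠ 0 := by norm_num
  -- the expanded equations for `kl_x01`
  have a : ∀ i : ℕ, i < 5 →
      ((3 * u ^ 10 + 90 * u ^ 5 * v ^ 5 + 3 * v ^ 10)
          - (3 * u' ^ 10 + 90 * u' ^ 5 * v' ^ 5 + 3 * v' ^ 10))
        + z ^ i * ((72 * u ^ 6 * v ^ 4 + 36 * u * v ^ 9)
          - (72 * u' ^ 6 * v' ^ 4 + 36 * u' * v' ^ 9))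
        + (z ^ i) ^ 2 * ((-36 * u ^ 7 * v ^ 3 + 72 * u ^ 2 * v ^ 8)
          - (-36 * u' ^ 7 * v' ^ 3 + 72 * u' ^ 2 * v' ^ 8))
        + (z ^ i) ^ 3 * ((36 * u ^ 8 * v ^ 2 + 108 * u ^ 3 * v ^ 7)
          - (36 * u' ^ 8 * v' ^ 2 + 108 * u' ^ 3 * v' ^ 7))
        + (z ^ i) ^ 4 * ((180 * u ^ 4 * v ^ 6) - (180 * u' ^ 4 * v' ^ 6)) = 0 := by
    intro i hi
    have := h1 i hi
    rw [h19sep_x01_expand _ _ _ (hw i), h19sep_x01_expand _ _ _ (hw i)] at this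
    linear_combination this
  have b : ∀ i : ℕ, i < 5 →
      ((3 * u ^ 10 - 90 * u ^ 5 * v ^ 5 + 3 * v ^ 10)
          - (3 * u' ^ 10 - 90 * u' ^ 5 * v' ^ 5 + 3 * v' ^ 10))
        + z ^ i * ((180 * u ^ 6 * v ^ 4) - (180 * u' ^ 6 * v' ^ 4))
        + (z ^ i) ^ 2 * ((-108 * u ^ 7 * v ^ 3 + 36 * u ^ 2 * v ^ 8)
          - (-108 * u' ^ 7 * v' ^ 3 + 36 * u' ^ 2 * v' ^ 8))
        + (z ^ i) ^ 3 * ((72 * u ^ 8 * v ^ 2 + 36 * u ^ 3 * v ^ 7)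
          - (72 * u' ^ 8 * v' ^ 2 + 36 * u' ^ 3 * v' ^ 7))
        + (z ^ i) ^ 4 * ((-36 * u ^ 9 * v + 72 * u ^ 4 * v ^ 6)
          - (-36 * u' ^ 9 * v' + 72 * u' ^ 4 * v' ^ 6)) = 0 := by
    intro i hi
    have := h2 i hi
    rw [h19sep_x02_expand _ _ _ (hw i), h19sep_x02_expand _ _ _ (hw i)] at this
    linear_combination this
  have a0 := a 0 (by norm_num)
  have a1 := a 1 (by norm_num)
  have a2 := a 2 (by norm_num)
  have a3 := a 3 (by norm_num)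
  have a4 := a 4 (by norm_num)
  have b0 := b 0 (by norm_num)
  have b1 := b 1 (by norm_num)
  have b2 := b 2 (by norm_num)
  have b3 := b 3 (by norm_num)
  have b4 := b 4 (by norm_num)
  simp only [pow_zero, pow_one, one_pow] at a0 a1 b0 b1
  have A4 := h19sep_dft4 z _ _ _ _ _ hz a0 a1 a2 a3 a4
  have A1 := h19sep_dft1 z _ _ _ _ _ hz a0 a1 a2 a3 a4
  have B1 := h19sep_dft1 z _ _ _ _ _ hz b0 b1 b2 b3 b4
  have A4' := (mul_eq_zero.mp A4).resolve_left h5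
  have A1' := (mul_eq_zero.mp A1).resolve_left h5
  have B1' := (mul_eq_zero.mp B1).resolve_left h5
  have E1 : u ^ 4 * v ^ 6 = u' ^ 4 * v' ^ 6 := by
    have h180 : (180 : K) ≠ 0 := by norm_num
    have h0 : (180 : K) * (u ^ 4 * v ^ 6 - u' ^ 4 * v' ^ 6) = 0 := by linear_combination A4'
    exact sub_eq_zero.mp ((mul_eq_zero.mp h0).resolve_left h180)
  have E2 : u ^ 6 * v ^ 4 = u' ^ 6 * v' ^ 4 := by
    have h180 : (180 : K) ≠ 0 := by norm_num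
    have h0 : (180 : K) * (u ^ 6 * v ^ 4 - u' ^ 6 * v' ^ 4) = 0 := by linear_combination B1'
    exact sub_eq_zero.mp ((mul_eq_zero.mp h0).resolve_left h180)
  have E3 : u * v ^ 9 = u' * v' ^ 9 := by
    have h36 : (36 : K) ≠ 0 := by norm_num
    have h0 : (36 : K) * (u * v ^ 9 - u' * v' ^ 9) = 0 := by
      linear_combination A1' - 72 * E2
    exact sub_eq_zero.mp ((mul_eq_zero.mp h0).resolve_left h36)
  exact h19sep_of_monomials u v u' v' hu hv E1 E2 E3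

end field

end Fermat.Agent.S52
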