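import Fermat.Agent.S52.Klein.SAct
import Fermat.Agent.S52.Klein.Indep
import Fermat.Agent.S52.Core.Defs

/-!
# S52, FORMULAS row F-T: the laws `lawT10`, `lawT01` of `h86_KlData`

helper5 (second seat).  Point-level form of the `T`-identities (`T = diag (ζ³, ζ²)`) for the
universal points `klP01`, `klP10` of `Klein/Points.lean`.
-/

set_option autoImplicit false

namespace Fermat.Agent.S52

open WeierstrassCurve WeierstrassCurve.Affine

local notation "Qbar" => AlgebraicClosure ℚ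

/-- `T = diag (ζ³, ζ²)` preserves base points. -/
theorem h5kl_Base_T {ζ : Qbar} (hζ : h86_Z5 ζ) {A B : ℤ} {u v : Qbar} (hb : h86_Base A B u v) :
    h86_Base A B (ζ ^ 3 * u) (ζ ^ 2 * v) :=
  ⟨hb.1, by rw [kl_T_H u v ζ hζ, hb.2.1], by rw [kl_T_T u v ζ hζ, hb.2.2]⟩

/-- Field `lawT10` of `h86_KlData`: `P10 ∘ T = P10`. -/
theorem h5kl_lawT10 : ∀ (ζ : Qbar) (A B : ℤ) (u v : Qbar), h86_Z5 ζ → h86_Base A B u v →
    klP10 ζ A B (ζ ^ 3 * u) (ζ ^ 2 * v) = klP10 ζ A B u v := by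
  intro ζ A B u v hζ hb
  rw [klP10_eq hζ (h5kl_Base_T hζ hb), klP10_eq hζ hb]
  refine h86_some_congr _ _ ?_ ?_
  · unfold kl_x10; rw [kl_T_X10 u v ζ hζ]
  · unfold kl_y10; rw [kl_T_Y10 u v ζ hζ]

/-- Field `lawT01` of `h86_KlData`: `P01 ∘ T = P01 + P10`. -/
theorem h5kl_lawT01 : ∀ (ζ : Qbar) (A B : ℤ) (u v : Qbar), h86_Z5 ζ → h86_Base A B u v →
    klP01 A B (ζ ^ 3 * u) (ζ ^ 2 * v) = klP01 A B u v + klP10 ζ A B u v := by
  intro ζ A B u v hζ hb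
  have h5 : (5 : Qbar) ≠ 0 := h86_five_ne_zero
  have hne : kl_x01 u v ≠ kl_x10 ζ u v :=
    fun h => kl_x01_ne_x10 u v ζ hζ (h86_Base_f_ne_zero hb) h.symm
  have hx := kl_add11_x u v ζ hζ
  have hy := kl_add11_y u v ζ hζ
  rw [klP01_eq (h5kl_Base_T hζ hb), klP01_eq hb, klP10_eq hζ hb]
  symm
  refine h86_short_add (h86_E_a₁ A B) (h86_E_a₂ A B) (h86_E_a₃ A B) _ _ _ hne ?_ ?_
  · rw [kl_T_x01 u v ζ hζ]
    unfold kl_x10 kl_y10
    field_simp
    linear_combination hx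
  · rw [kl_T_x01 u v ζ hζ, kl_T_y01 u v ζ hζ]
    unfold kl_x10 kl_y10
    field_simp
    linear_combination -hy

end Fermat.Agent.S52
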