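import Fermat.Agent.S52.Klein.Defs

/-!
# S52 FORMULAS block, (L6): independence at the coordinate level

Owner: helper72 (for helper5 / helper86).  The differences of the `x`-coordinates of the
universal points `P10(z)` and `P01`, `2 • P01` divide `180 f²`:

* `(X10(z) - 5 x01) * C₁ = 180 f²`,
* `(X10(z) - 5 x02) * C₂ = 180 f²`

(`X10 = 5 x10`).  Hence, over a field of characteristic not `2, 3, 5` and for `f(u, v) ≠ 0`,
`x10(zᵏ) ≠ x01` and `x10(zᵏ) ≠ x02` for every primitive fifth root of unity `zᵏ`, i.e.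
`± P01, ± 2 • P01 ∉ ⟨P10⟩`.
-/

set_option autoImplicit false

namespace Fermat.Agent.S52

/-- Cofactor of `X10(z) - 5 x01` in `180 f²`. -/
def h72k_cof01_cof {R : Type*} [CommRing R] (z u v : R) : R :=
  -2 * u^12 * v^2 + u^12 * v^2 * z^2 + u^12 * v^2 * z^3 + 5 * u^10 * v^4 - 5 * u^10 * v^4 * z^2 - 5 * u^10 * v^4 * z^3
    - 5 * u^9 * v^5 + 5 * u^9 * v^5 * z^2 + 5 * u^9 * v^5 * z^3 - 5 * u^8 * v^6 + 10 * u^8 * v^6 * z^2
    + 10 * u^8 * v^6 * z^3 - 7 * u^7 * v^7 - 14 * u^7 * v^7 * z^2 - 14 * u^7 * v^7 * z^3 + 15 * u^5 * v^9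
    + 10 * u^5 * v^9 * z^2 + 10 * u^5 * v^9 * z^3 - 15 * u^4 * v^10 - 10 * u^4 * v^10 * z^2 - 10 * u^4 * v^10 * z^3
    + 10 * u^3 * v^11 + 5 * u^3 * v^11 * z^2 + 5 * u^3 * v^11 * z^3 - 3 * u^2 * v^12 - u^2 * v^12 * z^2
    - u^2 * v^12 * z^3

theorem h72k_cof01 {R : Type*} [CommRing R] (z u v : R)
    (hz : z ^ 4 + z ^ 3 + z ^ 2 + z + 1 = 0) :
    (kl_X10 z u v - 5 * kl_x01 u v) * h72k_cof01_cof z u v = 180 * h42rr_f u v ^ 2 := by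
  unfold h72k_cof01_cof kl_X10 kl_x01 h42rr_f
  linear_combination (36 * u^22 * v^2 - 36 * u^22 * v^2 * z - 36 * u^22 * v^2 * z^2 - 180 * u^20 * v^4 + 180 * u^20 * v^4 * z
      + 180 * u^20 * v^4 * z^2 + 180 * u^19 * v^5 - 180 * u^19 * v^5 * z - 180 * u^19 * v^5 * z^2
      + 360 * u^18 * v^6 - 360 * u^18 * v^6 * z - 360 * u^18 * v^6 * z^2 - 108 * u^17 * v^7 + 108 * u^17 * v^7 * z
      + 108 * u^17 * v^7 * z^2 - 1620 * u^15 * v^9 + 1620 * u^15 * v^9 * z + 1620 * u^15 * v^9 * z^2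
      + 1620 * u^14 * v^10 - 1620 * u^14 * v^10 * z - 1620 * u^14 * v^10 * z^2 + 4140 * u^13 * v^11
      - 4140 * u^13 * v^11 * z - 4140 * u^13 * v^11 * z^2 - 5616 * u^12 * v^12 + 5616 * u^12 * v^12 * z
      + 5616 * u^12 * v^12 * z^2 + 4140 * u^10 * v^14 - 4140 * u^10 * v^14 * z - 4140 * u^10 * v^14 * z^2
      - 4140 * u^9 * v^15 + 4140 * u^9 * v^15 * z + 4140 * u^9 * v^15 * z^2 + 1620 * u^8 * v^16
      - 1620 * u^8 * v^16 * z - 1620 * u^8 * v^16 * z^2 + 108 * u^7 * v^17 - 108 * u^7 * v^17 * z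
      - 108 * u^7 * v^17 * z^2 - 360 * u^5 * v^19 + 360 * u^5 * v^19 * z + 360 * u^5 * v^19 * z^2
      + 360 * u^4 * v^20 - 360 * u^4 * v^20 * z - 360 * u^4 * v^20 * z^2 - 180 * u^3 * v^21 + 180 * u^3 * v^21 * z
      + 180 * u^3 * v^21 * z^2 + 36 * u^2 * v^22 - 36 * u^2 * v^22 * z - 36 * u^2 * v^22 * z^2) * hz

/-- Cofactor of `X10(z) - 5 x02` in `180 f²`. -/
def h72k_cof02_cof {R : Type*} [CommRing R] (z u v : R) : R :=
  -2 * u^12 * v^2 + u^12 * v^2 * z^2 + u^12 * v^2 * z^3 - 5 * u^11 * v^3 + 5 * u^11 * v^3 * z^2 + 5 * u^11 * v^3 * z^3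
    - 5 * u^10 * v^4 + 10 * u^10 * v^4 * z^2 + 10 * u^10 * v^4 * z^3 - 5 * u^9 * v^5 + 10 * u^9 * v^5 * z^2
    + 10 * u^9 * v^5 * z^3 - 7 * u^7 * v^7 - 14 * u^7 * v^7 * z^2 - 14 * u^7 * v^7 * z^3 - 15 * u^6 * v^8
    - 10 * u^6 * v^8 * z^2 - 10 * u^6 * v^8 * z^3 + 10 * u^5 * v^9 + 5 * u^5 * v^9 * z^2 + 5 * u^5 * v^9 * z^3
    + 10 * u^4 * v^10 + 5 * u^4 * v^10 * z^2 + 5 * u^4 * v^10 * z^3 - 3 * u^2 * v^12 - u^2 * v^12 * z^2
    - u^2 * v^12 * z^3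

theorem h72k_cof02 {R : Type*} [CommRing R] (z u v : R)
    (hz : z ^ 4 + z ^ 3 + z ^ 2 + z + 1 = 0) :
    (kl_X10 z u v - 5 * kl_x02 u v) * h72k_cof02_cof z u v = 180 * h42rr_f u v ^ 2 := by
  unfold h72k_cof02_cof kl_X10 kl_x02 h42rr_f
  linear_combination (36 * u^22 * v^2 - 36 * u^22 * v^2 * z - 36 * u^22 * v^2 * z^2 + 180 * u^21 * v^3 - 180 * u^21 * v^3 * z
      - 180 * u^21 * v^3 * z^2 + 360 * u^20 * v^4 - 360 * u^20 * v^4 * z - 360 * u^20 * v^4 * z^2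
      + 360 * u^19 * v^5 - 360 * u^19 * v^5 * z - 360 * u^19 * v^5 * z^2 - 108 * u^17 * v^7 + 108 * u^17 * v^7 * z
      + 108 * u^17 * v^7 * z^2 + 1620 * u^16 * v^8 - 1620 * u^16 * v^8 * z - 1620 * u^16 * v^8 * z^2
      + 4140 * u^15 * v^9 - 4140 * u^15 * v^9 * z - 4140 * u^15 * v^9 * z^2 + 4140 * u^14 * v^10
      - 4140 * u^14 * v^10 * z - 4140 * u^14 * v^10 * z^2 - 5616 * u^12 * v^12 + 5616 * u^12 * v^12 * z
      + 5616 * u^12 * v^12 * z^2 - 4140 * u^11 * v^13 + 4140 * u^11 * v^13 * z + 4140 * u^11 * v^13 * z^2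
      + 1620 * u^10 * v^14 - 1620 * u^10 * v^14 * z - 1620 * u^10 * v^14 * z^2 + 1620 * u^9 * v^15
      - 1620 * u^9 * v^15 * z - 1620 * u^9 * v^15 * z^2 + 108 * u^7 * v^17 - 108 * u^7 * v^17 * z
      - 108 * u^7 * v^17 * z^2 + 360 * u^6 * v^18 - 360 * u^6 * v^18 * z - 360 * u^6 * v^18 * z^2
      - 180 * u^5 * v^19 + 180 * u^5 * v^19 * z + 180 * u^5 * v^19 * z^2 - 180 * u^4 * v^20 + 180 * u^4 * v^20 * z
      + 180 * u^4 * v^20 * z^2 + 36 * u^2 * v^22 - 36 * u^2 * v^22 * z - 36 * u^2 * v^22 * z^2) * hz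

/-- `x10(z) ≠ x01` when `f ≠ 0` (characteristic not `2, 3, 5`). -/
theorem h72k_X10_ne_x01 {K : Type*} [Field K] (h30 : (30 : K) ≠ 0) (z u v : K)
    (hz : z ^ 4 + z ^ 3 + z ^ 2 + z + 1 = 0) (hf : h42rr_f u v ≠ 0) :
    kl_X10 z u v ≠ 5 * kl_x01 u v := by
  intro h
  have h2' : (2 : K) ≠ 0 := fun h => h30 (by linear_combination 15 * h)
  have h3' : (3 : K) ≠ 0 := fun h => h30 (by linear_combination 10 * h)
  have h5' : (5 : K) ≠ 0 := fun h => h30 (by linear_combination 6 * h)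
  have h180 : (180 : K) ≠ 0 := by
    have e : (180 : K) = 2 ^ 2 * 3 ^ 2 * 5 := by norm_num
    rw [e]
    exact mul_ne_zero (mul_ne_zero (pow_ne_zero _ h2') (pow_ne_zero _ h3')) h5'
  have e := h72k_cof01 z u v hz
  rw [h, sub_self, zero_mul] at e
  exact mul_ne_zero h180 (pow_ne_zero _ hf) e.symm

/-- `x10(z) ≠ x02` when `f ≠ 0` (characteristic not `2, 3, 5`). -/
theorem h72k_X10_ne_x02 {K : Type*} [Field K] (h30 : (30 : K) ≠ 0) (z u v : K)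
    (hz : z ^ 4 + z ^ 3 + z ^ 2 + z + 1 = 0) (hf : h42rr_f u v ≠ 0) :
    kl_X10 z u v ≠ 5 * kl_x02 u v := by
  intro h
  have h2' : (2 : K) ≠ 0 := fun h => h30 (by linear_combination 15 * h)
  have h3' : (3 : K) ≠ 0 := fun h => h30 (by linear_combination 10 * h)
  have h5' : (5 : K) ≠ 0 := fun h => h30 (by linear_combination 6 * h)
  have h180 : (180 : K) ≠ 0 := by
    have e : (180 : K) = 2 ^ 2 * 3 ^ 2 * 5 := by norm_num
    rw [e]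
    exact mul_ne_zero (mul_ne_zero (pow_ne_zero _ h2') (pow_ne_zero _ h3')) h5'
  have e := h72k_cof02 z u v hz
  rw [h, sub_self, zero_mul] at e
  exact mul_ne_zero h180 (pow_ne_zero _ hf) e.symm

/-- `z²` is again a root of the fifth cyclotomic polynomial. -/
theorem h72k_phi_sq {R : Type*} [CommRing R] (z : R) (hz : z ^ 4 + z ^ 3 + z ^ 2 + z + 1 = 0) :
    (z ^ 2) ^ 4 + (z ^ 2) ^ 3 + (z ^ 2) ^ 2 + z ^ 2 + 1 = 0 := by
  linear_combination (z ^ 4 - z ^ 3 + z ^ 2 - z + 1) * hz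

/-- `x10(z²) ≠ x01` when `f ≠ 0`. -/
theorem h72k_X20_ne_x01 {K : Type*} [Field K] (h30 : (30 : K) ≠ 0) (z u v : K)
    (hz : z ^ 4 + z ^ 3 + z ^ 2 + z + 1 = 0) (hf : h42rr_f u v ≠ 0) :
    kl_X10 (z ^ 2) u v ≠ 5 * kl_x01 u v :=
  h72k_X10_ne_x01 h30 (z ^ 2) u v (h72k_phi_sq z hz) hf

/-- `x10(z²) ≠ x02` when `f ≠ 0`. -/
theorem h72k_X20_ne_x02 {K : Type*} [Field K] (h30 : (30 : K) ≠ 0) (z u v : K)
    (hz : z ^ 4 + z ^ 3 + z ^ 2 + z + 1 = 0) (hf : h42rr_f u v ≠ 0) :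
    kl_X10 (z ^ 2) u v ≠ 5 * kl_x02 u v :=
  h72k_X10_ne_x02 h30 (z ^ 2) u v (h72k_phi_sq z hz) hf

end Fermat.Agent.S52
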