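import Fermat.Agent.S52.Klein.Points
import Fermat.Agent.S52.Klein.H72Indep

/-!
# S52 FORMULAS block, (F-T): the `T`-laws for the universal points

helper72 (second seat on row F-T).  For `T = diag(ζ³, ζ²)`:

* `klLawT10 : klP10 ζ A B (ζ³ u) (ζ² v) = klP10 ζ A B u v`,
* `klLawT01 : klP01 A B (ζ³ u) (ζ² v) = klP01 A B u v + klP10 ζ A B u v`

in the exact shape of the fields `lawT10`, `lawT01` of `h86_KlData`.
-/

set_option autoImplicit false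

namespace Fermat.Agent.S52

open WeierstrassCurve WeierstrassCurve.Affine

local notation "Qbar" => AlgebraicClosure ℚ

theorem h72k_T_X10 {R : Type*} [CommRing R] (z u v : R)
    (hz : z ^ 4 + z ^ 3 + z ^ 2 + z + 1 = 0) :
    kl_X10 z (z ^ 3 * u) (z ^ 2 * v) = kl_X10 z u v := by
  unfold kl_X10
  linear_combination (93 * u^10 - 93 * u^10 * z + 36 * u^10 * z^2 - 36 * u^10 * z^4 + 93 * u^10 * z^5 - 93 * u^10 * z^6
      + 36 * u^10 * z^7 - 36 * u^10 * z^9 + 93 * u^10 * z^10 - 93 * u^10 * z^11 + 36 * u^10 * z^12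
      - 36 * u^10 * z^14 + 93 * u^10 * z^15 - 93 * u^10 * z^16 + 36 * u^10 * z^17 - 36 * u^10 * z^19
      + 93 * u^10 * z^20 - 93 * u^10 * z^21 + 36 * u^10 * z^22 - 36 * u^10 * z^24 + 93 * u^10 * z^25
      - 93 * u^10 * z^26 + 36 * u^10 * z^27 - 36 * u^10 * z^29 + 198 * u^5 * v^5 - 198 * u^5 * v^5 * z
      + 396 * u^5 * v^5 * z^2 - 396 * u^5 * v^5 * z^4 + 198 * u^5 * v^5 * z^5 - 198 * u^5 * v^5 * z^6
      + 396 * u^5 * v^5 * z^7 - 396 * u^5 * v^5 * z^9 + 198 * u^5 * v^5 * z^10 - 198 * u^5 * v^5 * z^11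
      + 396 * u^5 * v^5 * z^12 - 396 * u^5 * v^5 * z^14 + 198 * u^5 * v^5 * z^15 - 198 * u^5 * v^5 * z^16
      + 396 * u^5 * v^5 * z^17 - 396 * u^5 * v^5 * z^19 + 198 * u^5 * v^5 * z^20 - 198 * u^5 * v^5 * z^21
      + 396 * u^5 * v^5 * z^22 - 396 * u^5 * v^5 * z^24 + 57 * v^10 - 57 * v^10 * z - 36 * v^10 * z^2
      + 36 * v^10 * z^4 + 57 * v^10 * z^5 - 57 * v^10 * z^6 - 36 * v^10 * z^7 + 36 * v^10 * z^9
      + 57 * v^10 * z^10 - 57 * v^10 * z^11 - 36 * v^10 * z^12 + 36 * v^10 * z^14 + 57 * v^10 * z^15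
      - 57 * v^10 * z^16 - 36 * v^10 * z^17 + 36 * v^10 * z^19) * hz

theorem h72k_T_Y10 {R : Type*} [CommRing R] (z u v : R)
    (hz : z ^ 4 + z ^ 3 + z ^ 2 + z + 1 = 0) :
    kl_Y10 z (z ^ 3 * u) (z ^ 2 * v) = kl_Y10 z u v := by
  unfold kl_Y10
  linear_combination (108 * u^15 + 108 * u^15 * z - 324 * u^15 * z^2 + 432 * u^15 * z^3 - 324 * u^15 * z^4 + 108 * u^15 * z^5
      + 108 * u^15 * z^6 - 324 * u^15 * z^7 + 432 * u^15 * z^8 - 324 * u^15 * z^9 + 108 * u^15 * z^10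
      + 108 * u^15 * z^11 - 324 * u^15 * z^12 + 432 * u^15 * z^13 - 324 * u^15 * z^14 + 108 * u^15 * z^15
      + 108 * u^15 * z^16 - 324 * u^15 * z^17 + 432 * u^15 * z^18 - 324 * u^15 * z^19 + 108 * u^15 * z^20
      + 108 * u^15 * z^21 - 324 * u^15 * z^22 + 432 * u^15 * z^23 - 324 * u^15 * z^24 + 108 * u^15 * z^25
      + 108 * u^15 * z^26 - 324 * u^15 * z^27 + 432 * u^15 * z^28 - 324 * u^15 * z^29 + 108 * u^15 * z^30
      + 108 * u^15 * z^31 - 324 * u^15 * z^32 + 432 * u^15 * z^33 - 324 * u^15 * z^34 + 108 * u^15 * z^35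
      + 108 * u^15 * z^36 - 324 * u^15 * z^37 + 432 * u^15 * z^38 - 324 * u^15 * z^39 + 108 * u^15 * z^40
      + 108 * u^15 * z^41 - 324 * u^15 * z^42 + 432 * u^15 * z^43 - 324 * u^15 * z^44 + 972 * u^10 * v^5
      + 972 * u^10 * v^5 * z - 3456 * u^10 * v^5 * z^2 + 4968 * u^10 * v^5 * z^3 - 3456 * u^10 * v^5 * z^4
      + 972 * u^10 * v^5 * z^5 + 972 * u^10 * v^5 * z^6 - 3456 * u^10 * v^5 * z^7 + 4968 * u^10 * v^5 * z^8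
      - 3456 * u^10 * v^5 * z^9 + 972 * u^10 * v^5 * z^10 + 972 * u^10 * v^5 * z^11 - 3456 * u^10 * v^5 * z^12
      + 4968 * u^10 * v^5 * z^13 - 3456 * u^10 * v^5 * z^14 + 972 * u^10 * v^5 * z^15 + 972 * u^10 * v^5 * z^16
      - 3456 * u^10 * v^5 * z^17 + 4968 * u^10 * v^5 * z^18 - 3456 * u^10 * v^5 * z^19 + 972 * u^10 * v^5 * z^20
      + 972 * u^10 * v^5 * z^21 - 3456 * u^10 * v^5 * z^22 + 4968 * u^10 * v^5 * z^23 - 3456 * u^10 * v^5 * z^24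
      + 972 * u^10 * v^5 * z^25 + 972 * u^10 * v^5 * z^26 - 3456 * u^10 * v^5 * z^27 + 4968 * u^10 * v^5 * z^28
      - 3456 * u^10 * v^5 * z^29 + 972 * u^10 * v^5 * z^30 + 972 * u^10 * v^5 * z^31 - 3456 * u^10 * v^5 * z^32
      + 4968 * u^10 * v^5 * z^33 - 3456 * u^10 * v^5 * z^34 + 972 * u^10 * v^5 * z^35 + 972 * u^10 * v^5 * z^36
      - 3456 * u^10 * v^5 * z^37 + 4968 * u^10 * v^5 * z^38 - 3456 * u^10 * v^5 * z^39 - 2484 * u^5 * v^10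
      - 2484 * u^5 * v^10 * z + 1512 * u^5 * v^10 * z^2 + 1944 * u^5 * v^10 * z^3 + 1512 * u^5 * v^10 * z^4
      - 2484 * u^5 * v^10 * z^5 - 2484 * u^5 * v^10 * z^6 + 1512 * u^5 * v^10 * z^7 + 1944 * u^5 * v^10 * z^8
      + 1512 * u^5 * v^10 * z^9 - 2484 * u^5 * v^10 * z^10 - 2484 * u^5 * v^10 * z^11 + 1512 * u^5 * v^10 * z^12
      + 1944 * u^5 * v^10 * z^13 + 1512 * u^5 * v^10 * z^14 - 2484 * u^5 * v^10 * z^15 - 2484 * u^5 * v^10 * z^16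
      + 1512 * u^5 * v^10 * z^17 + 1944 * u^5 * v^10 * z^18 + 1512 * u^5 * v^10 * z^19 - 2484 * u^5 * v^10 * z^20
      - 2484 * u^5 * v^10 * z^21 + 1512 * u^5 * v^10 * z^22 + 1944 * u^5 * v^10 * z^23 + 1512 * u^5 * v^10 * z^24
      - 2484 * u^5 * v^10 * z^25 - 2484 * u^5 * v^10 * z^26 + 1512 * u^5 * v^10 * z^27 + 1944 * u^5 * v^10 * z^28
      + 1512 * u^5 * v^10 * z^29 - 2484 * u^5 * v^10 * z^30 - 2484 * u^5 * v^10 * z^31 + 1512 * u^5 * v^10 * z^32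
      + 1944 * u^5 * v^10 * z^33 + 1512 * u^5 * v^10 * z^34 + 216 * v^15 + 216 * v^15 * z - 108 * v^15 * z^2
      - 216 * v^15 * z^3 - 108 * v^15 * z^4 + 216 * v^15 * z^5 + 216 * v^15 * z^6 - 108 * v^15 * z^7
      - 216 * v^15 * z^8 - 108 * v^15 * z^9 + 216 * v^15 * z^10 + 216 * v^15 * z^11 - 108 * v^15 * z^12
      - 216 * v^15 * z^13 - 108 * v^15 * z^14 + 216 * v^15 * z^15 + 216 * v^15 * z^16 - 108 * v^15 * z^17
      - 216 * v^15 * z^18 - 108 * v^15 * z^19 + 216 * v^15 * z^20 + 216 * v^15 * z^21 - 108 * v^15 * z^22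
      - 216 * v^15 * z^23 - 108 * v^15 * z^24 + 216 * v^15 * z^25 + 216 * v^15 * z^26 - 108 * v^15 * z^27
      - 216 * v^15 * z^28 - 108 * v^15 * z^29) * hz

theorem h72k_T_x01 {R : Type*} [CommRing R] (z u v : R)
    (hz : z ^ 4 + z ^ 3 + z ^ 2 + z + 1 = 0) :
    kl_x01 (z ^ 3 * u) (z ^ 2 * v) = kl_x01 (z * u) v := by
  unfold kl_x01
  linear_combination (-3 * u^10 * z^10 + 3 * u^10 * z^11 - 3 * u^10 * z^15 + 3 * u^10 * z^16 - 3 * u^10 * z^20 + 3 * u^10 * z^21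
      - 3 * u^10 * z^25 + 3 * u^10 * z^26 - 36 * u^8 * v^2 * z^8 + 36 * u^8 * v^2 * z^9 - 36 * u^8 * v^2 * z^13
      + 36 * u^8 * v^2 * z^14 - 36 * u^8 * v^2 * z^18 + 36 * u^8 * v^2 * z^19 - 36 * u^8 * v^2 * z^23
      + 36 * u^8 * v^2 * z^24 + 36 * u^7 * v^3 * z^7 - 36 * u^7 * v^3 * z^8 + 36 * u^7 * v^3 * z^12
      - 36 * u^7 * v^3 * z^13 + 36 * u^7 * v^3 * z^17 - 36 * u^7 * v^3 * z^18 + 36 * u^7 * v^3 * z^22
      - 36 * u^7 * v^3 * z^23 - 72 * u^6 * v^4 * z^6 + 72 * u^6 * v^4 * z^7 - 72 * u^6 * v^4 * z^11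
      + 72 * u^6 * v^4 * z^12 - 72 * u^6 * v^4 * z^16 + 72 * u^6 * v^4 * z^17 - 72 * u^6 * v^4 * z^21
      + 72 * u^6 * v^4 * z^22 - 90 * u^5 * v^5 * z^5 + 90 * u^5 * v^5 * z^6 - 90 * u^5 * v^5 * z^10
      + 90 * u^5 * v^5 * z^11 - 90 * u^5 * v^5 * z^15 + 90 * u^5 * v^5 * z^16 - 90 * u^5 * v^5 * z^20
      + 90 * u^5 * v^5 * z^21 - 180 * u^4 * v^6 * z^4 + 180 * u^4 * v^6 * z^5 - 180 * u^4 * v^6 * z^9
      + 180 * u^4 * v^6 * z^10 - 180 * u^4 * v^6 * z^14 + 180 * u^4 * v^6 * z^15 - 180 * u^4 * v^6 * z^19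
      + 180 * u^4 * v^6 * z^20 - 108 * u^3 * v^7 * z^3 + 108 * u^3 * v^7 * z^4 - 108 * u^3 * v^7 * z^8
      + 108 * u^3 * v^7 * z^9 - 108 * u^3 * v^7 * z^13 + 108 * u^3 * v^7 * z^14 - 108 * u^3 * v^7 * z^18
      + 108 * u^3 * v^7 * z^19 - 72 * u^2 * v^8 * z^2 + 72 * u^2 * v^8 * z^3 - 72 * u^2 * v^8 * z^7
      + 72 * u^2 * v^8 * z^8 - 72 * u^2 * v^8 * z^12 + 72 * u^2 * v^8 * z^13 - 72 * u^2 * v^8 * z^17
      + 72 * u^2 * v^8 * z^18 - 36 * u * v^9 * z + 36 * u * v^9 * z^2 - 36 * u * v^9 * z^6 + 36 * u * v^9 * z^7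
      - 36 * u * v^9 * z^11 + 36 * u * v^9 * z^12 - 36 * u * v^9 * z^16 + 36 * u * v^9 * z^17 - 3 * v^10
      + 3 * v^10 * z - 3 * v^10 * z^5 + 3 * v^10 * z^6 - 3 * v^10 * z^10 + 3 * v^10 * z^11 - 3 * v^10 * z^15
      + 3 * v^10 * z^16) * hz

theorem h72k_T_y01 {R : Type*} [CommRing R] (z u v : R)
    (hz : z ^ 4 + z ^ 3 + z ^ 2 + z + 1 = 0) :
    kl_y01 (z ^ 3 * u) (z ^ 2 * v) = kl_y01 (z * u) v := by
  unfold kl_y01
  linear_combination (-108 * u^13 * v^2 * z^13 + 108 * u^13 * v^2 * z^14 - 108 * u^13 * v^2 * z^18 + 108 * u^13 * v^2 * z^19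
      - 108 * u^13 * v^2 * z^23 + 108 * u^13 * v^2 * z^24 - 108 * u^13 * v^2 * z^28 + 108 * u^13 * v^2 * z^29
      - 108 * u^13 * v^2 * z^33 + 108 * u^13 * v^2 * z^34 - 108 * u^13 * v^2 * z^38 + 108 * u^13 * v^2 * z^39
      - 108 * u^12 * v^3 * z^12 + 108 * u^12 * v^3 * z^13 - 108 * u^12 * v^3 * z^17 + 108 * u^12 * v^3 * z^18
      - 108 * u^12 * v^3 * z^22 + 108 * u^12 * v^3 * z^23 - 108 * u^12 * v^3 * z^27 + 108 * u^12 * v^3 * z^28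
      - 108 * u^12 * v^3 * z^32 + 108 * u^12 * v^3 * z^33 - 108 * u^12 * v^3 * z^37 + 108 * u^12 * v^3 * z^38
      - 432 * u^11 * v^4 * z^11 + 432 * u^11 * v^4 * z^12 - 432 * u^11 * v^4 * z^16 + 432 * u^11 * v^4 * z^17
      - 432 * u^11 * v^4 * z^21 + 432 * u^11 * v^4 * z^22 - 432 * u^11 * v^4 * z^26 + 432 * u^11 * v^4 * z^27
      - 432 * u^11 * v^4 * z^31 + 432 * u^11 * v^4 * z^32 - 432 * u^11 * v^4 * z^36 + 432 * u^11 * v^4 * z^37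
      - 540 * u^9 * v^6 * z^9 + 540 * u^9 * v^6 * z^10 - 540 * u^9 * v^6 * z^14 + 540 * u^9 * v^6 * z^15
      - 540 * u^9 * v^6 * z^19 + 540 * u^9 * v^6 * z^20 - 540 * u^9 * v^6 * z^24 + 540 * u^9 * v^6 * z^25
      - 540 * u^9 * v^6 * z^29 + 540 * u^9 * v^6 * z^30 - 540 * u^9 * v^6 * z^34 + 540 * u^9 * v^6 * z^35
      - 648 * u^8 * v^7 * z^8 + 648 * u^8 * v^7 * z^9 - 648 * u^8 * v^7 * z^13 + 648 * u^8 * v^7 * z^14
      - 648 * u^8 * v^7 * z^18 + 648 * u^8 * v^7 * z^19 - 648 * u^8 * v^7 * z^23 + 648 * u^8 * v^7 * z^24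
      - 648 * u^8 * v^7 * z^28 + 648 * u^8 * v^7 * z^29 - 648 * u^8 * v^7 * z^33 + 648 * u^8 * v^7 * z^34
      - 2268 * u^7 * v^8 * z^7 + 2268 * u^7 * v^8 * z^8 - 2268 * u^7 * v^8 * z^12 + 2268 * u^7 * v^8 * z^13
      - 2268 * u^7 * v^8 * z^17 + 2268 * u^7 * v^8 * z^18 - 2268 * u^7 * v^8 * z^22 + 2268 * u^7 * v^8 * z^23
      - 2268 * u^7 * v^8 * z^27 + 2268 * u^7 * v^8 * z^28 - 2268 * u^7 * v^8 * z^32 + 2268 * u^7 * v^8 * z^33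
      - 3132 * u^6 * v^9 * z^6 + 3132 * u^6 * v^9 * z^7 - 3132 * u^6 * v^9 * z^11 + 3132 * u^6 * v^9 * z^12
      - 3132 * u^6 * v^9 * z^16 + 3132 * u^6 * v^9 * z^17 - 3132 * u^6 * v^9 * z^21 + 3132 * u^6 * v^9 * z^22
      - 3132 * u^6 * v^9 * z^26 + 3132 * u^6 * v^9 * z^27 - 3132 * u^6 * v^9 * z^31 + 3132 * u^6 * v^9 * z^32
      - 2700 * u^5 * v^10 * z^5 + 2700 * u^5 * v^10 * z^6 - 2700 * u^5 * v^10 * z^10 + 2700 * u^5 * v^10 * z^11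
      - 2700 * u^5 * v^10 * z^15 + 2700 * u^5 * v^10 * z^16 - 2700 * u^5 * v^10 * z^20 + 2700 * u^5 * v^10 * z^21
      - 2700 * u^5 * v^10 * z^25 + 2700 * u^5 * v^10 * z^26 - 2700 * u^5 * v^10 * z^30 + 2700 * u^5 * v^10 * z^31
      - 1620 * u^4 * v^11 * z^4 + 1620 * u^4 * v^11 * z^5 - 1620 * u^4 * v^11 * z^9 + 1620 * u^4 * v^11 * z^10
      - 1620 * u^4 * v^11 * z^14 + 1620 * u^4 * v^11 * z^15 - 1620 * u^4 * v^11 * z^19 + 1620 * u^4 * v^11 * z^20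
      - 1620 * u^4 * v^11 * z^24 + 1620 * u^4 * v^11 * z^25 - 1620 * u^4 * v^11 * z^29 + 1620 * u^4 * v^11 * z^30
      - 972 * u^3 * v^12 * z^3 + 972 * u^3 * v^12 * z^4 - 972 * u^3 * v^12 * z^8 + 972 * u^3 * v^12 * z^9
      - 972 * u^3 * v^12 * z^13 + 972 * u^3 * v^12 * z^14 - 972 * u^3 * v^12 * z^18 + 972 * u^3 * v^12 * z^19
      - 972 * u^3 * v^12 * z^23 + 972 * u^3 * v^12 * z^24 - 972 * u^3 * v^12 * z^28 + 972 * u^3 * v^12 * z^29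
      - 432 * u^2 * v^13 * z^2 + 432 * u^2 * v^13 * z^3 - 432 * u^2 * v^13 * z^7 + 432 * u^2 * v^13 * z^8
      - 432 * u^2 * v^13 * z^12 + 432 * u^2 * v^13 * z^13 - 432 * u^2 * v^13 * z^17 + 432 * u^2 * v^13 * z^18
      - 432 * u^2 * v^13 * z^22 + 432 * u^2 * v^13 * z^23 - 432 * u^2 * v^13 * z^27 + 432 * u^2 * v^13 * z^28
      - 108 * u * v^14 * z + 108 * u * v^14 * z^2 - 108 * u * v^14 * z^6 + 108 * u * v^14 * z^7
      - 108 * u * v^14 * z^11 + 108 * u * v^14 * z^12 - 108 * u * v^14 * z^16 + 108 * u * v^14 * z^17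
      - 108 * u * v^14 * z^21 + 108 * u * v^14 * z^22 - 108 * u * v^14 * z^26 + 108 * u * v^14 * z^27) * hz

/-- `T = diag(ζ³, ζ²)` preserves base points. -/
theorem h72k_base_T' {A B : ℤ} {ζ u v : Qbar} (hζ : h86_Z5 ζ) (hb : h86_Base A B u v) :
    h86_Base A B (ζ ^ 3 * u) (ζ ^ 2 * v) := by
  have hb1 : h86_Base A B (ζ * u) v :=
    ⟨hb.1, by rw [kl_H_t u v ζ hζ, hb.2.1], by rw [kl_T_t u v ζ hζ, hb.2.2]⟩
  have h5 : ζ ^ 5 = 1 := kl_zeta_pow_five ζ hζ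
  have hl : (ζ ^ 2) ^ 10 = 1 := by
    have : (ζ ^ 2) ^ 10 = (ζ ^ 5) ^ 4 := by ring
    rw [this, h5, one_pow]
  have hb2 := h86_Base_smul hb1 hl
  have e : ζ ^ 2 * (ζ * u) = ζ ^ 3 * u := by ring
  rwa [e] at hb2

/-- **(F-T)** field `lawT10`. -/
theorem h72k_klLawT10 : ∀ (ζ : Qbar) (A B : ℤ) (u v : Qbar), h86_Z5 ζ → h86_Base A B u v →
    klP10 ζ A B (ζ ^ 3 * u) (ζ ^ 2 * v) = klP10 ζ A B u v := by
  intro ζ A B u v hζ hb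
  rw [klP10_eq hζ (h72k_base_T' hζ hb), klP10_eq hζ hb]
  apply h86_some_congr
  · unfold kl_x10
    rw [h72k_T_X10 ζ u v hζ]
  · unfold kl_y10
    rw [h72k_T_Y10 ζ u v hζ]

/-- **(F-T)** field `lawT01`. -/
theorem h72k_klLawT01 : ∀ (ζ : Qbar) (A B : ℤ) (u v : Qbar), h86_Z5 ζ → h86_Base A B u v →
    klP01 A B (ζ ^ 3 * u) (ζ ^ 2 * v) = klP01 A B u v + klP10 ζ A B u v := by
  intro ζ A B u v hζ hb
  rw [klP01_eq (h72k_base_T' hζ hb), klP01_eq hb, klP10_eq hζ hb]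
  symm
  have h5 : (5 : Qbar) ≠ 0 := by norm_num
  have hne : kl_X10 ζ u v ≠ 5 * kl_x01 u v :=
    h72k_X10_ne_x01 (by norm_num) ζ u v hζ (h86_Base_f_ne_zero hb)
  have hne' : kl_X10 ζ u v - 5 * kl_x01 u v ≠ 0 := sub_ne_zero.mpr hne
  apply h86_short_add (h86_E_a₁ A B) (h86_E_a₂ A B) (h86_E_a₃ A B)
  · -- `x01 ≠ x10`
    intro h
    apply hne
    unfold kl_x10 at h
    rw [h]
    field_simp
  · rw [h72k_T_x01 ζ u v hζ]
    have h := kl_add11_x u v ζ hζ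
    unfold kl_x10 kl_y10
    field_simp
    linear_combination h
  · rw [h72k_T_x01 ζ u v hζ, h72k_T_y01 ζ u v hζ]
    have h := kl_add11_y u v ζ hζ
    unfold kl_x10 kl_y10
    field_simp
    linear_combination -h

end Fermat.Agent.S52
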