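import Fermat.Agent.S52.Klein.Defs

/-!
# S52 FORMULAS block, (L7): separation at the coordinate level

Owner: helper72 (for helper5 / helper86).  The `x`-coordinates of the torsion points
`P01(zⁱ u, v)` and `2 • P01(zⁱ u, v)`, `i = 0, …, 4`, determine `(u, v)` up to a `10`-th root
of unity:

* `∑ᵢ zⁱ x01(zⁱ u, v) = 900 u⁴ v⁶`,
* `∑ᵢ z⁴ⁱ x02(zⁱ u, v) = 900 u⁶ v⁴`,
* `∑ᵢ z⁴ⁱ x01(zⁱ u, v) = 180 u v⁹ + 360 u⁶ v⁴`,

so `u / v = a² / (b c)` and `v¹⁰ = c v / u` are determined.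
-/

set_option autoImplicit false

namespace Fermat.Agent.S52

/-- `∑ᵢ zⁱ x01(zⁱ u, v) = 900 u⁴ v⁶`. -/
theorem h72k_sum1 {R : Type*} [CommRing R] (z u v : R)
    (hz : z ^ 4 + z ^ 3 + z ^ 2 + z + 1 = 0) :
    kl_x01 u v + z * kl_x01 (z * u) v + z ^ 2 * kl_x01 (z ^ 2 * u) v + z ^ 3 * kl_x01 (z ^ 3 * u) v + z ^ 4 * kl_x01 (z ^ 4 * u) v
      = 900 * u ^ 4 * v ^ 6 := by
  unfold kl_x01
  linear_combination (3 * u^10 - 3 * u^10 * z + 3 * u^10 * z^5 - 3 * u^10 * z^6 + 3 * u^10 * z^10 - 3 * u^10 * z^12 + 3 * u^10 * z^15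
      - 3 * u^10 * z^17 + 3 * u^10 * z^20 - 3 * u^10 * z^23 + 3 * u^10 * z^25 - 3 * u^10 * z^28
      + 3 * u^10 * z^30 - 3 * u^10 * z^34 + 3 * u^10 * z^35 - 3 * u^10 * z^39 + 3 * u^10 * z^40
      + 36 * u^8 * v^2 - 36 * u^8 * v^2 * z + 36 * u^8 * v^2 * z^5 - 36 * u^8 * v^2 * z^6 + 36 * u^8 * v^2 * z^9
      - 36 * u^8 * v^2 * z^11 + 36 * u^8 * v^2 * z^14 - 36 * u^8 * v^2 * z^16 + 36 * u^8 * v^2 * z^18
      - 36 * u^8 * v^2 * z^21 + 36 * u^8 * v^2 * z^23 - 36 * u^8 * v^2 * z^26 + 36 * u^8 * v^2 * z^27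
      - 36 * u^8 * v^2 * z^31 + 36 * u^8 * v^2 * z^32 - 36 * u^7 * v^3 + 36 * u^7 * v^3 * z - 36 * u^7 * v^3 * z^5
      + 36 * u^7 * v^3 * z^6 - 36 * u^7 * v^3 * z^8 + 36 * u^7 * v^3 * z^9 - 36 * u^7 * v^3 * z^10
      + 36 * u^7 * v^3 * z^11 - 36 * u^7 * v^3 * z^13 + 36 * u^7 * v^3 * z^14 - 36 * u^7 * v^3 * z^15
      + 36 * u^7 * v^3 * z^17 - 36 * u^7 * v^3 * z^18 + 36 * u^7 * v^3 * z^19 - 36 * u^7 * v^3 * z^20
      + 36 * u^7 * v^3 * z^22 - 36 * u^7 * v^3 * z^23 + 36 * u^7 * v^3 * z^27 - 36 * u^7 * v^3 * z^28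
      + 72 * u^6 * v^4 - 72 * u^6 * v^4 * z + 72 * u^6 * v^4 * z^5 - 72 * u^6 * v^4 * z^6 + 72 * u^6 * v^4 * z^7
      - 72 * u^6 * v^4 * z^8 + 72 * u^6 * v^4 * z^10 - 72 * u^6 * v^4 * z^11 + 72 * u^6 * v^4 * z^12
      - 72 * u^6 * v^4 * z^13 + 72 * u^6 * v^4 * z^14 - 72 * u^6 * v^4 * z^16 + 72 * u^6 * v^4 * z^17
      - 72 * u^6 * v^4 * z^18 + 72 * u^6 * v^4 * z^19 - 72 * u^6 * v^4 * z^23 + 72 * u^6 * v^4 * z^24
      + 90 * u^5 * v^5 - 90 * u^5 * v^5 * z + 90 * u^5 * v^5 * z^5 - 90 * u^5 * v^5 * z^7 + 90 * u^5 * v^5 * z^10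
      - 90 * u^5 * v^5 * z^13 + 90 * u^5 * v^5 * z^15 - 90 * u^5 * v^5 * z^19 + 90 * u^5 * v^5 * z^20
      - 720 * u^4 * v^6 + 720 * u^4 * v^6 * z - 540 * u^4 * v^6 * z^5 + 540 * u^4 * v^6 * z^6 - 360 * u^4 * v^6 * z^10
      + 360 * u^4 * v^6 * z^11 - 180 * u^4 * v^6 * z^15 + 180 * u^4 * v^6 * z^16 + 108 * u^3 * v^7
      - 108 * u^3 * v^7 * z + 108 * u^3 * v^7 * z^4 - 108 * u^3 * v^7 * z^6 + 108 * u^3 * v^7 * z^8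
      - 108 * u^3 * v^7 * z^11 + 108 * u^3 * v^7 * z^12 + 72 * u^2 * v^8 - 72 * u^2 * v^8 * z + 72 * u^2 * v^8 * z^3
      - 72 * u^2 * v^8 * z^4 + 72 * u^2 * v^8 * z^5 - 72 * u^2 * v^8 * z^7 + 72 * u^2 * v^8 * z^8
      + 36 * u * v^9 - 36 * u * v^9 * z + 36 * u * v^9 * z^2 - 36 * u * v^9 * z^3 + 36 * u * v^9 * z^4
      + 3 * v^10) * hz

/-- `∑ᵢ z⁴ⁱ x02(zⁱ u, v) = 900 u⁶ v⁴`. -/
theorem h72k_sum2 {R : Type*} [CommRing R] (z u v : R)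
    (hz : z ^ 4 + z ^ 3 + z ^ 2 + z + 1 = 0) :
    kl_x02 u v + z ^ 4 * kl_x02 (z * u) v + z ^ 8 * kl_x02 (z ^ 2 * u) v + z ^ 12 * kl_x02 (z ^ 3 * u) v + z ^ 16 * kl_x02 (z ^ 4 * u) v
      = 900 * u ^ 6 * v ^ 4 := by
  unfold kl_x02
  linear_combination (3 * u^10 - 3 * u^10 * z + 3 * u^10 * z^5 - 3 * u^10 * z^6 + 3 * u^10 * z^10 - 3 * u^10 * z^11 + 3 * u^10 * z^14
      - 3 * u^10 * z^16 + 3 * u^10 * z^19 - 3 * u^10 * z^21 + 3 * u^10 * z^24 - 3 * u^10 * z^26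
      + 3 * u^10 * z^28 - 3 * u^10 * z^31 + 3 * u^10 * z^33 - 3 * u^10 * z^36 + 3 * u^10 * z^38
      - 3 * u^10 * z^41 + 3 * u^10 * z^42 - 3 * u^10 * z^46 + 3 * u^10 * z^47 - 3 * u^10 * z^51
      + 3 * u^10 * z^52 - 36 * u^9 * v + 36 * u^9 * v * z - 36 * u^9 * v * z^5 + 36 * u^9 * v * z^6
      - 36 * u^9 * v * z^10 + 36 * u^9 * v * z^11 - 36 * u^9 * v * z^13 + 36 * u^9 * v * z^14 - 36 * u^9 * v * z^15
      + 36 * u^9 * v * z^16 - 36 * u^9 * v * z^18 + 36 * u^9 * v * z^19 - 36 * u^9 * v * z^20 + 36 * u^9 * v * z^21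
      - 36 * u^9 * v * z^23 + 36 * u^9 * v * z^24 - 36 * u^9 * v * z^25 + 36 * u^9 * v * z^27 - 36 * u^9 * v * z^28
      + 36 * u^9 * v * z^29 - 36 * u^9 * v * z^30 + 36 * u^9 * v * z^32 - 36 * u^9 * v * z^33 + 36 * u^9 * v * z^34
      - 36 * u^9 * v * z^35 + 36 * u^9 * v * z^37 - 36 * u^9 * v * z^38 + 36 * u^9 * v * z^42 - 36 * u^9 * v * z^43
      + 36 * u^9 * v * z^47 - 36 * u^9 * v * z^48 + 72 * u^8 * v^2 - 72 * u^8 * v^2 * z + 72 * u^8 * v^2 * z^5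
      - 72 * u^8 * v^2 * z^6 + 72 * u^8 * v^2 * z^10 - 72 * u^8 * v^2 * z^11 + 72 * u^8 * v^2 * z^12
      - 72 * u^8 * v^2 * z^13 + 72 * u^8 * v^2 * z^15 - 72 * u^8 * v^2 * z^16 + 72 * u^8 * v^2 * z^17
      - 72 * u^8 * v^2 * z^18 + 72 * u^8 * v^2 * z^20 - 72 * u^8 * v^2 * z^21 + 72 * u^8 * v^2 * z^22
      - 72 * u^8 * v^2 * z^23 + 72 * u^8 * v^2 * z^24 - 72 * u^8 * v^2 * z^26 + 72 * u^8 * v^2 * z^27
      - 72 * u^8 * v^2 * z^28 + 72 * u^8 * v^2 * z^29 - 72 * u^8 * v^2 * z^31 + 72 * u^8 * v^2 * z^32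
      - 72 * u^8 * v^2 * z^33 + 72 * u^8 * v^2 * z^34 - 72 * u^8 * v^2 * z^38 + 72 * u^8 * v^2 * z^39
      - 72 * u^8 * v^2 * z^43 + 72 * u^8 * v^2 * z^44 - 108 * u^7 * v^3 + 108 * u^7 * v^3 * z - 108 * u^7 * v^3 * z^5
      + 108 * u^7 * v^3 * z^6 - 108 * u^7 * v^3 * z^10 + 108 * u^7 * v^3 * z^12 - 108 * u^7 * v^3 * z^15
      + 108 * u^7 * v^3 * z^17 - 108 * u^7 * v^3 * z^20 + 108 * u^7 * v^3 * z^23 - 108 * u^7 * v^3 * z^25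
      + 108 * u^7 * v^3 * z^28 - 108 * u^7 * v^3 * z^30 + 108 * u^7 * v^3 * z^34 - 108 * u^7 * v^3 * z^35
      + 108 * u^7 * v^3 * z^39 - 108 * u^7 * v^3 * z^40 - 720 * u^6 * v^4 + 720 * u^6 * v^4 * z
      - 720 * u^6 * v^4 * z^5 + 720 * u^6 * v^4 * z^6 - 540 * u^6 * v^4 * z^10 + 540 * u^6 * v^4 * z^11
      - 540 * u^6 * v^4 * z^15 + 540 * u^6 * v^4 * z^16 - 360 * u^6 * v^4 * z^20 + 360 * u^6 * v^4 * z^21
      - 360 * u^6 * v^4 * z^25 + 360 * u^6 * v^4 * z^26 - 180 * u^6 * v^4 * z^30 + 180 * u^6 * v^4 * z^31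
      - 180 * u^6 * v^4 * z^35 + 180 * u^6 * v^4 * z^36 - 90 * u^5 * v^5 + 90 * u^5 * v^5 * z - 90 * u^5 * v^5 * z^5
      + 90 * u^5 * v^5 * z^6 - 90 * u^5 * v^5 * z^9 + 90 * u^5 * v^5 * z^11 - 90 * u^5 * v^5 * z^14
      + 90 * u^5 * v^5 * z^16 - 90 * u^5 * v^5 * z^18 + 90 * u^5 * v^5 * z^21 - 90 * u^5 * v^5 * z^23
      + 90 * u^5 * v^5 * z^26 - 90 * u^5 * v^5 * z^27 + 90 * u^5 * v^5 * z^31 - 90 * u^5 * v^5 * z^32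
      + 72 * u^4 * v^6 - 72 * u^4 * v^6 * z + 72 * u^4 * v^6 * z^5 - 72 * u^4 * v^6 * z^6 + 72 * u^4 * v^6 * z^8
      - 72 * u^4 * v^6 * z^9 + 72 * u^4 * v^6 * z^10 - 72 * u^4 * v^6 * z^11 + 72 * u^4 * v^6 * z^13
      - 72 * u^4 * v^6 * z^14 + 72 * u^4 * v^6 * z^15 - 72 * u^4 * v^6 * z^17 + 72 * u^4 * v^6 * z^18
      - 72 * u^4 * v^6 * z^19 + 72 * u^4 * v^6 * z^20 - 72 * u^4 * v^6 * z^22 + 72 * u^4 * v^6 * z^23
      - 72 * u^4 * v^6 * z^27 + 72 * u^4 * v^6 * z^28 + 36 * u^3 * v^7 - 36 * u^3 * v^7 * z + 36 * u^3 * v^7 * z^5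
      - 36 * u^3 * v^7 * z^6 + 36 * u^3 * v^7 * z^7 - 36 * u^3 * v^7 * z^8 + 36 * u^3 * v^7 * z^10
      - 36 * u^3 * v^7 * z^11 + 36 * u^3 * v^7 * z^12 - 36 * u^3 * v^7 * z^13 + 36 * u^3 * v^7 * z^14
      - 36 * u^3 * v^7 * z^16 + 36 * u^3 * v^7 * z^17 - 36 * u^3 * v^7 * z^18 + 36 * u^3 * v^7 * z^19
      - 36 * u^3 * v^7 * z^23 + 36 * u^3 * v^7 * z^24 + 36 * u^2 * v^8 - 36 * u^2 * v^8 * z + 36 * u^2 * v^8 * z^5
      - 36 * u^2 * v^8 * z^7 + 36 * u^2 * v^8 * z^10 - 36 * u^2 * v^8 * z^13 + 36 * u^2 * v^8 * z^15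
      - 36 * u^2 * v^8 * z^19 + 36 * u^2 * v^8 * z^20 + 3 * v^10 - 3 * v^10 * z + 3 * v^10 * z^4
      - 3 * v^10 * z^6 + 3 * v^10 * z^8 - 3 * v^10 * z^11 + 3 * v^10 * z^12) * hz

/-- `∑ᵢ z⁴ⁱ x01(zⁱ u, v) = 180 u v⁹ + 360 u⁶ v⁴`. -/
theorem h72k_sum3 {R : Type*} [CommRing R] (z u v : R)
    (hz : z ^ 4 + z ^ 3 + z ^ 2 + z + 1 = 0) :
    kl_x01 u v + z ^ 4 * kl_x01 (z * u) v + z ^ 8 * kl_x01 (z ^ 2 * u) v + z ^ 12 * kl_x01 (z ^ 3 * u) v + z ^ 16 * kl_x01 (z ^ 4 * u) v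
      = 180 * u * v ^ 9 + 360 * u ^ 6 * v ^ 4 := by
  unfold kl_x01
  linear_combination (3 * u^10 - 3 * u^10 * z + 3 * u^10 * z^5 - 3 * u^10 * z^6 + 3 * u^10 * z^10 - 3 * u^10 * z^11 + 3 * u^10 * z^14
      - 3 * u^10 * z^16 + 3 * u^10 * z^19 - 3 * u^10 * z^21 + 3 * u^10 * z^24 - 3 * u^10 * z^26
      + 3 * u^10 * z^28 - 3 * u^10 * z^31 + 3 * u^10 * z^33 - 3 * u^10 * z^36 + 3 * u^10 * z^38
      - 3 * u^10 * z^41 + 3 * u^10 * z^42 - 3 * u^10 * z^46 + 3 * u^10 * z^47 - 3 * u^10 * z^51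
      + 3 * u^10 * z^52 + 36 * u^8 * v^2 - 36 * u^8 * v^2 * z + 36 * u^8 * v^2 * z^5 - 36 * u^8 * v^2 * z^6
      + 36 * u^8 * v^2 * z^10 - 36 * u^8 * v^2 * z^11 + 36 * u^8 * v^2 * z^12 - 36 * u^8 * v^2 * z^13
      + 36 * u^8 * v^2 * z^15 - 36 * u^8 * v^2 * z^16 + 36 * u^8 * v^2 * z^17 - 36 * u^8 * v^2 * z^18
      + 36 * u^8 * v^2 * z^20 - 36 * u^8 * v^2 * z^21 + 36 * u^8 * v^2 * z^22 - 36 * u^8 * v^2 * z^23
      + 36 * u^8 * v^2 * z^24 - 36 * u^8 * v^2 * z^26 + 36 * u^8 * v^2 * z^27 - 36 * u^8 * v^2 * z^28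
      + 36 * u^8 * v^2 * z^29 - 36 * u^8 * v^2 * z^31 + 36 * u^8 * v^2 * z^32 - 36 * u^8 * v^2 * z^33
      + 36 * u^8 * v^2 * z^34 - 36 * u^8 * v^2 * z^38 + 36 * u^8 * v^2 * z^39 - 36 * u^8 * v^2 * z^43
      + 36 * u^8 * v^2 * z^44 - 36 * u^7 * v^3 + 36 * u^7 * v^3 * z - 36 * u^7 * v^3 * z^5 + 36 * u^7 * v^3 * z^6
      - 36 * u^7 * v^3 * z^10 + 36 * u^7 * v^3 * z^12 - 36 * u^7 * v^3 * z^15 + 36 * u^7 * v^3 * z^17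
      - 36 * u^7 * v^3 * z^20 + 36 * u^7 * v^3 * z^23 - 36 * u^7 * v^3 * z^25 + 36 * u^7 * v^3 * z^28
      - 36 * u^7 * v^3 * z^30 + 36 * u^7 * v^3 * z^34 - 36 * u^7 * v^3 * z^35 + 36 * u^7 * v^3 * z^39
      - 36 * u^7 * v^3 * z^40 - 288 * u^6 * v^4 + 288 * u^6 * v^4 * z - 288 * u^6 * v^4 * z^5 + 288 * u^6 * v^4 * z^6
      - 216 * u^6 * v^4 * z^10 + 216 * u^6 * v^4 * z^11 - 216 * u^6 * v^4 * z^15 + 216 * u^6 * v^4 * z^16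
      - 144 * u^6 * v^4 * z^20 + 144 * u^6 * v^4 * z^21 - 144 * u^6 * v^4 * z^25 + 144 * u^6 * v^4 * z^26
      - 72 * u^6 * v^4 * z^30 + 72 * u^6 * v^4 * z^31 - 72 * u^6 * v^4 * z^35 + 72 * u^6 * v^4 * z^36
      + 90 * u^5 * v^5 - 90 * u^5 * v^5 * z + 90 * u^5 * v^5 * z^5 - 90 * u^5 * v^5 * z^6 + 90 * u^5 * v^5 * z^9
      - 90 * u^5 * v^5 * z^11 + 90 * u^5 * v^5 * z^14 - 90 * u^5 * v^5 * z^16 + 90 * u^5 * v^5 * z^18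
      - 90 * u^5 * v^5 * z^21 + 90 * u^5 * v^5 * z^23 - 90 * u^5 * v^5 * z^26 + 90 * u^5 * v^5 * z^27
      - 90 * u^5 * v^5 * z^31 + 90 * u^5 * v^5 * z^32 + 180 * u^4 * v^6 - 180 * u^4 * v^6 * z + 180 * u^4 * v^6 * z^5
      - 180 * u^4 * v^6 * z^6 + 180 * u^4 * v^6 * z^8 - 180 * u^4 * v^6 * z^9 + 180 * u^4 * v^6 * z^10
      - 180 * u^4 * v^6 * z^11 + 180 * u^4 * v^6 * z^13 - 180 * u^4 * v^6 * z^14 + 180 * u^4 * v^6 * z^15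
      - 180 * u^4 * v^6 * z^17 + 180 * u^4 * v^6 * z^18 - 180 * u^4 * v^6 * z^19 + 180 * u^4 * v^6 * z^20
      - 180 * u^4 * v^6 * z^22 + 180 * u^4 * v^6 * z^23 - 180 * u^4 * v^6 * z^27 + 180 * u^4 * v^6 * z^28
      + 108 * u^3 * v^7 - 108 * u^3 * v^7 * z + 108 * u^3 * v^7 * z^5 - 108 * u^3 * v^7 * z^6 + 108 * u^3 * v^7 * z^7
      - 108 * u^3 * v^7 * z^8 + 108 * u^3 * v^7 * z^10 - 108 * u^3 * v^7 * z^11 + 108 * u^3 * v^7 * z^12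
      - 108 * u^3 * v^7 * z^13 + 108 * u^3 * v^7 * z^14 - 108 * u^3 * v^7 * z^16 + 108 * u^3 * v^7 * z^17
      - 108 * u^3 * v^7 * z^18 + 108 * u^3 * v^7 * z^19 - 108 * u^3 * v^7 * z^23 + 108 * u^3 * v^7 * z^24
      + 72 * u^2 * v^8 - 72 * u^2 * v^8 * z + 72 * u^2 * v^8 * z^5 - 72 * u^2 * v^8 * z^7 + 72 * u^2 * v^8 * z^10
      - 72 * u^2 * v^8 * z^13 + 72 * u^2 * v^8 * z^15 - 72 * u^2 * v^8 * z^19 + 72 * u^2 * v^8 * z^20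
      - 144 * u * v^9 + 144 * u * v^9 * z - 108 * u * v^9 * z^5 + 108 * u * v^9 * z^6 - 72 * u * v^9 * z^10
      + 72 * u * v^9 * z^11 - 36 * u * v^9 * z^15 + 36 * u * v^9 * z^16 + 3 * v^10 - 3 * v^10 * z
      + 3 * v^10 * z^4 - 3 * v^10 * z^6 + 3 * v^10 * z^8 - 3 * v^10 * z^11 + 3 * v^10 * z^12) * hz

/-- **(L7) Separation, coordinate level.**  If `f(u, v) ≠ 0` and the `x`-coordinates of the
torsion points `P01(zⁱ u, v)` and `2 • P01(zⁱ u, v)` (`i < 5`) agree for `(u, v)` and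
`(u', v')`, then `(u', v') = lam • (u, v)` for some `lam` with `lam ^ 10 = 1`. -/
theorem h72k_sep {K : Type*} [Field K] (h30 : (30 : K) ≠ 0) (z u v u' v' : K)
    (hz : z ^ 4 + z ^ 3 + z ^ 2 + z + 1 = 0) (hf : h42rr_f u v ≠ 0)
    (h1 : ∀ i : ℕ, i < 5 → kl_x01 (z ^ i * u) v = kl_x01 (z ^ i * u') v')
    (h2 : ∀ i : ℕ, i < 5 → kl_x02 (z ^ i * u) v = kl_x02 (z ^ i * u') v') :
    ∃ lam : K, lam ^ 10 = 1 ∧ u' = lam * u ∧ v' = lam * v := by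
  have h2' : (2 : K) ≠ 0 := fun h => h30 (by linear_combination 15 * h)
  have h3' : (3 : K) ≠ 0 := fun h => h30 (by linear_combination 10 * h)
  have h5' : (5 : K) ≠ 0 := fun h => h30 (by linear_combination 6 * h)
  have h900 : (900 : K) ≠ 0 := by
    have e : (900 : K) = 2 ^ 2 * 3 ^ 2 * 5 ^ 2 := by norm_num
    rw [e]
    exact mul_ne_zero (mul_ne_zero (pow_ne_zero _ h2') (pow_ne_zero _ h3')) (pow_ne_zero _ h5')
  have h180 : (180 : K) ≠ 0 := by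
    have e : (180 : K) = 2 ^ 2 * 3 ^ 2 * 5 := by norm_num
    rw [e]
    exact mul_ne_zero (mul_ne_zero (pow_ne_zero _ h2') (pow_ne_zero _ h3')) h5'
  -- the five instances
  have a0 := h1 0 (by norm_num)
  have a1 := h1 1 (by norm_num)
  have a2 := h1 2 (by norm_num)
  have a3 := h1 3 (by norm_num)
  have a4 := h1 4 (by norm_num)
  have b0 := h2 0 (by norm_num)
  have b1 := h2 1 (by norm_num)
  have b2 := h2 2 (by norm_num)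
  have b3 := h2 3 (by norm_num)
  have b4 := h2 4 (by norm_num)
  rw [pow_zero, one_mul, one_mul] at a0 b0
  rw [pow_one] at a1 b1
  -- the three monomials agree
  have ea : u ^ 4 * v ^ 6 = u' ^ 4 * v' ^ 6 := by
    have e1 := h72k_sum1 z u v hz
    have e2 := h72k_sum1 z u' v' hz
    rw [a0, a1, a2, a3, a4, e2] at e1
    have : (900 : K) * (u ^ 4 * v ^ 6 - u' ^ 4 * v' ^ 6) = 0 := by linear_combination -e1
    rcases mul_eq_zero.mp this with h | h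
    · exact absurd h h900
    · exact sub_eq_zero.mp h
  have eb : u ^ 6 * v ^ 4 = u' ^ 6 * v' ^ 4 := by
    have e1 := h72k_sum2 z u v hz
    have e2 := h72k_sum2 z u' v' hz
    rw [b0, b1, b2, b3, b4, e2] at e1
    have : (900 : K) * (u ^ 6 * v ^ 4 - u' ^ 6 * v' ^ 4) = 0 := by linear_combination -e1
    rcases mul_eq_zero.mp this with h | h
    · exact absurd h h900
    · exact sub_eq_zero.mp h
  have ec : u * v ^ 9 = u' * v' ^ 9 := by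
    have e1 := h72k_sum3 z u v hz
    have e2 := h72k_sum3 z u' v' hz
    rw [a0, a1, a2, a3, a4, e2] at e1
    have : (180 : K) * (u * v ^ 9 - u' * v' ^ 9) = 0 := by
      linear_combination -e1 - 360 * eb
    rcases mul_eq_zero.mp this with h | h
    · exact absurd h h180
    · exact sub_eq_zero.mp h
  -- nonvanishing
  have hu : u ≠ 0 := by
    intro h
    apply hf
    unfold h42rr_f
    rw [h]
    ring
  have hv : v ≠ 0 := by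
    intro h
    apply hf
    unfold h42rr_f
    rw [h]
    ring
  have hb : u ^ 6 * v ^ 4 ≠ 0 := mul_ne_zero (pow_ne_zero _ hu) (pow_ne_zero _ hv)
  have hc : u * v ^ 9 ≠ 0 := mul_ne_zero hu (pow_ne_zero _ hv)
  -- `u v' = u' v`
  have hcross : u * v' = u' * v := by
    have : (u ^ 6 * v ^ 4) * (u * v ^ 9) * (u * v' - u' * v) = 0 := by
      have k1 : u * ((u ^ 6 * v ^ 4) * (u * v ^ 9)) = v * (u ^ 4 * v ^ 6) ^ 2 := by ring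
      have k2 : u' * ((u' ^ 6 * v' ^ 4) * (u' * v' ^ 9)) = v' * (u' ^ 4 * v' ^ 6) ^ 2 := by
        ring
      rw [← eb, ← ec, ← ea] at k2
      linear_combination v' * k1 - v * k2
    rcases mul_eq_zero.mp this with h | h
    · exact absurd h (mul_ne_zero hb hc)
    · exact sub_eq_zero.mp h
  refine ⟨v' / v, ?_, ?_, ?_⟩
  · -- `lam ^ 10 = 1`
    have hv10 : v ^ 10 ≠ 0 := pow_ne_zero _ hv
    rw [div_pow, div_eq_one_iff_eq hv10]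
    -- `u v'^10 = u' v v'^9 = u v^9 v = u v^10`
    have : u * (v' ^ 10 - v ^ 10) = 0 := by
      linear_combination v' ^ 9 * hcross - v * ec
    rcases mul_eq_zero.mp this with h | h
    · exact absurd h hu
    · exact sub_eq_zero.mp h
  · field_simp
    linear_combination -hcross
  · field_simp

end Fermat.Agent.S52
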