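import Fermat.Agent.S52.Klein.H72SepPt
import Fermat.Agent.S52.Klein.H72LawT

/-!
# S52 FORMULAS block, (F-SEP): the field `sep` of `h86_KlData`, unconditionally

helper72.  `h72k_klSep` is the field `sep` for `P10 := klP10`, `P01 := klP01`.
-/

set_option autoImplicit false

namespace Fermat.Agent.S52

local notation "Qbar" => AlgebraicClosure ℚ

/-- **(F-SEP)** field `sep` of `h86_KlData` for the concrete universal points. -/
theorem h72k_klSep : ∀ (ζ : Qbar) (A B : ℤ) (u v u' v' : Qbar), h86_Z5 ζ → h86_Base A B u v →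
    h86_Base A B u' v' → klP10 ζ A B u v = klP10 ζ A B u' v' →
    klP01 A B u v = klP01 A B u' v' →
    ∃ lam : Qbar, lam ^ 10 = 1 ∧ u' = lam * u ∧ v' = lam * v :=
  h72k_klSep_of h72k_klLawT10 h72k_klLawT01

end Fermat.Agent.S52
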