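import Fermat.Agent.S52.Klein.Points
import Fermat.Agent.S52.Klein.H72Sep

/-!
# S52 FORMULAS block, (F-SEP): separation at the point level

Owner: helper72.  The field `sep` of `h86_KlData` for the concrete points `klP01`, `klP10`,
from the two `T`-laws (`lawT10`, `lawT01`, row F-T): if the universal points at two base points
`w = (u, v)`, `w' = (u', v')` of `(A, B)` agree, then `w' = lam • w` with `lam ^ 10 = 1`.

Iterating `T` gives `P01(Tⁱ w) = P01(w) + i • P10(w)`, so the points `P01(Tⁱ w)` and their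
doubles agree for `w` and `w'`; their `x`-coordinates are `x01(zⁱ u, v)` and `x02(zⁱ u, v)`
(homogeneity of degree `10`), and `h72k_sep` applies.
-/

set_option autoImplicit false

namespace Fermat.Agent.S52

open WeierstrassCurve WeierstrassCurve.Affine

local notation "Qbar" => AlgebraicClosure ℚ

theorem h72k_x01_smul {R : Type*} [CommRing R] (c u v : R) :
    kl_x01 (c * u) (c * v) = c ^ 10 * kl_x01 u v := by
  unfold kl_x01; ring

theorem h72k_x02_smul {R : Type*} [CommRing R] (c u v : R) :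
    kl_x02 (c * u) (c * v) = c ^ 10 * kl_x02 u v := by
  unfold kl_x02; ring

/-- `T = diag(ζ³, ζ²)` preserves base points. -/
theorem h72k_base_T {A B : ℤ} {ζ u v : Qbar} (hζ : h86_Z5 ζ) (hb : h86_Base A B u v) :
    h86_Base A B (ζ ^ 3 * u) (ζ ^ 2 * v) := by
  have hb1 : h86_Base A B (ζ * u) v :=
    ⟨hb.1, by rw [kl_H_t u v ζ hζ, hb.2.1], by rw [kl_T_t u v ζ hζ, hb.2.2]⟩
  have h5 : ζ ^ 5 = 1 := kl_zeta_pow_five ζ hζ
  have hl : (ζ ^ 2) ^ 10 = 1 := by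
    have : (ζ ^ 2) ^ 10 = (ζ ^ 5) ^ 4 := by ring
    rw [this, h5, one_pow]
  have hb2 := h86_Base_smul hb1 hl
  have e : ζ ^ 2 * (ζ * u) = ζ ^ 3 * u := by ring
  rwa [e] at hb2

/-- Iterating the `T`-laws. -/
theorem h72k_iter
    (hT10 : ∀ (ζ : Qbar) (A B : ℤ) (u v : Qbar), h86_Z5 ζ → h86_Base A B u v →
      klP10 ζ A B (ζ ^ 3 * u) (ζ ^ 2 * v) = klP10 ζ A B u v)
    (hT01 : ∀ (ζ : Qbar) (A B : ℤ) (u v : Qbar), h86_Z5 ζ → h86_Base A B u v →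
      klP01 A B (ζ ^ 3 * u) (ζ ^ 2 * v) = klP01 A B u v + klP10 ζ A B u v)
    {ζ : Qbar} {A B : ℤ} {u v : Qbar} (hζ : h86_Z5 ζ) (hb : h86_Base A B u v) (i : ℕ) :
    h86_Base A B ((ζ ^ 3) ^ i * u) ((ζ ^ 2) ^ i * v) ∧
      klP10 ζ A B ((ζ ^ 3) ^ i * u) ((ζ ^ 2) ^ i * v) = klP10 ζ A B u v ∧
      klP01 A B ((ζ ^ 3) ^ i * u) ((ζ ^ 2) ^ i * v)
        = klP01 A B u v + (i : ℤ) • klP10 ζ A B u v := by
  induction i with
  | zero =>
    simp only [pow_zero, one_mul, Nat.cast_zero, zero_zsmul, add_zero]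
    exact ⟨hb, trivial, trivial⟩
  | succ i ih =>
    obtain ⟨hbi, h10, h01⟩ := ih
    have eu : (ζ ^ 3) ^ (i + 1) * u = ζ ^ 3 * ((ζ ^ 3) ^ i * u) := by ring
    have ev : (ζ ^ 2) ^ (i + 1) * v = ζ ^ 2 * ((ζ ^ 2) ^ i * v) := by ring
    rw [eu, ev]
    refine ⟨h72k_base_T hζ hbi, ?_, ?_⟩
    · rw [hT10 ζ A B _ _ hζ hbi, h10]
    · rw [hT01 ζ A B _ _ hζ hbi, h01, h10]
      push_cast
      rw [add_zsmul, one_zsmul, add_assoc]

/-- `y01 ≠ 0` at a base point. -/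
theorem h72k_y01_ne_zero {A B : ℤ} {u v : Qbar} (hb : h86_Base A B u v) : kl_y01 u v ≠ 0 := by
  intro hy
  have hns := h86_E_nonsingular hb (kl_on01 u v)
  have h := h86_short_deriv_ne_zero (h86_E_a₁ A B) (h86_E_a₂ A B) (h86_E_a₃ A B) hns hy
  apply h
  rw [h86_E_a₄_base hb]
  have hd := kl_dup01_x u v
  rw [hy] at hd
  have : (3 * kl_x01 u v ^ 2 + 27 * h42rr_H u v) ^ 2 = 0 := by
    rw [← hd]; ring
  exact pow_eq_zero_iff (by norm_num) |>.mp this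

/-- The double of `P01` is `(x02, y02)`. -/
theorem h72k_two_P01 {A B : ℤ} {u v : Qbar} (hb : h86_Base A B u v) :
    klP01 A B u v + klP01 A B u v
      = Point.some (kl_x02 u v) (kl_y02 u v) (h86_E_nonsingular hb (kl_on02 u v)) := by
  rw [klP01_eq hb]
  apply h86_short_dbl (h86_E_a₁ A B) (h86_E_a₂ A B) (h86_E_a₃ A B)
  · exact mul_ne_zero (by norm_num) (h72k_y01_ne_zero hb)
  · rw [h86_E_a₄_base hb]
    exact kl_dup01_x u v
  · rw [h86_E_a₄_base hb]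
    exact kl_dup01_y u v

/-- **(F-SEP)** The field `sep` of `h86_KlData` for `klP01`, `klP10`, from the `T`-laws. -/
theorem h72k_klSep_of
    (hT10 : ∀ (ζ : Qbar) (A B : ℤ) (u v : Qbar), h86_Z5 ζ → h86_Base A B u v →
      klP10 ζ A B (ζ ^ 3 * u) (ζ ^ 2 * v) = klP10 ζ A B u v)
    (hT01 : ∀ (ζ : Qbar) (A B : ℤ) (u v : Qbar), h86_Z5 ζ → h86_Base A B u v →
      klP01 A B (ζ ^ 3 * u) (ζ ^ 2 * v) = klP01 A B u v + klP10 ζ A B u v) :
    ∀ (ζ : Qbar) (A B : ℤ) (u v u' v' : Qbar), h86_Z5 ζ → h86_Base A B u v →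
      h86_Base A B u' v' → klP10 ζ A B u v = klP10 ζ A B u' v' →
      klP01 A B u v = klP01 A B u' v' →
      ∃ lam : Qbar, lam ^ 10 = 1 ∧ u' = lam * u ∧ v' = lam * v := by
  intro ζ A B u v u' v' hζ hb hb' h10 h01
  have h5 : ζ ^ 5 = 1 := kl_zeta_pow_five ζ hζ
  have key : ∀ i : ℕ, kl_x01 (ζ ^ i * u) v = kl_x01 (ζ ^ i * u') v' ∧
      kl_x02 (ζ ^ i * u) v = kl_x02 (ζ ^ i * u') v' := by
    intro i
    obtain ⟨hbi, -, e1⟩ := h72k_iter hT10 hT01 hζ hb i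
    obtain ⟨hbi', -, e1'⟩ := h72k_iter hT10 hT01 hζ hb' i
    have e : klP01 A B ((ζ ^ 3) ^ i * u) ((ζ ^ 2) ^ i * v)
        = klP01 A B ((ζ ^ 3) ^ i * u') ((ζ ^ 2) ^ i * v') := by
      rw [e1, e1', h10, h01]
    have ex := e
    rw [klP01_eq hbi, klP01_eq hbi'] at ex
    have hx := (Point.some.inj ex).1
    have e2 : klP01 A B ((ζ ^ 3) ^ i * u) ((ζ ^ 2) ^ i * v)
          + klP01 A B ((ζ ^ 3) ^ i * u) ((ζ ^ 2) ^ i * v)
        = klP01 A B ((ζ ^ 3) ^ i * u') ((ζ ^ 2) ^ i * v')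
          + klP01 A B ((ζ ^ 3) ^ i * u') ((ζ ^ 2) ^ i * v') := by
      rw [e]
    rw [h72k_two_P01 hbi, h72k_two_P01 hbi'] at e2
    have hx2 := (Point.some.inj e2).1
    have hc : ((ζ ^ 2) ^ i) ^ 10 = 1 := by
      have : ((ζ ^ 2) ^ i) ^ 10 = (ζ ^ 5) ^ (4 * i) := by
        rw [← pow_mul, ← pow_mul, ← pow_mul]
        congr 1
        ring
      rw [this, h5, one_pow]
    have r1 : ∀ a b : Qbar, kl_x01 ((ζ ^ 3) ^ i * a) ((ζ ^ 2) ^ i * b) = kl_x01 (ζ ^ i * a) b := by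
      intro a b
      have : (ζ ^ 3) ^ i * a = (ζ ^ 2) ^ i * (ζ ^ i * a) := by
        rw [← mul_assoc, ← mul_pow]
        congr 2
        ring
      rw [this, h72k_x01_smul, hc, one_mul]
    have r2 : ∀ a b : Qbar, kl_x02 ((ζ ^ 3) ^ i * a) ((ζ ^ 2) ^ i * b) = kl_x02 (ζ ^ i * a) b := by
      intro a b
      have : (ζ ^ 3) ^ i * a = (ζ ^ 2) ^ i * (ζ ^ i * a) := by
        rw [← mul_assoc, ← mul_pow]
        congr 2
        ring
      rw [this, h72k_x02_smul, hc, one_mul]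
    rw [r1, r1] at hx
    rw [r2, r2] at hx2
    exact ⟨hx, hx2⟩
  exact h72k_sep (by norm_num) ζ u v u' v' hζ (h86_Base_f_ne_zero hb)
    (fun i _ => (key i).1) (fun i _ => (key i).2)

end Fermat.Agent.S52
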