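import Fermat.Agent.S52.Klein.SAct
import Fermat.Agent.S52.Klein.Points
import Fermat.Agent.S52.Core.Defs

/-!
# S52, FORMULAS row F-S: the laws `symS`, `lawS01`, `lawS10` of `h86_KlData`

Owner: helper5.  Point-level form of the `S`-identities of `Klein/SAct.lean` for the universal
points `klP01`, `klP10` of `Klein/Points.lean`, with `Sa := kl_Sa`, `Sb := kl_Sb`, `Sc := kl_Sc`,
`Sd := kl_Sd`.
-/

set_option autoImplicit false

namespace Fermat.Agent.S52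

open WeierstrassCurve WeierstrassCurve.Affine

local notation "Qbar" => AlgebraicClosure ℚ

/-- Field `symS` of `h86_KlData`. -/
theorem klSymS : ∀ ζ : Qbar, h86_Z5 ζ →
    IsKleinSym (kl_Sa ζ) (kl_Sb ζ) (kl_Sc ζ) (kl_Sd ζ) :=
  fun ζ hζ => kl_isKleinSym_S ζ hζ h86_five_ne_zero

/-- Field `lawS01` of `h86_KlData`: `P01 ∘ S = P10`. -/
theorem klLawS01 : ∀ (ζ : Qbar) (A B : ℤ) (u v : Qbar), h86_Z5 ζ → h86_Base A B u v →
    klP01 A B (kl_Sa ζ * u + kl_Sb ζ * v) (kl_Sc ζ * u + kl_Sd ζ * v) = klP10 ζ A B u v := by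
  intro ζ A B u v hζ hb
  have hb' := h86_Base_sym hb (klSymS ζ hζ)
  rw [klP01_eq hb', klP10_eq hζ hb]
  exact h86_some_congr _ _ (kl_Sf_x01 u v ζ hζ h86_five_ne_zero)
    (kl_Sf_y01 u v ζ hζ h86_five_ne_zero)

/-- Field `lawS10` of `h86_KlData`: `P10 ∘ S = - P01`. -/
theorem klLawS10 : ∀ (ζ : Qbar) (A B : ℤ) (u v : Qbar), h86_Z5 ζ → h86_Base A B u v →
    klP10 ζ A B (kl_Sa ζ * u + kl_Sb ζ * v) (kl_Sc ζ * u + kl_Sd ζ * v) = -klP01 A B u v := by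
  intro ζ A B u v hζ hb
  have hb' := h86_Base_sym hb (klSymS ζ hζ)
  have hon : (-kl_y01 u v) ^ 2
      = kl_x01 u v ^ 3 + 27 * h42rr_H u v * kl_x01 u v + 54 * h42rr_T u v := by
    rw [neg_sq]; exact kl_on01 u v
  rw [klP10_eq hζ hb', klP01_eq hb,
    h86_short_neg (h86_E_a₁ A B) (h86_E_a₃ A B) _ (h86_E_nonsingular hb hon)]
  exact h86_some_congr _ _ (kl_Sf_x10 u v ζ hζ h86_five_ne_zero)
    (kl_Sf_y10 u v ζ hζ h86_five_ne_zero)

end Fermat.Agent.S52
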