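import Fermat.Agent.S52.Klein.Tau
import Fermat.Agent.S52.Klein.Laws
import Fermat.Agent.S52.Skeleton2

/-!
# S52 FORMULAS block: Klein's `S` and `T` substitutions

Owner: helper5.  `z` is a root of the fifth cyclotomic polynomial.

* Ring level (`kl_S_*`): the effect of `(u, v) ↦ (kl_sU z u v, kl_sV z u v) = √5 • S (u, v)`.
* Field level (`kl_Sf_*`, characteristic `≠ 5`): the effect of the honest
  `S = [[kl_Sa z, kl_Sb z], [kl_Sc z, kl_Sd z]]`: `P01 ∘ S = P10`, `P10 ∘ S = - P01`, and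
  `kl_isKleinSym_S : IsKleinSym (kl_Sa z) (kl_Sb z) (kl_Sc z) (kl_Sd z)`.
* `kl_isKleinSym_T : IsKleinSym (z ^ 3) 0 0 (z ^ 2)`, and `P01 ∘ T = P01 + P10`, `P10 ∘ T = P10` at
  the level of coordinates.
-/

set_option autoImplicit false
set_option maxRecDepth 100000

namespace Fermat.Agent.S52

section ring

variable {R : Type*} [CommRing R]

theorem kl_tau_rel (z : R) (hz : z ^ 4 + z ^ 3 + z ^ 2 + z + 1 = 0) : (z + z ^ 4) ^ 2 + (z + z ^ 4) - 1 = 0 := by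
  linear_combination (-1 + 2 * z - z^3 + z^4) * hz

theorem kl_gauss_sq (z : R) (hz : z ^ 4 + z ^ 3 + z ^ 2 + z + 1 = 0) : kl_gauss z ^ 2 = 5 := by
  unfold kl_gauss
  linear_combination (-5 + 5 * z + z^2 - 3 * z^3 + z^4) * hz

theorem kl_sU_eq (u v z : R) (hz : z ^ 4 + z ^ 3 + z ^ 2 + z + 1 = 0) :
    kl_sU z u v = (z - z ^ 4) * (-u + (z + z ^ 4) * v) := by
  unfold kl_sU
  linear_combination (-v * z^3 + v * z^4) * hz

theorem kl_sV_eq (u v z : R) (hz : z ^ 4 + z ^ 3 + z ^ 2 + z + 1 = 0) :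
    kl_sV z u v = (z - z ^ 4) * ((z + z ^ 4) * u + v) := by
  unfold kl_sV
  linear_combination (-u * z^3 + u * z^4) * hz

theorem kl_X10_eq (u v z : R) (hz : z ^ 4 + z ^ 3 + z ^ 2 + z + 1 = 0) : kl_X10 z u v = kl_X10t (z + z ^ 4) u v := by
  unfold kl_X10 kl_X10t
  linear_combination (-36 * u^10 - 396 * u^5 * v^5 + 36 * v^10) * hz

theorem kl_Y10_eq (u v z : R) (hz : z ^ 4 + z ^ 3 + z ^ 2 + z + 1 = 0) :
    kl_Y10 z u v = (z - z ^ 4) * kl_Y10t (z + z ^ 4) u v := by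
  unfold kl_Y10 kl_Y10t
  linear_combination (-108 * u^15 - 216 * u^15 * z^3 + 216 * u^15 * z^4 - 972 * u^10 * v^5 - 2484 * u^10 * v^5 * z^3 + 2484 * u^10 * v^5 * z^4 + 2484 * u^5 * v^10 - 972 * u^5 * v^10 * z^3 + 972 * u^5 * v^10 * z^4 - 216 * v^15 + 108 * v^15 * z^3 - 108 * v^15 * z^4) * hz

theorem kl_x01_smul (c u v : R) : kl_x01 (c * u) (c * v) = c ^ 10 * kl_x01 u v := by
  unfold kl_x01; ring

theorem kl_y01_smul (c u v : R) : kl_y01 (c * u) (c * v) = c ^ 15 * kl_y01 u v := by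
  unfold kl_y01; ring

theorem kl_x02_smul (c u v : R) : kl_x02 (c * u) (c * v) = c ^ 10 * kl_x02 u v := by
  unfold kl_x02; ring

theorem kl_y02_smul (c u v : R) : kl_y02 (c * u) (c * v) = c ^ 15 * kl_y02 u v := by
  unfold kl_y02; ring

theorem kl_X10_smul (z c u v : R) : kl_X10 z (c * u) (c * v) = c ^ 10 * kl_X10 z u v := by
  unfold kl_X10; ring

theorem kl_Y10_smul (z c u v : R) : kl_Y10 z (c * u) (c * v) = c ^ 15 * kl_Y10 z u v := by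
  unfold kl_Y10; ring

theorem kl_X10t_smul (t c u v : R) : kl_X10t t (c * u) (c * v) = c ^ 10 * kl_X10t t u v := by
  unfold kl_X10t; ring

theorem kl_Y10t_smul (t c u v : R) : kl_Y10t t (c * u) (c * v) = c ^ 15 * kl_Y10t t u v := by
  unfold kl_Y10t; ring

/-- `f ∘ (√5 S) = 5⁶ f`. -/
theorem kl_S_f (u v z : R) (hz : z ^ 4 + z ^ 3 + z ^ 2 + z + 1 = 0) :
    h42rr_f (kl_sU z u v) (kl_sV z u v) = 5 ^ 6 * h42rr_f u v := by
  rw [kl_sU_eq u v z hz, kl_sV_eq u v z hz, h42rr_f_smul, kl_tau_f u v _ (kl_tau_rel z hz)]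
  generalize h42rr_f u v = F
  linear_combination (F * (-15625 + 15625 * z - 15625 * z^5 + 15625 * z^6 - 15625 * z^10 + 15625 * z^11 + 625 * z^12 - 1625 * z^13 + 1000 * z^14 - 23125 * z^15 + 34125 * z^16 - 10375 * z^17 + 39625 * z^18 - 94250 * z^19 + 30875 * z^20 - 103375 * z^21 + 281125 * z^22 - 114375 * z^23 + 215125 * z^24 - 553500 * z^25 + 171625 * z^26 - 213875 * z^27 + 677625 * z^28 - 81875 * z^29 + 24000 * z^30 - 537875 * z^31 - 81875 * z^32 + 182625 * z^33 + 281125 * z^34 + 156000 * z^35 - 228500 * z^36 - 94250 * z^37 - 114375 * z^38 + 143625 * z^39 + 18500 * z^40 + 46500 * z^41 - 53000 * z^42 - 1625 * z^43 - 10375 * z^44 + 11000 * z^45 + 1000 * z^47 - 1000 * z^48)) * hz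

/-- `H ∘ (√5 S) = 5¹⁰ H`. -/
theorem kl_S_H (u v z : R) (hz : z ^ 4 + z ^ 3 + z ^ 2 + z + 1 = 0) :
    h42rr_H (kl_sU z u v) (kl_sV z u v) = 5 ^ 10 * h42rr_H u v := by
  rw [kl_sU_eq u v z hz, kl_sV_eq u v z hz, h42rr_H_smul, kl_tau_H u v _ (kl_tau_rel z hz)]
  generalize h42rr_H u v = F
  linear_combination (F * (-9765625 + 9765625 * z - 9765625 * z^5 + 9765625 * z^6 - 9765625 * z^10 + 9765625 * z^11 - 9765625 * z^15 + 9765625 * z^16 - 9659375 * z^20 + 9487500 * z^21 + 171875 * z^22 - 2125000 * z^23 + 5390625 * z^24 - 12925000 * z^25 + 29675000 * z^26 - 49234375 * z^27 + 27093750 * z^28 - 115734375 * z^29 + 271481250 * z^30 - 133606250 * z^31 + 465546875 * z^32 - 1124484375 * z^33 + 521062500 * z^34 - 1375818750 * z^35 + 3345709375 * z^36 - 1366468750 * z^37 + 2993765625 * z^38 - 7594312500 * z^39 + 2621306250 * z^40 - 4890790625 * z^41 +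 13531906250 * z^42 - 3668109375 * z^43 + 5790000000 * z^44 - 19090350000 * z^45 + 3436553125 * z^46 - 4313843750 * z^47 + 21394671875 * z^48 - 1427031250 * z^49 + 539975000 * z^50 - 19080584375 * z^51 - 1427031250 * z^52 + 3548921875 * z^53 + 13531906250 * z^54 + 3426787500 * z^55 - 5696271875 * z^56 - 7594312500 * z^57 - 3668109375 * z^58 + 5295406250 * z^59 + 3335943750 * z^60 + 2631071875 * z^61 - 3476062500 * z^62 - 1124484375 * z^63 - 1366468750 * z^64 + 1688643750 * z^65 + 281246875 * z^66 + 521062500 * z^67 - 609703125 * z^68 - 49234375 * z^69 - 143371875 * z^70 + 160121875 * z^71 + 5390625 * z^72 + 27093750 * z^73 - 29046875 * z^74 - 278125 * z^75 - 3159375 * z^76 + 3265625 * z^77 + 171875 * z^79 - 171875 * z^80)) * hz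

/-- `T ∘ (√5 S) = 5¹⁵ T`. -/
theorem kl_S_T (u v z : R) (hz : z ^ 4 + z ^ 3 + z ^ 2 + z + 1 = 0) :
    h42rr_T (kl_sU z u v) (kl_sV z u v) = 5 ^ 15 * h42rr_T u v := by
  rw [kl_sU_eq u v z hz, kl_sV_eq u v z hz, h42rr_T_smul, kl_tau_T u v _ (kl_tau_rel z hz)]
  generalize h42rr_T u v = F
  linear_combination (F * (-30517578125 + 30517578125 * z - 30517578125 * z^5 + 30517578125 * z^6 - 30517578125 * z^10 + 30517578125 * z^11 - 30517578125 * z^15 + 30517578125 * z^16 - 30517578125 * z^20 + 30517578125 * z^21 - 30517578125 * z^25 + 30517578125 * z^26 - 30583437500 * z^30 + 30690000000 * z^31 - 106562500 * z^32 + 1975781250 * z^33 - 5066093750 * z^34 - 27493125000 * z^35 + 2041171875 * z^36 + 71700078125 * z^37 - 41182031250 * z^38 + 262322968750 * z^39 - 681171250000 * z^40 + 388330234375 * z^41 - 1733176093750 * z^42 + 4251395703125 * z^43 -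 2225378593750 * z^44 + 8704184843750 * z^45 - 21262476171875 * z^46 + 10532274218750 * z^47 - 34854254687500 * z^48 + 84968624609375 * z^49 - 39384167968750 * z^50 + 112814039453125 * z^51 - 277210030468750 * z^52 + 118811534375000 * z^53 - 300501357812500 * z^54 + 752848197265625 * z^55 - 293948343359375 * z^56 + 665049926562500 * z^57 - 1724351774218750 * z^58 + 600401993750000 * z^59 - 1225897712500000 * z^60 + 3361863805468750 * z^61 - 1012016312500000 * z^62 + 1873368061718750 * z^63 - 5616867587500000 * z^64 + 1393652032812500 * z^65 - 2334525934765625 * z^66 + 8080086060546875 * z^67 - 1522344571093750 * z^68 + 2270441283593750 * z^69 - 10038631564843750 * z^70 + 1210448791796875 * z^71 - 1497360425781250 * z^72 + 10789796704296875 * z^73 - 464253505468750 * z^74 + 177311353906250 * z^75 - 10038601047265625 * z^76 - 464253505468750 *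 z^77 + 1212350217968750 * z^78 + 8080086060546875 * z^79 + 1210418274218750 * z^80 - 2151292176171875 * z^81 - 5616867587500000 * z^82 - 1522344571093750 * z^83 + 2383696320312500 * z^84 + 3361833287890625 * z^85 + 1393682550390625 * z^86 - 2019147751562500 * z^87 - 1724351774218750 * z^88 - 1012016312500000 * z^89 + 1383087378125000 * z^90 + 752878714843750 * z^91 + 600401993750000 * z^92 - 782091817187500 * z^93 - 277210030468750 * z^94 - 293978860937500 * z^95 + 367408732421875 * z^96 + 84968624609375 * z^97 + 118811534375000 * z^98 - 143133514843750 * z^99 - 21292993750000 * z^100 - 39353650390625 * z^101 + 45862974218750 * z^102 + 4251395703125 * z^103 + 10532274218750 * z^104 - 11907637656250 * z^105 - 650653671875 * z^106 - 2225378593750 * z^107 + 2446519531250 * z^108 + 71700078125 * z^109 + 357812656250 * z^110 - 383264609375 * z^111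 - 5066093750 * z^112 - 41182031250 * z^113 + 43051250000 * z^114 + 172421875 * z^115 + 3024453125 * z^116 - 3090312500 * z^117 - 106562500 * z^119 + 106562500 * z^120)) * hz

/-- `x01 ∘ (√5 S) = 5⁴ X10`. -/
theorem kl_S_x01 (u v z : R) (hz : z ^ 4 + z ^ 3 + z ^ 2 + z + 1 = 0) :
    kl_x01 (kl_sU z u v) (kl_sV z u v) = 5 ^ 4 * kl_X10 z u v := by
  rw [kl_sU_eq u v z hz, kl_sV_eq u v z hz, kl_x01_smul, kl_tau_x01 u v _ (kl_tau_rel z hz)]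
  rw [kl_X10_eq u v z hz]
  generalize kl_X10t (z + z ^ 4) u v = F
  linear_combination (F * (-625 + 625 * z - 625 * z^5 + 625 * z^6 - 660 * z^10 + 715 * z^11 - 55 * z^12 + 350 * z^13 - 845 * z^14 - 165 * z^15 - 860 * z^16 + 3445 * z^17 - 1575 * z^18 + 3355 * z^19 - 8490 * z^20 + 3265 * z^21 - 3905 * z^22 + 10725 * z^23 - 1595 * z^24 + 330 * z^25 - 7865 * z^26 - 1595 * z^27 + 3375 * z^28 + 3445 * z^29 + 2640 * z^30 - 3665 * z^31 - 845 * z^32 - 1575 * z^33 + 1870 * z^34 + 90 * z^35 + 460 * z^36 - 495 * z^37 - 55 * z^39 + 55 * z^40)) * hz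

/-- `y01 ∘ (√5 S) = 5⁶ √5 Y10`. -/
theorem kl_S_y01 (u v z : R) (hz : z ^ 4 + z ^ 3 + z ^ 2 + z + 1 = 0) :
    kl_y01 (kl_sU z u v) (kl_sV z u v) = 5 ^ 6 * kl_gauss z * kl_Y10 z u v := by
  rw [kl_sU_eq u v z hz, kl_sV_eq u v z hz, kl_y01_smul, kl_tau_y01 u v _ (kl_tau_rel z hz)]
  rw [kl_Y10_eq u v z hz]
  unfold kl_gauss
  generalize kl_Y10t (z + z ^ 4) u v = F
  linear_combination (F * (-15625 * z^2 + 31250 * z^3 - 15625 * z^5 - 15625 * z^6 - 15625 * z^7 + 62500 * z^8 - 15625 * z^9 - 15625 * z^10 - 15625 * z^11 - 15625 * z^12 + 62500 * z^13 - 15625 * z^14 - 14625 * z^15 - 18250 * z^16 - 14000 * z^17 + 47500 * z^18 + 22125 * z^19 - 37375 * z^20 + 86750 * z^21 - 265250 * z^22 + 193750 * z^23 - 432875 * z^24 + 986375 * z^25 - 482000 * z^26 + 1099750 * z^27 - 2650000 * z^28 + 1045875 * z^29 - 2016625 * z^30 + 5182750 * z^31 - 1562000 * z^32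 + 2355000 * z^33 - 7212375 * z^34 + 1236625 * z^35 - 1252250 * z^36 + 7196750 * z^37 + 31250 * z^38 - 777375 * z^39 - 5198375 * z^40 - 1252250 * z^41 + 2191750 * z^42 + 2712500 * z^43 + 1546375 * z^44 - 2195375 * z^45 - 1002000 * z^46 - 1061500 * z^47 + 1347500 * z^48 + 249625 * z^49 + 466375 * z^50 - 547000 * z^51 - 37750 * z^52 - 131250 * z^53 + 144625 * z^54 + 2625 * z^55 + 21750 * z^56 - 22750 * z^57 - 1625 * z^59 + 1625 * z^60)) * hz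

/-- `X10 ∘ (√5 S) = 5⁶ x01`. -/
theorem kl_S_X10 (u v z : R) (hz : z ^ 4 + z ^ 3 + z ^ 2 + z + 1 = 0) :
    kl_X10 z (kl_sU z u v) (kl_sV z u v) = 5 ^ 6 * kl_x01 u v := by
  rw [kl_X10_eq _ _ z hz, kl_sU_eq u v z hz, kl_sV_eq u v z hz, kl_X10t_smul, kl_tau_X10 u v _ (kl_tau_rel z hz)]
  generalize kl_x01 u v = F
  linear_combination (F * (-15625 + 15625 * z - 15625 * z^5 + 15625 * z^6 - 16500 * z^10 + 17875 * z^11 - 1375 * z^12 + 8750 * z^13 - 21125 * z^14 - 4125 * z^15 - 21500 * z^16 + 86125 * z^17 - 39375 * z^18 + 83875 * z^19 - 212250 * z^20 + 81625 * z^21 - 97625 * z^22 + 268125 * z^23 - 39875 * z^24 + 8250 * z^25 - 196625 * z^26 - 39875 * z^27 + 84375 * z^28 + 86125 * z^29 + 66000 * z^30 - 91625 * z^31 - 21125 * z^32 - 39375 * z^33 + 46750 * z^34 + 2250 * z^35 + 11500 * z^36 - 12375 * z^37 - 1375 * z^39 + 1375 * z^40)) * hz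

/-- `Y10 ∘ (√5 S) = - 5⁸ √5 y01`. -/
theorem kl_S_Y10 (u v z : R) (hz : z ^ 4 + z ^ 3 + z ^ 2 + z + 1 = 0) :
    kl_Y10 z (kl_sU z u v) (kl_sV z u v) = -(5 ^ 8 * kl_gauss z * kl_y01 u v) := by
  rw [kl_Y10_eq _ _ z hz, kl_sU_eq u v z hz, kl_sV_eq u v z hz, kl_Y10t_smul, kl_tau_Y10 u v _ (kl_tau_rel z hz)]
  unfold kl_gauss
  generalize kl_y01 u v = F
  linear_combination (F * (390625 * z - 781250 * z^2 + 781250 * z^4 - 390625 * z^5 + 390625 * z^6 - 781250 * z^7 + 781250 * z^9 - 390625 * z^10 + 390625 * z^11 - 781250 * z^12 + 781250 * z^14 - 390625 * z^15 + 408750 * z^16 - 828750 * z^17 + 29375 * z^18 + 491250 * z^19 + 340000 * z^20 - 31875 * z^21 + 1346250 * z^22 - 5200625 * z^23 + 3546250 * z^24 - 9810000 * z^25 + 23043125 * z^26 - 11578750 * z^27 + 27786875 * z^28 - 66453750 * z^29 + 27202500 * z^30 - 56126875 * z^31 + 142438750 * z^32 -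 47060625 * z^33 + 78691250 * z^34 - 224867500 * z^35 + 50798125 * z^36 - 64911250 * z^37 + 261104375 * z^38 - 22123750 * z^39 + 8401250 * z^40 - 224476875 * z^41 - 22905000 * z^42 + 53754375 * z^43 + 143220000 * z^44 + 50407500 * z^45 - 79331875 * z^46 - 67235000 * z^47 - 47060625 * z^48 + 64050000 * z^49 + 22652500 * z^50 + 27593125 * z^51 - 34247500 * z^52 - 5200625 * z^53 - 10797500 * z^54 + 12502500 * z^55 + 730625 * z^56 + 2765000 * z^57 - 3025625 * z^58 - 47500 * z^59 - 422500 * z^60 + 440625 * z^61 + 29375 * z^63 - 29375 * z^64)) * hz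

/-- Covariance of `(f_v, -f_u)` under `√5 S`, first component. -/
theorem kl_S_fv (u v z : R) (hz : z ^ 4 + z ^ 3 + z ^ 2 + z + 1 = 0) :
    h42rr_fv (kl_sU z u v) (kl_sV z u v)
      = 5 ^ 5 * (-(z - z ^ 4) * h42rr_fv u v + (z ^ 2 - z ^ 3) * -h42rr_fu u v) := by
  rw [kl_sU_eq u v z hz, kl_sV_eq u v z hz, h42rr_fv_smul, kl_tau_fv u v _ (kl_tau_rel z hz)]
  generalize h42rr_fv u v = A
  generalize h42rr_fu u v = B
  linear_combination (A * (3125 * z - 3125 * z^2 - 3125 * z^4 + 3125 * z^5 + 3125 * z^6 - 3125 * z^7 - 3125 * z^9 + 3125 * z^10 + 3300 * z^11 - 3575 * z^12 + 275 * z^13 - 5050 * z^14 + 7800 * z^15 + 550 * z^16 + 6050 * z^17 - 21450 * z^18 + 7050 * z^19 - 21075 * z^20 + 59675 * z^21 - 24200 * z^22 + 36300 * z^23 - 96075 * z^24 + 24300 * z^25 - 21175 * z^26 + 92950 * z^27 - 15225 * z^29 - 56550 * z^30 - 21175 * z^31 + 35200 * z^32 +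 21450 * z^33 + 21075 * z^34 - 27675 * z^35 - 4675 * z^36 - 10175 * z^37 + 11825 * z^38 + 450 * z^39 + 2575 * z^40 - 2750 * z^41 - 275 * z^43 + 275 * z^44) + -B * (-3125 * z^2 + 6250 * z^3 - 3125 * z^4 - 3125 * z^7 + 6250 * z^8 - 3125 * z^9 - 3300 * z^12 + 6700 * z^13 - 3400 * z^14 + 1750 * z^15 - 4225 * z^16 - 825 * z^17 - 1000 * z^18 + 13650 * z^19 - 7600 * z^20 + 15025 * z^21 - 38225 * z^22 + 17150 * z^23 - 15225 * z^24 + 36400 * z^25 - 100 * z^26 - 15125 * z^27 + 3125 * z^28 - 24300 * z^29 + 36400 * z^30 - 36400 * z^31 + 21175 * z^32 - 19975 * z^33 + 35100 * z^34 + 100 * z^35 - 7525 * z^36 - 16775 * z^37 - 10900 * z^38 + 15850 * z^39 + 4225 * z^40 + 7600 * z^41 - 9075 * z^42 - 450 * z^43 - 2300 * z^44 + 2475 * z^45 + 275 * z^47 - 275 * z^48)) * hz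

/-- Covariance of `(f_v, -f_u)` under `√5 S`, second component. -/
theorem kl_S_fu (u v z : R) (hz : z ^ 4 + z ^ 3 + z ^ 2 + z + 1 = 0) :
    -h42rr_fu (kl_sU z u v) (kl_sV z u v)
      = 5 ^ 5 * ((z ^ 2 - z ^ 3) * h42rr_fv u v + (z - z ^ 4) * -h42rr_fu u v) := by
  rw [kl_sU_eq u v z hz, kl_sV_eq u v z hz, h42rr_fu_smul, ← mul_neg,
    kl_tau_fu u v _ (kl_tau_rel z hz)]
  generalize h42rr_fv u v = A
  generalize h42rr_fu u v = B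
  linear_combination (A * (-3125 * z^2 + 6250 * z^3 - 3125 * z^4 - 3125 * z^7 + 6250 * z^8 - 3125 * z^9 - 3300 * z^12 + 6700 * z^13 - 3400 * z^14 + 1750 * z^15 - 4225 * z^16 - 825 * z^17 - 1000 * z^18 + 13650 * z^19 - 7600 * z^20 + 15025 * z^21 - 38225 * z^22 + 17150 * z^23 - 15225 * z^24 + 36400 * z^25 - 100 * z^26 - 15125 * z^27 + 3125 * z^28 - 24300 * z^29 + 36400 * z^30 - 36400 * z^31 + 21175 * z^32 - 19975 * z^33 + 35100 * z^34 + 100 * z^35 - 7525 * z^36 - 16775 * z^37 - 10900 * z^38 + 15850 * z^39 + 4225 * z^40 + 7600 * z^41 - 9075 * z^42 - 450 * z^43 - 2300 * z^44 + 2475 * z^45 + 275 * z^47 - 275 * z^48) + -B * (-3125 * z + 3125 * z^2 + 3125 * z^4 - 3125 * z^5 - 3125 * z^6 + 3125 * z^7 + 3125 * z^9 - 3125 * z^10 - 3300 * z^11 + 3575 * z^12 - 275 * z^13 + 5050 * z^14 - 7800 * z^15 - 550 * z^16 - 6050 * z^17 + 21450 * z^18 - 7050 * z^19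 + 21075 * z^20 - 59675 * z^21 + 24200 * z^22 - 36300 * z^23 + 96075 * z^24 - 24300 * z^25 + 21175 * z^26 - 92950 * z^27 + 15225 * z^29 + 56550 * z^30 + 21175 * z^31 - 35200 * z^32 - 21450 * z^33 - 21075 * z^34 + 27675 * z^35 + 4675 * z^36 + 10175 * z^37 - 11825 * z^38 - 450 * z^39 - 2575 * z^40 + 2750 * z^41 + 275 * z^43 - 275 * z^44)) * hz

/-- `f ∘ T = f`. -/
theorem kl_T_f (u v z : R) (hz : z ^ 4 + z ^ 3 + z ^ 2 + z + 1 = 0) :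
    h42rr_f (z ^ 3 * u) (z ^ 2 * v) = h42rr_f u v := by
  unfold h42rr_f
  linear_combination (-u^11 * v + u^11 * v * z - u^11 * v * z^5 + u^11 * v * z^6 - u^11 * v * z^10 + u^11 * v * z^11 - u^11 * v * z^15 + u^11 * v * z^16 - u^11 * v * z^20 + u^11 * v * z^21 - u^11 * v * z^25 + u^11 * v * z^26 - u^11 * v * z^30 + u^11 * v * z^31 - 11 * u^6 * v^6 + 11 * u^6 * v^6 * z - 11 * u^6 * v^6 * z^5 + 11 * u^6 * v^6 * z^6 - 11 * u^6 * v^6 * z^10 + 11 * u^6 * v^6 * z^11 - 11 * u^6 * v^6 * z^15 + 11 * u^6 * v^6 * z^16 - 11 * u^6 * v^6 * z^20 + 11 * u^6 * v^6 * z^21 - 11 * u^6 * v^6 * z^25 + 11 * u^6 * v^6 * z^26 + u * v^11 - u * v^11 * z + u * v^11 * z^5 - u * v^11 * z^6 + u * v^11 * z^10 - u * v^11 * z^11 + u * v^11 * z^15 - u * v^11 * z^16 + u * v^11 * z^20 - u * v^11 * z^21) * hz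

/-- `H ∘ T = H`. -/
theorem kl_T_H (u v z : R) (hz : z ^ 4 + z ^ 3 + z ^ 2 + z + 1 = 0) :
    h42rr_H (z ^ 3 * u) (z ^ 2 * v) = h42rr_H u v := by
  unfold h42rr_H
  linear_combination (u^20 - u^20 * z + u^20 * z^5 - u^20 * z^6 + u^20 * z^10 - u^20 * z^11 + u^20 * z^15 - u^20 * z^16 + u^20 * z^20 - u^20 * z^21 + u^20 * z^25 - u^20 * z^26 + u^20 * z^30 - u^20 * z^31 + u^20 * z^35 - u^20 * z^36 + u^20 * z^40 - u^20 * z^41 + u^20 * z^45 - u^20 * z^46 + u^20 * z^50 - u^20 * z^51 + u^20 * z^55 - u^20 * z^56 - 228 * u^15 * v^5 + 228 * u^15 * v^5 * z - 228 * u^15 * v^5 * z^5 + 228 * u^15 * v^5 * z^6 - 228 * u^15 * v^5 * z^10 + 228 * u^15 * v^5 * z^11 - 228 * u^15 * v^5 * z^15 + 228 * u^15 * v^5 * z^16 - 228 * u^15 * v^5 * z^20 + 228 * u^15 * v^5 * z^21 - 228 * u^15 * v^5 * z^25 + 228 * u^15 * v^5 * z^26 - 228 * u^15 * v^5 * z^30 + 228 * u^15 * v^5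 * z^31 - 228 * u^15 * v^5 * z^35 + 228 * u^15 * v^5 * z^36 - 228 * u^15 * v^5 * z^40 + 228 * u^15 * v^5 * z^41 - 228 * u^15 * v^5 * z^45 + 228 * u^15 * v^5 * z^46 - 228 * u^15 * v^5 * z^50 + 228 * u^15 * v^5 * z^51 + 494 * u^10 * v^10 - 494 * u^10 * v^10 * z + 494 * u^10 * v^10 * z^5 - 494 * u^10 * v^10 * z^6 + 494 * u^10 * v^10 * z^10 - 494 * u^10 * v^10 * z^11 + 494 * u^10 * v^10 * z^15 - 494 * u^10 * v^10 * z^16 + 494 * u^10 * v^10 * z^20 - 494 * u^10 * v^10 * z^21 + 494 * u^10 * v^10 * z^25 - 494 * u^10 * v^10 * z^26 + 494 * u^10 * v^10 * z^30 - 494 * u^10 * v^10 * z^31 + 494 * u^10 * v^10 * z^35 - 494 * u^10 * v^10 * z^36 + 494 * u^10 * v^10 * z^40 - 494 * u^10 * v^10 * z^41 + 494 * u^10 * v^10 * z^45 - 494 * u^10 * v^10 * z^46 + 228 * u^5 * v^15 - 228 * u^5 * v^15 * z + 228 * u^5 * v^15 * z^5 - 228 * u^5 * v^15 * z^6 + 228 * u^5 * v^15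 * z^10 - 228 * u^5 * v^15 * z^11 + 228 * u^5 * v^15 * z^15 - 228 * u^5 * v^15 * z^16 + 228 * u^5 * v^15 * z^20 - 228 * u^5 * v^15 * z^21 + 228 * u^5 * v^15 * z^25 - 228 * u^5 * v^15 * z^26 + 228 * u^5 * v^15 * z^30 - 228 * u^5 * v^15 * z^31 + 228 * u^5 * v^15 * z^35 - 228 * u^5 * v^15 * z^36 + 228 * u^5 * v^15 * z^40 - 228 * u^5 * v^15 * z^41 + v^20 - v^20 * z + v^20 * z^5 - v^20 * z^6 + v^20 * z^10 - v^20 * z^11 + v^20 * z^15 - v^20 * z^16 + v^20 * z^20 - v^20 * z^21 + v^20 * z^25 - v^20 * z^26 + v^20 * z^30 - v^20 * z^31 + v^20 * z^35 - v^20 * z^36) * hz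

/-- `T ∘ T = T`. -/
theorem kl_T_T (u v z : R) (hz : z ^ 4 + z ^ 3 + z ^ 2 + z + 1 = 0) :
    h42rr_T (z ^ 3 * u) (z ^ 2 * v) = h42rr_T u v := by
  unfold h42rr_T
  linear_combination (-u^30 + u^30 * z - u^30 * z^5 + u^30 * z^6 - u^30 * z^10 + u^30 * z^11 - u^30 * z^15 + u^30 * z^16 - u^30 * z^20 + u^30 * z^21 - u^30 * z^25 + u^30 * z^26 - u^30 * z^30 + u^30 * z^31 - u^30 * z^35 + u^30 * z^36 - u^30 * z^40 + u^30 * z^41 - u^30 * z^45 + u^30 * z^46 - u^30 * z^50 + u^30 * z^51 - u^30 * z^55 + u^30 * z^56 - u^30 * z^60 + u^30 * z^61 - u^30 * z^65 + u^30 * z^66 - u^30 * z^70 + u^30 * z^71 - u^30 * z^75 + u^30 * z^76 - u^30 * z^80 + u^30 * z^81 - u^30 * z^85 + u^30 * z^86 - 522 * u^25 * v^5 + 522 * u^25 * v^5 * z - 522 * u^25 * v^5 * z^5 + 522 * u^25 * v^5 * z^6 - 522 * u^25 * v^5 * z^10 + 522 * u^25 * v^5 * z^11 - 522 * u^25 * v^5 * z^15 + 522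 * u^25 * v^5 * z^16 - 522 * u^25 * v^5 * z^20 + 522 * u^25 * v^5 * z^21 - 522 * u^25 * v^5 * z^25 + 522 * u^25 * v^5 * z^26 - 522 * u^25 * v^5 * z^30 + 522 * u^25 * v^5 * z^31 - 522 * u^25 * v^5 * z^35 + 522 * u^25 * v^5 * z^36 - 522 * u^25 * v^5 * z^40 + 522 * u^25 * v^5 * z^41 - 522 * u^25 * v^5 * z^45 + 522 * u^25 * v^5 * z^46 - 522 * u^25 * v^5 * z^50 + 522 * u^25 * v^5 * z^51 - 522 * u^25 * v^5 * z^55 + 522 * u^25 * v^5 * z^56 - 522 * u^25 * v^5 * z^60 + 522 * u^25 * v^5 * z^61 - 522 * u^25 * v^5 * z^65 + 522 * u^25 * v^5 * z^66 - 522 * u^25 * v^5 * z^70 + 522 * u^25 * v^5 * z^71 - 522 * u^25 * v^5 * z^75 + 522 * u^25 * v^5 * z^76 - 522 * u^25 * v^5 * z^80 + 522 * u^25 * v^5 * z^81 + 10005 * u^20 * v^10 - 10005 * u^20 * v^10 * z + 10005 * u^20 * v^10 * z^5 - 10005 * u^20 * v^10 * z^6 + 10005 * u^20 * v^10 * z^10 - 10005 * u^20 * v^10 *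 z^11 + 10005 * u^20 * v^10 * z^15 - 10005 * u^20 * v^10 * z^16 + 10005 * u^20 * v^10 * z^20 - 10005 * u^20 * v^10 * z^21 + 10005 * u^20 * v^10 * z^25 - 10005 * u^20 * v^10 * z^26 + 10005 * u^20 * v^10 * z^30 - 10005 * u^20 * v^10 * z^31 + 10005 * u^20 * v^10 * z^35 - 10005 * u^20 * v^10 * z^36 + 10005 * u^20 * v^10 * z^40 - 10005 * u^20 * v^10 * z^41 + 10005 * u^20 * v^10 * z^45 - 10005 * u^20 * v^10 * z^46 + 10005 * u^20 * v^10 * z^50 - 10005 * u^20 * v^10 * z^51 + 10005 * u^20 * v^10 * z^55 - 10005 * u^20 * v^10 * z^56 + 10005 * u^20 * v^10 * z^60 - 10005 * u^20 * v^10 * z^61 + 10005 * u^20 * v^10 * z^65 - 10005 * u^20 * v^10 * z^66 + 10005 * u^20 * v^10 * z^70 - 10005 * u^20 * v^10 * z^71 + 10005 * u^20 * v^10 * z^75 - 10005 * u^20 * v^10 * z^76 + 10005 * u^10 * v^20 - 10005 * u^10 * v^20 * z + 10005 * u^10 * v^20 * z^5 - 10005 * u^10 * v^20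 * z^6 + 10005 * u^10 * v^20 * z^10 - 10005 * u^10 * v^20 * z^11 + 10005 * u^10 * v^20 * z^15 - 10005 * u^10 * v^20 * z^16 + 10005 * u^10 * v^20 * z^20 - 10005 * u^10 * v^20 * z^21 + 10005 * u^10 * v^20 * z^25 - 10005 * u^10 * v^20 * z^26 + 10005 * u^10 * v^20 * z^30 - 10005 * u^10 * v^20 * z^31 + 10005 * u^10 * v^20 * z^35 - 10005 * u^10 * v^20 * z^36 + 10005 * u^10 * v^20 * z^40 - 10005 * u^10 * v^20 * z^41 + 10005 * u^10 * v^20 * z^45 - 10005 * u^10 * v^20 * z^46 + 10005 * u^10 * v^20 * z^50 - 10005 * u^10 * v^20 * z^51 + 10005 * u^10 * v^20 * z^55 - 10005 * u^10 * v^20 * z^56 + 10005 * u^10 * v^20 * z^60 - 10005 * u^10 * v^20 * z^61 + 10005 * u^10 * v^20 * z^65 - 10005 * u^10 * v^20 * z^66 + 522 * u^5 * v^25 - 522 * u^5 * v^25 * z + 522 * u^5 * v^25 * z^5 - 522 * u^5 * v^25 * z^6 + 522 * u^5 * v^25 * z^10 - 522 * u^5 * v^25 * z^11 + 522 *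 u^5 * v^25 * z^15 - 522 * u^5 * v^25 * z^16 + 522 * u^5 * v^25 * z^20 - 522 * u^5 * v^25 * z^21 + 522 * u^5 * v^25 * z^25 - 522 * u^5 * v^25 * z^26 + 522 * u^5 * v^25 * z^30 - 522 * u^5 * v^25 * z^31 + 522 * u^5 * v^25 * z^35 - 522 * u^5 * v^25 * z^36 + 522 * u^5 * v^25 * z^40 - 522 * u^5 * v^25 * z^41 + 522 * u^5 * v^25 * z^45 - 522 * u^5 * v^25 * z^46 + 522 * u^5 * v^25 * z^50 - 522 * u^5 * v^25 * z^51 + 522 * u^5 * v^25 * z^55 - 522 * u^5 * v^25 * z^56 + 522 * u^5 * v^25 * z^60 - 522 * u^5 * v^25 * z^61 - v^30 + v^30 * z - v^30 * z^5 + v^30 * z^6 - v^30 * z^10 + v^30 * z^11 - v^30 * z^15 + v^30 * z^16 - v^30 * z^20 + v^30 * z^21 - v^30 * z^25 + v^30 * z^26 - v^30 * z^30 + v^30 * z^31 - v^30 * z^35 + v^30 * z^36 - v^30 * z^40 + v^30 * z^41 - v^30 * z^45 + v^30 * z^46 - v^30 * z^50 + v^30 * z^51 - v^30 * z^55 + v^30 * z^56) * hz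

/-- Covariance of `f_v` under `T`. -/
theorem kl_T_fv (u v z : R) (hz : z ^ 4 + z ^ 3 + z ^ 2 + z + 1 = 0) :
    h42rr_fv (z ^ 3 * u) (z ^ 2 * v) = z ^ 3 * h42rr_fv u v := by
  unfold h42rr_fv
  linear_combination (-u^11 * z^3 + u^11 * z^4 - u^11 * z^8 + u^11 * z^9 - u^11 * z^13 + u^11 * z^14 - u^11 * z^18 + u^11 * z^19 - u^11 * z^23 + u^11 * z^24 - u^11 * z^28 + u^11 * z^29 - 66 * u^6 * v^5 * z^3 + 66 * u^6 * v^5 * z^4 - 66 * u^6 * v^5 * z^8 + 66 * u^6 * v^5 * z^9 - 66 * u^6 * v^5 * z^13 + 66 * u^6 * v^5 * z^14 - 66 * u^6 * v^5 * z^18 + 66 * u^6 * v^5 * z^19 - 66 * u^6 * v^5 * z^23 + 66 * u^6 * v^5 * z^24 + 11 * u * v^10 * z^3 - 11 * u * v^10 * z^4 + 11 * u * v^10 * z^8 - 11 * u * v^10 * z^9 + 11 * u * v^10 * z^13 - 11 * u * v^10 * z^14 + 11 * u * v^10 * z^18 - 11 * u * v^10 * z^19) * hz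

/-- Covariance of `f_u` under `T`. -/
theorem kl_T_fu (u v z : R) (hz : z ^ 4 + z ^ 3 + z ^ 2 + z + 1 = 0) :
    h42rr_fu (z ^ 3 * u) (z ^ 2 * v) = z ^ 2 * h42rr_fu u v := by
  unfold h42rr_fu
  linear_combination (-11 * u^10 * v * z^2 + 11 * u^10 * v * z^3 - 11 * u^10 * v * z^7 + 11 * u^10 * v * z^8 - 11 * u^10 * v * z^12 + 11 * u^10 * v * z^13 - 11 * u^10 * v * z^17 + 11 * u^10 * v * z^18 - 11 * u^10 * v * z^22 + 11 * u^10 * v * z^23 - 11 * u^10 * v * z^27 + 11 * u^10 * v * z^28 - 66 * u^5 * v^6 * z^2 + 66 * u^5 * v^6 * z^3 - 66 * u^5 * v^6 * z^7 + 66 * u^5 * v^6 * z^8 - 66 * u^5 * v^6 * z^12 + 66 * u^5 * v^6 * z^13 - 66 * u^5 * v^6 * z^17 + 66 * u^5 * v^6 * z^18 - 66 * u^5 * v^6 * z^22 + 66 * u^5 * v^6 * z^23 + v^11 * z^2 - v^11 * z^3 + v^11 * z^7 - v^11 * z^8 + v^11 * z^12 - v^11 * z^13 + v^11 * z^17 - v^11 * z^18) * hz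

/-- `x01 ∘ T = x01 (z u, v)`, the `x`-coordinate of `P01 + P10`. -/
theorem kl_T_x01 (u v z : R) (hz : z ^ 4 + z ^ 3 + z ^ 2 + z + 1 = 0) :
    kl_x01 (z ^ 3 * u) (z ^ 2 * v) = kl_x01 (z * u) v := by
  unfold kl_x01
  linear_combination (-3 * u^10 * z^10 + 3 * u^10 * z^11 - 3 * u^10 * z^15 + 3 * u^10 * z^16 - 3 * u^10 * z^20 + 3 * u^10 * z^21 - 3 * u^10 * z^25 + 3 * u^10 * z^26 - 36 * u^8 * v^2 * z^8 + 36 * u^8 * v^2 * z^9 - 36 * u^8 * v^2 * z^13 + 36 * u^8 * v^2 * z^14 - 36 * u^8 * v^2 * z^18 + 36 * u^8 * v^2 * z^19 - 36 * u^8 * v^2 * z^23 + 36 * u^8 * v^2 * z^24 + 36 * u^7 * v^3 * z^7 - 36 * u^7 * v^3 * z^8 + 36 * u^7 * v^3 * z^12 - 36 * u^7 * v^3 * z^13 + 36 * u^7 * v^3 * z^17 - 36 * u^7 * v^3 * z^18 + 36 * u^7 * v^3 * z^22 - 36 * u^7 * v^3 * z^23 - 72 * u^6 * v^4 * z^6 + 72 * u^6 * v^4 * z^7 - 72 * u^6 * v^4 * z^11 + 72 * u^6 * v^4 * z^12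 - 72 * u^6 * v^4 * z^16 + 72 * u^6 * v^4 * z^17 - 72 * u^6 * v^4 * z^21 + 72 * u^6 * v^4 * z^22 - 90 * u^5 * v^5 * z^5 + 90 * u^5 * v^5 * z^6 - 90 * u^5 * v^5 * z^10 + 90 * u^5 * v^5 * z^11 - 90 * u^5 * v^5 * z^15 + 90 * u^5 * v^5 * z^16 - 90 * u^5 * v^5 * z^20 + 90 * u^5 * v^5 * z^21 - 180 * u^4 * v^6 * z^4 + 180 * u^4 * v^6 * z^5 - 180 * u^4 * v^6 * z^9 + 180 * u^4 * v^6 * z^10 - 180 * u^4 * v^6 * z^14 + 180 * u^4 * v^6 * z^15 - 180 * u^4 * v^6 * z^19 + 180 * u^4 * v^6 * z^20 - 108 * u^3 * v^7 * z^3 + 108 * u^3 * v^7 * z^4 - 108 * u^3 * v^7 * z^8 + 108 * u^3 * v^7 * z^9 - 108 * u^3 * v^7 * z^13 + 108 * u^3 * v^7 * z^14 - 108 * u^3 * v^7 * z^18 + 108 * u^3 * v^7 * z^19 - 72 * u^2 * v^8 * z^2 + 72 * u^2 * v^8 * z^3 - 72 * u^2 * v^8 * z^7 + 72 * u^2 * v^8 * z^8 - 72 * u^2 * v^8 * z^12 + 72 * u^2 * v^8 * z^13 - 72 * u^2 * v^8 * z^17 + 72 * u^2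 * v^8 * z^18 - 36 * u * v^9 * z + 36 * u * v^9 * z^2 - 36 * u * v^9 * z^6 + 36 * u * v^9 * z^7 - 36 * u * v^9 * z^11 + 36 * u * v^9 * z^12 - 36 * u * v^9 * z^16 + 36 * u * v^9 * z^17 - 3 * v^10 + 3 * v^10 * z - 3 * v^10 * z^5 + 3 * v^10 * z^6 - 3 * v^10 * z^10 + 3 * v^10 * z^11 - 3 * v^10 * z^15 + 3 * v^10 * z^16) * hz

/-- `y01 ∘ T = y01 (z u, v)`, the `y`-coordinate of `P01 + P10`. -/
theorem kl_T_y01 (u v z : R) (hz : z ^ 4 + z ^ 3 + z ^ 2 + z + 1 = 0) :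
    kl_y01 (z ^ 3 * u) (z ^ 2 * v) = kl_y01 (z * u) v := by
  unfold kl_y01
  linear_combination (-108 * u^13 * v^2 * z^13 + 108 * u^13 * v^2 * z^14 - 108 * u^13 * v^2 * z^18 + 108 * u^13 * v^2 * z^19 - 108 * u^13 * v^2 * z^23 + 108 * u^13 * v^2 * z^24 - 108 * u^13 * v^2 * z^28 + 108 * u^13 * v^2 * z^29 - 108 * u^13 * v^2 * z^33 + 108 * u^13 * v^2 * z^34 - 108 * u^13 * v^2 * z^38 + 108 * u^13 * v^2 * z^39 - 108 * u^12 * v^3 * z^12 + 108 * u^12 * v^3 * z^13 - 108 * u^12 * v^3 * z^17 + 108 * u^12 * v^3 * z^18 - 108 * u^12 * v^3 * z^22 + 108 * u^12 * v^3 * z^23 - 108 * u^12 * v^3 * z^27 + 108 * u^12 * v^3 * z^28 - 108 * u^12 * v^3 * z^32 + 108 * u^12 * v^3 * z^33 - 108 * u^12 * v^3 * z^37 + 108 * u^12 * v^3 * z^38 - 432 * u^11 * v^4 * z^11 + 432 * u^11 * v^4 * z^12 - 432 * u^11 * v^4 * z^16 + 432 * u^11 * v^4 * z^17 - 432 * u^11 * v^4 * z^21 +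 432 * u^11 * v^4 * z^22 - 432 * u^11 * v^4 * z^26 + 432 * u^11 * v^4 * z^27 - 432 * u^11 * v^4 * z^31 + 432 * u^11 * v^4 * z^32 - 432 * u^11 * v^4 * z^36 + 432 * u^11 * v^4 * z^37 - 540 * u^9 * v^6 * z^9 + 540 * u^9 * v^6 * z^10 - 540 * u^9 * v^6 * z^14 + 540 * u^9 * v^6 * z^15 - 540 * u^9 * v^6 * z^19 + 540 * u^9 * v^6 * z^20 - 540 * u^9 * v^6 * z^24 + 540 * u^9 * v^6 * z^25 - 540 * u^9 * v^6 * z^29 + 540 * u^9 * v^6 * z^30 - 540 * u^9 * v^6 * z^34 + 540 * u^9 * v^6 * z^35 - 648 * u^8 * v^7 * z^8 + 648 * u^8 * v^7 * z^9 - 648 * u^8 * v^7 * z^13 + 648 * u^8 * v^7 * z^14 - 648 * u^8 * v^7 * z^18 + 648 * u^8 * v^7 * z^19 - 648 * u^8 * v^7 * z^23 + 648 * u^8 * v^7 * z^24 - 648 * u^8 * v^7 * z^28 + 648 * u^8 * v^7 * z^29 - 648 * u^8 * v^7 * z^33 + 648 * u^8 * v^7 * z^34 - 2268 * u^7 * v^8 * z^7 + 2268 * u^7 * v^8 * z^8 - 2268 * u^7 * v^8 * z^12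 + 2268 * u^7 * v^8 * z^13 - 2268 * u^7 * v^8 * z^17 + 2268 * u^7 * v^8 * z^18 - 2268 * u^7 * v^8 * z^22 + 2268 * u^7 * v^8 * z^23 - 2268 * u^7 * v^8 * z^27 + 2268 * u^7 * v^8 * z^28 - 2268 * u^7 * v^8 * z^32 + 2268 * u^7 * v^8 * z^33 - 3132 * u^6 * v^9 * z^6 + 3132 * u^6 * v^9 * z^7 - 3132 * u^6 * v^9 * z^11 + 3132 * u^6 * v^9 * z^12 - 3132 * u^6 * v^9 * z^16 + 3132 * u^6 * v^9 * z^17 - 3132 * u^6 * v^9 * z^21 + 3132 * u^6 * v^9 * z^22 - 3132 * u^6 * v^9 * z^26 + 3132 * u^6 * v^9 * z^27 - 3132 * u^6 * v^9 * z^31 + 3132 * u^6 * v^9 * z^32 - 2700 * u^5 * v^10 * z^5 + 2700 * u^5 * v^10 * z^6 - 2700 * u^5 * v^10 * z^10 + 2700 * u^5 * v^10 * z^11 - 2700 * u^5 * v^10 * z^15 + 2700 * u^5 * v^10 * z^16 - 2700 * u^5 * v^10 * z^20 + 2700 * u^5 * v^10 * z^21 - 2700 * u^5 * v^10 * z^25 + 2700 * u^5 * v^10 * z^26 - 2700 * u^5 * v^10 * z^30 + 2700 * u^5 *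 v^10 * z^31 - 1620 * u^4 * v^11 * z^4 + 1620 * u^4 * v^11 * z^5 - 1620 * u^4 * v^11 * z^9 + 1620 * u^4 * v^11 * z^10 - 1620 * u^4 * v^11 * z^14 + 1620 * u^4 * v^11 * z^15 - 1620 * u^4 * v^11 * z^19 + 1620 * u^4 * v^11 * z^20 - 1620 * u^4 * v^11 * z^24 + 1620 * u^4 * v^11 * z^25 - 1620 * u^4 * v^11 * z^29 + 1620 * u^4 * v^11 * z^30 - 972 * u^3 * v^12 * z^3 + 972 * u^3 * v^12 * z^4 - 972 * u^3 * v^12 * z^8 + 972 * u^3 * v^12 * z^9 - 972 * u^3 * v^12 * z^13 + 972 * u^3 * v^12 * z^14 - 972 * u^3 * v^12 * z^18 + 972 * u^3 * v^12 * z^19 - 972 * u^3 * v^12 * z^23 + 972 * u^3 * v^12 * z^24 - 972 * u^3 * v^12 * z^28 + 972 * u^3 * v^12 * z^29 - 432 * u^2 * v^13 * z^2 + 432 * u^2 * v^13 * z^3 - 432 * u^2 * v^13 * z^7 + 432 * u^2 * v^13 * z^8 - 432 * u^2 * v^13 * z^12 + 432 * u^2 * v^13 * z^13 - 432 * u^2 * v^13 * z^17 + 432 * u^2 * v^13 * z^18 - 432 *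 u^2 * v^13 * z^22 + 432 * u^2 * v^13 * z^23 - 432 * u^2 * v^13 * z^27 + 432 * u^2 * v^13 * z^28 - 108 * u * v^14 * z + 108 * u * v^14 * z^2 - 108 * u * v^14 * z^6 + 108 * u * v^14 * z^7 - 108 * u * v^14 * z^11 + 108 * u * v^14 * z^12 - 108 * u * v^14 * z^16 + 108 * u * v^14 * z^17 - 108 * u * v^14 * z^21 + 108 * u * v^14 * z^22 - 108 * u * v^14 * z^26 + 108 * u * v^14 * z^27) * hz

/-- `X10 ∘ T = X10`. -/
theorem kl_T_X10 (u v z : R) (hz : z ^ 4 + z ^ 3 + z ^ 2 + z + 1 = 0) :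
    kl_X10 z (z ^ 3 * u) (z ^ 2 * v) = kl_X10 z u v := by
  unfold kl_X10
  linear_combination (93 * u^10 - 93 * u^10 * z + 36 * u^10 * z^2 - 36 * u^10 * z^4 + 93 * u^10 * z^5 - 93 * u^10 * z^6 + 36 * u^10 * z^7 - 36 * u^10 * z^9 + 93 * u^10 * z^10 - 93 * u^10 * z^11 + 36 * u^10 * z^12 - 36 * u^10 * z^14 + 93 * u^10 * z^15 - 93 * u^10 * z^16 + 36 * u^10 * z^17 - 36 * u^10 * z^19 + 93 * u^10 * z^20 - 93 * u^10 * z^21 + 36 * u^10 * z^22 - 36 * u^10 * z^24 + 93 * u^10 * z^25 - 93 * u^10 * z^26 + 36 * u^10 * z^27 - 36 * u^10 * z^29 + 198 * u^5 * v^5 - 198 * u^5 * v^5 * z + 396 * u^5 * v^5 * z^2 - 396 * u^5 * v^5 * z^4 + 198 * u^5 * v^5 * z^5 - 198 * u^5 * v^5 * z^6 + 396 * u^5 * v^5 * z^7 - 396 * u^5 * v^5 * z^9 + 198 * u^5 * v^5 * z^10 - 198 * u^5 * v^5 * z^11 + 396 * u^5 * v^5 * z^12 - 396 * u^5 * v^5 * z^14 + 198 * u^5 * v^5 * z^15 - 198 * u^5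 * v^5 * z^16 + 396 * u^5 * v^5 * z^17 - 396 * u^5 * v^5 * z^19 + 198 * u^5 * v^5 * z^20 - 198 * u^5 * v^5 * z^21 + 396 * u^5 * v^5 * z^22 - 396 * u^5 * v^5 * z^24 + 57 * v^10 - 57 * v^10 * z - 36 * v^10 * z^2 + 36 * v^10 * z^4 + 57 * v^10 * z^5 - 57 * v^10 * z^6 - 36 * v^10 * z^7 + 36 * v^10 * z^9 + 57 * v^10 * z^10 - 57 * v^10 * z^11 - 36 * v^10 * z^12 + 36 * v^10 * z^14 + 57 * v^10 * z^15 - 57 * v^10 * z^16 - 36 * v^10 * z^17 + 36 * v^10 * z^19) * hz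

/-- `Y10 ∘ T = Y10`. -/
theorem kl_T_Y10 (u v z : R) (hz : z ^ 4 + z ^ 3 + z ^ 2 + z + 1 = 0) :
    kl_Y10 z (z ^ 3 * u) (z ^ 2 * v) = kl_Y10 z u v := by
  unfold kl_Y10
  linear_combination (108 * u^15 + 108 * u^15 * z - 324 * u^15 * z^2 + 432 * u^15 * z^3 - 324 * u^15 * z^4 + 108 * u^15 * z^5 + 108 * u^15 * z^6 - 324 * u^15 * z^7 + 432 * u^15 * z^8 - 324 * u^15 * z^9 + 108 * u^15 * z^10 + 108 * u^15 * z^11 - 324 * u^15 * z^12 + 432 * u^15 * z^13 - 324 * u^15 * z^14 + 108 * u^15 * z^15 + 108 * u^15 * z^16 - 324 * u^15 * z^17 + 432 * u^15 * z^18 - 324 * u^15 * z^19 + 108 * u^15 * z^20 + 108 * u^15 * z^21 - 324 * u^15 * z^22 + 432 * u^15 * z^23 - 324 * u^15 * z^24 + 108 * u^15 * z^25 + 108 * u^15 * z^26 - 324 * u^15 * z^27 + 432 * u^15 * z^28 - 324 * u^15 * z^29 + 108 * u^15 * z^30 + 108 * u^15 * z^31 - 324 * u^15 * z^32 + 432 * u^15 * z^33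 - 324 * u^15 * z^34 + 108 * u^15 * z^35 + 108 * u^15 * z^36 - 324 * u^15 * z^37 + 432 * u^15 * z^38 - 324 * u^15 * z^39 + 108 * u^15 * z^40 + 108 * u^15 * z^41 - 324 * u^15 * z^42 + 432 * u^15 * z^43 - 324 * u^15 * z^44 + 972 * u^10 * v^5 + 972 * u^10 * v^5 * z - 3456 * u^10 * v^5 * z^2 + 4968 * u^10 * v^5 * z^3 - 3456 * u^10 * v^5 * z^4 + 972 * u^10 * v^5 * z^5 + 972 * u^10 * v^5 * z^6 - 3456 * u^10 * v^5 * z^7 + 4968 * u^10 * v^5 * z^8 - 3456 * u^10 * v^5 * z^9 + 972 * u^10 * v^5 * z^10 + 972 * u^10 * v^5 * z^11 - 3456 * u^10 * v^5 * z^12 + 4968 * u^10 * v^5 * z^13 - 3456 * u^10 * v^5 * z^14 + 972 * u^10 * v^5 * z^15 + 972 * u^10 * v^5 * z^16 - 3456 * u^10 * v^5 * z^17 + 4968 * u^10 * v^5 * z^18 - 3456 * u^10 * v^5 * z^19 + 972 * u^10 * v^5 * z^20 + 972 * u^10 * v^5 * z^21 - 3456 * u^10 * v^5 * z^22 + 4968 * u^10 * v^5 * z^23 - 3456 * u^10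 * v^5 * z^24 + 972 * u^10 * v^5 * z^25 + 972 * u^10 * v^5 * z^26 - 3456 * u^10 * v^5 * z^27 + 4968 * u^10 * v^5 * z^28 - 3456 * u^10 * v^5 * z^29 + 972 * u^10 * v^5 * z^30 + 972 * u^10 * v^5 * z^31 - 3456 * u^10 * v^5 * z^32 + 4968 * u^10 * v^5 * z^33 - 3456 * u^10 * v^5 * z^34 + 972 * u^10 * v^5 * z^35 + 972 * u^10 * v^5 * z^36 - 3456 * u^10 * v^5 * z^37 + 4968 * u^10 * v^5 * z^38 - 3456 * u^10 * v^5 * z^39 - 2484 * u^5 * v^10 - 2484 * u^5 * v^10 * z + 1512 * u^5 * v^10 * z^2 + 1944 * u^5 * v^10 * z^3 + 1512 * u^5 * v^10 * z^4 - 2484 * u^5 * v^10 * z^5 - 2484 * u^5 * v^10 * z^6 + 1512 * u^5 * v^10 * z^7 + 1944 * u^5 * v^10 * z^8 + 1512 * u^5 * v^10 * z^9 - 2484 * u^5 * v^10 * z^10 - 2484 * u^5 * v^10 * z^11 + 1512 * u^5 * v^10 * z^12 + 1944 * u^5 * v^10 * z^13 + 1512 * u^5 * v^10 * z^14 - 2484 * u^5 * v^10 * z^15 - 2484 * u^5 * v^10 * z^16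 + 1512 * u^5 * v^10 * z^17 + 1944 * u^5 * v^10 * z^18 + 1512 * u^5 * v^10 * z^19 - 2484 * u^5 * v^10 * z^20 - 2484 * u^5 * v^10 * z^21 + 1512 * u^5 * v^10 * z^22 + 1944 * u^5 * v^10 * z^23 + 1512 * u^5 * v^10 * z^24 - 2484 * u^5 * v^10 * z^25 - 2484 * u^5 * v^10 * z^26 + 1512 * u^5 * v^10 * z^27 + 1944 * u^5 * v^10 * z^28 + 1512 * u^5 * v^10 * z^29 - 2484 * u^5 * v^10 * z^30 - 2484 * u^5 * v^10 * z^31 + 1512 * u^5 * v^10 * z^32 + 1944 * u^5 * v^10 * z^33 + 1512 * u^5 * v^10 * z^34 + 216 * v^15 + 216 * v^15 * z - 108 * v^15 * z^2 - 216 * v^15 * z^3 - 108 * v^15 * z^4 + 216 * v^15 * z^5 + 216 * v^15 * z^6 - 108 * v^15 * z^7 - 216 * v^15 * z^8 - 108 * v^15 * z^9 + 216 * v^15 * z^10 + 216 * v^15 * z^11 - 108 * v^15 * z^12 - 216 * v^15 * z^13 - 108 * v^15 * z^14 + 216 * v^15 * z^15 + 216 * v^15 * z^16 - 108 * v^15 * z^17 - 216 * v^15 * z^18 - 108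 * v^15 * z^19 + 216 * v^15 * z^20 + 216 * v^15 * z^21 - 108 * v^15 * z^22 - 216 * v^15 * z^23 - 108 * v^15 * z^24 + 216 * v^15 * z^25 + 216 * v^15 * z^26 - 108 * v^15 * z^27 - 216 * v^15 * z^28 - 108 * v^15 * z^29) * hz

/-- Klein's `T = diag (z³, z²)` is a Klein symmetry. -/
theorem kl_isKleinSym_T (z : R) (hz : z ^ 4 + z ^ 3 + z ^ 2 + z + 1 = 0) : IsKleinSym (z ^ 3) 0 0 (z ^ 2) := by
  intro u v
  simp only [zero_mul, add_zero, zero_add]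
  refine ⟨kl_T_f u v z hz, kl_T_H u v z hz, kl_T_T u v z hz, ?_, ?_⟩
  · rw [kl_T_fv u v z hz]
  · rw [kl_T_fu u v z hz]; ring

end ring

section field

variable {K : Type*} [Field K]

theorem kl_gauss_ne_zero (z : K) (hz : z ^ 4 + z ^ 3 + z ^ 2 + z + 1 = 0) (h5 : (5 : K) ≠ 0) : kl_gauss z ≠ 0 := by
  intro h
  have := kl_gauss_sq z hz
  rw [h] at this
  exact h5 (by rw [← this]; ring)

/-- `(√5)⁻¹` squared is `5⁻¹`. -/
theorem kl_gauss_inv_sq (z : K) (hz : z ^ 4 + z ^ 3 + z ^ 2 + z + 1 = 0) (h5 : (5 : K) ≠ 0) :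
    (kl_gauss z)⁻¹ ^ 2 * 5 = 1 := by
  rw [inv_pow, kl_gauss_sq z hz]
  exact inv_mul_cancel₀ h5

theorem kl_S_lin_u (z u v : K) :
    kl_Sa z * u + kl_Sb z * v = (kl_gauss z)⁻¹ * kl_sU z u v := by
  unfold kl_Sa kl_Sb kl_sU; ring

theorem kl_S_lin_v (z u v : K) :
    kl_Sc z * u + kl_Sd z * v = (kl_gauss z)⁻¹ * kl_sV z u v := by
  unfold kl_Sc kl_Sd kl_sV; ring

/-- `det S = 1`. -/
theorem kl_S_det (z : K) (hz : z ^ 4 + z ^ 3 + z ^ 2 + z + 1 = 0) (h5 : (5 : K) ≠ 0) :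
    kl_Sa z * kl_Sd z - kl_Sb z * kl_Sc z = 1 := by
  have hc := kl_gauss_inv_sq z hz h5
  have hd : (-(z - z ^ 4)) * (z - z ^ 4) - (z ^ 2 - z ^ 3) * (z ^ 2 - z ^ 3) = 5 := by
    linear_combination (-5 + 5 * z - z ^ 2 + z ^ 3 - z ^ 4) * hz
  unfold kl_Sa kl_Sb kl_Sc kl_Sd
  simp only [div_eq_mul_inv]
  generalize (kl_gauss z)⁻¹ = c at *
  linear_combination c ^ 2 * hd + hc

/-- `f ∘ S = f`. -/
theorem kl_Sf_f (u v z : K) (hz : z ^ 4 + z ^ 3 + z ^ 2 + z + 1 = 0) (h5 : (5 : K) ≠ 0) :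
    h42rr_f (kl_Sa z * u + kl_Sb z * v) (kl_Sc z * u + kl_Sd z * v) = h42rr_f u v := by
  have hc := kl_gauss_inv_sq z hz h5
  rw [kl_S_lin_u, kl_S_lin_v, h42rr_f_smul, kl_S_f u v z hz]
  generalize h42rr_f u v = F at *
  generalize (kl_gauss z)⁻¹ = c at *
  linear_combination (F * (1 + (c ^ 2 * 5) ^ 1 + (c ^ 2 * 5) ^ 2 + (c ^ 2 * 5) ^ 3 + (c ^ 2 * 5) ^ 4 + (c ^ 2 * 5) ^ 5)) * hc

/-- `H ∘ S = H`. -/
theorem kl_Sf_H (u v z : K) (hz : z ^ 4 + z ^ 3 + z ^ 2 + z + 1 = 0) (h5 : (5 : K) ≠ 0) :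
    h42rr_H (kl_Sa z * u + kl_Sb z * v) (kl_Sc z * u + kl_Sd z * v) = h42rr_H u v := by
  have hc := kl_gauss_inv_sq z hz h5
  rw [kl_S_lin_u, kl_S_lin_v, h42rr_H_smul, kl_S_H u v z hz]
  generalize h42rr_H u v = F at *
  generalize (kl_gauss z)⁻¹ = c at *
  linear_combination (F * (1 + (c ^ 2 * 5) ^ 1 + (c ^ 2 * 5) ^ 2 + (c ^ 2 * 5) ^ 3 + (c ^ 2 * 5) ^ 4 + (c ^ 2 * 5) ^ 5 + (c ^ 2 * 5) ^ 6 + (c ^ 2 * 5) ^ 7 + (c ^ 2 * 5) ^ 8 + (c ^ 2 * 5) ^ 9)) * hc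

/-- `T ∘ S = T`. -/
theorem kl_Sf_T (u v z : K) (hz : z ^ 4 + z ^ 3 + z ^ 2 + z + 1 = 0) (h5 : (5 : K) ≠ 0) :
    h42rr_T (kl_Sa z * u + kl_Sb z * v) (kl_Sc z * u + kl_Sd z * v) = h42rr_T u v := by
  have hc := kl_gauss_inv_sq z hz h5
  rw [kl_S_lin_u, kl_S_lin_v, h42rr_T_smul, kl_S_T u v z hz]
  generalize h42rr_T u v = F at *
  generalize (kl_gauss z)⁻¹ = c at *
  linear_combination (F * (1 + (c ^ 2 * 5) ^ 1 + (c ^ 2 * 5) ^ 2 + (c ^ 2 * 5) ^ 3 + (c ^ 2 * 5) ^ 4 + (c ^ 2 * 5) ^ 5 + (c ^ 2 * 5) ^ 6 + (c ^ 2 * 5) ^ 7 + (c ^ 2 * 5) ^ 8 + (c ^ 2 * 5) ^ 9 + (c ^ 2 * 5) ^ 10 + (c ^ 2 * 5) ^ 11 + (c ^ 2 * 5) ^ 12 + (c ^ 2 * 5) ^ 13 + (c ^ 2 * 5) ^ 14)) * hc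

/-- `P01 ∘ S = P10`, `x`-coordinate. -/
theorem kl_Sf_x01 (u v z : K) (hz : z ^ 4 + z ^ 3 + z ^ 2 + z + 1 = 0) (h5 : (5 : K) ≠ 0) :
    kl_x01 (kl_Sa z * u + kl_Sb z * v) (kl_Sc z * u + kl_Sd z * v) = kl_x10 z u v := by
  have hc := kl_gauss_inv_sq z hz h5
  rw [kl_S_lin_u, kl_S_lin_v, kl_x01_smul, kl_S_x01 u v z hz]
  unfold kl_x10
  rw [eq_div_iff h5]
  generalize kl_X10 z u v = F at *
  generalize (kl_gauss z)⁻¹ = c at *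
  linear_combination (F * (1 + (c ^ 2 * 5) ^ 1 + (c ^ 2 * 5) ^ 2 + (c ^ 2 * 5) ^ 3 + (c ^ 2 * 5) ^ 4)) * hc

/-- `P01 ∘ S = P10`, `y`-coordinate. -/
theorem kl_Sf_y01 (u v z : K) (hz : z ^ 4 + z ^ 3 + z ^ 2 + z + 1 = 0) (h5 : (5 : K) ≠ 0) :
    kl_y01 (kl_Sa z * u + kl_Sb z * v) (kl_Sc z * u + kl_Sd z * v) = kl_y10 z u v := by
  have hc := kl_gauss_inv_sq z hz h5
  have hg : (kl_gauss z)⁻¹ * kl_gauss z = 1 := inv_mul_cancel₀ (kl_gauss_ne_zero z hz h5)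
  rw [kl_S_lin_u, kl_S_lin_v, kl_y01_smul, kl_S_y01 u v z hz]
  unfold kl_y10
  rw [eq_div_iff h5]
  generalize kl_Y10 z u v = F at *
  generalize kl_gauss z = g at *
  generalize g⁻¹ = c at *
  linear_combination (F * c * g * (1 + (c ^ 2 * 5) ^ 1 + (c ^ 2 * 5) ^ 2 + (c ^ 2 * 5) ^ 3 + (c ^ 2 * 5) ^ 4 + (c ^ 2 * 5) ^ 5 + (c ^ 2 * 5) ^ 6)) * hc + F * hg

/-- `P10 ∘ S = - P01`, `x`-coordinate. -/
theorem kl_Sf_x10 (u v z : K) (hz : z ^ 4 + z ^ 3 + z ^ 2 + z + 1 = 0) (h5 : (5 : K) ≠ 0) :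
    kl_x10 z (kl_Sa z * u + kl_Sb z * v) (kl_Sc z * u + kl_Sd z * v) = kl_x01 u v := by
  have hc := kl_gauss_inv_sq z hz h5
  unfold kl_x10
  rw [kl_S_lin_u, kl_S_lin_v, kl_X10_smul, kl_S_X10 u v z hz, div_eq_iff h5]
  generalize kl_x01 u v = F at *
  generalize (kl_gauss z)⁻¹ = c at *
  linear_combination (F * 5 * (1 + (c ^ 2 * 5) ^ 1 + (c ^ 2 * 5) ^ 2 + (c ^ 2 * 5) ^ 3 + (c ^ 2 * 5) ^ 4)) * hc

/-- `P10 ∘ S = - P01`, `y`-coordinate. -/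
theorem kl_Sf_y10 (u v z : K) (hz : z ^ 4 + z ^ 3 + z ^ 2 + z + 1 = 0) (h5 : (5 : K) ≠ 0) :
    kl_y10 z (kl_Sa z * u + kl_Sb z * v) (kl_Sc z * u + kl_Sd z * v) = -kl_y01 u v := by
  have hc := kl_gauss_inv_sq z hz h5
  have hg : (kl_gauss z)⁻¹ * kl_gauss z = 1 := inv_mul_cancel₀ (kl_gauss_ne_zero z hz h5)
  unfold kl_y10
  rw [kl_S_lin_u, kl_S_lin_v, kl_Y10_smul, kl_S_Y10 u v z hz, div_eq_iff h5]
  generalize kl_y01 u v = F at *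
  generalize kl_gauss z = g at *
  generalize g⁻¹ = c at *
  linear_combination (-F * 5 * c * g * (1 + (c ^ 2 * 5) ^ 1 + (c ^ 2 * 5) ^ 2 + (c ^ 2 * 5) ^ 3 + (c ^ 2 * 5) ^ 4 + (c ^ 2 * 5) ^ 5 + (c ^ 2 * 5) ^ 6)) * hc - 5 * F * hg

/-- Klein's `S` is a Klein symmetry. -/
theorem kl_isKleinSym_S (z : K) (hz : z ^ 4 + z ^ 3 + z ^ 2 + z + 1 = 0) (h5 : (5 : K) ≠ 0) :
    IsKleinSym (kl_Sa z) (kl_Sb z) (kl_Sc z) (kl_Sd z) := by
  intro u v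
  refine ⟨kl_Sf_f u v z hz h5, kl_Sf_H u v z hz h5, kl_Sf_T u v z hz h5, ?_, ?_⟩
  · have hc := kl_gauss_inv_sq z hz h5
    rw [kl_S_lin_u, kl_S_lin_v, h42rr_fv_smul, kl_S_fv u v z hz]
    unfold kl_Sa kl_Sb
    rw [div_eq_mul_inv, div_eq_mul_inv]
    generalize h42rr_fv u v = A at *
    generalize h42rr_fu u v = B at *
    generalize (kl_gauss z)⁻¹ = c at *
    linear_combination
      (c * (-(z - z ^ 4) * A + (z ^ 2 - z ^ 3) * -B) * (1 + (c ^ 2 * 5) ^ 1 + (c ^ 2 * 5) ^ 2 + (c ^ 2 * 5) ^ 3 + (c ^ 2 * 5) ^ 4)) * hc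
  · have hc := kl_gauss_inv_sq z hz h5
    rw [kl_S_lin_u, kl_S_lin_v, h42rr_fu_smul, ← mul_neg, kl_S_fu u v z hz]
    unfold kl_Sc kl_Sd
    rw [div_eq_mul_inv, div_eq_mul_inv]
    generalize h42rr_fv u v = A at *
    generalize h42rr_fu u v = B at *
    generalize (kl_gauss z)⁻¹ = c at *
    linear_combination
      (c * ((z ^ 2 - z ^ 3) * A + (z - z ^ 4) * -B) * (1 + (c ^ 2 * 5) ^ 1 + (c ^ 2 * 5) ^ 2 + (c ^ 2 * 5) ^ 3 + (c ^ 2 * 5) ^ 4)) * hc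

end field

end Fermat.Agent.S52
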