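import Fermat.Agent.S52.Klein.Points

/-!
# S52, FORMULAS, row F-SCAL: scalar, sign and Galois laws of the universal points

helper39.  The fields `lawScal10`, `lawScal01`, `lawNeg10`, `lawNeg01`, `gal10`, `gal01` of
`h86_KlData` (`Core/Defs.lean`) for `P10 := klP10`, `P01 := klP01`:

* `klLawScal10`, `klLawScal01`: a scalar `lam` with `lam ^ 5 = 1` fixes the universal points
  (the coordinates are forms of degree `10` and `15`);
* `klLawNeg10`, `klLawNeg01`: the scalar `-1` acts by `P ↦ -P`;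
* `klGal10`, `klGal01`: Galois equivariance, `σ • P10 ζ (u, v) = P10 (σ ζ) (σ u, σ v)`.
-/

set_option autoImplicit false

namespace Fermat.Agent.S52

open WeierstrassCurve WeierstrassCurve.Affine

local notation "Qbar" => AlgebraicClosure ℚ

/-! ### Homogeneity of the coordinates -/

section ring

variable {R : Type*} [CommRing R]

theorem h39kl_x01_smul (c u v : R) : kl_x01 (c * u) (c * v) = c ^ 10 * kl_x01 u v := by
  unfold kl_x01; ring

theorem h39kl_y01_smul (c u v : R) : kl_y01 (c * u) (c * v) = c ^ 15 * kl_y01 u v := by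
  unfold kl_y01; ring

theorem h39kl_X10_smul (z c u v : R) : kl_X10 z (c * u) (c * v) = c ^ 10 * kl_X10 z u v := by
  unfold kl_X10; ring

theorem h39kl_Y10_smul (z c u v : R) : kl_Y10 z (c * u) (c * v) = c ^ 15 * kl_Y10 z u v := by
  unfold kl_Y10; ring

theorem h39kl_x01_neg (u v : R) : kl_x01 (-u) (-v) = kl_x01 u v := by
  unfold kl_x01; ring

theorem h39kl_y01_neg (u v : R) : kl_y01 (-u) (-v) = -kl_y01 u v := by
  unfold kl_y01; ring

theorem h39kl_X10_neg (z u v : R) : kl_X10 z (-u) (-v) = kl_X10 z u v := by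
  unfold kl_X10; ring

theorem h39kl_Y10_neg (z u v : R) : kl_Y10 z (-u) (-v) = -kl_Y10 z u v := by
  unfold kl_Y10; ring

theorem h39kl_pow_ten {c : R} (hc : c ^ 5 = 1) : c ^ 10 = 1 := by
  have : c ^ 10 = (c ^ 5) ^ 2 := by ring
  rw [this, hc, one_pow]

theorem h39kl_pow_fifteen {c : R} (hc : c ^ 5 = 1) : c ^ 15 = 1 := by
  have : c ^ 15 = (c ^ 5) ^ 3 := by ring
  rw [this, hc, one_pow]

/-! ### Compatibility with ring homomorphisms -/

variable {S : Type*} [CommRing S]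

theorem h39kl_x01_map (φ : R →+* S) (u v : R) : φ (kl_x01 u v) = kl_x01 (φ u) (φ v) := by
  simp [kl_x01, map_ofNat]

theorem h39kl_y01_map (φ : R →+* S) (u v : R) : φ (kl_y01 u v) = kl_y01 (φ u) (φ v) := by
  simp [kl_y01, map_ofNat]

theorem h39kl_X10_map (φ : R →+* S) (z u v : R) :
    φ (kl_X10 z u v) = kl_X10 (φ z) (φ u) (φ v) := by
  simp [kl_X10, map_ofNat]

theorem h39kl_Y10_map (φ : R →+* S) (z u v : R) :
    φ (kl_Y10 z u v) = kl_Y10 (φ z) (φ u) (φ v) := by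
  simp [kl_Y10, map_ofNat]

end ring

section field

variable {K : Type*} [Field K]

theorem h39kl_x10_smul (z c u v : K) (hc : c ^ 5 = 1) :
    kl_x10 z (c * u) (c * v) = kl_x10 z u v := by
  unfold kl_x10
  rw [h39kl_X10_smul, h39kl_pow_ten hc, one_mul]

theorem h39kl_y10_smul (z c u v : K) (hc : c ^ 5 = 1) :
    kl_y10 z (c * u) (c * v) = kl_y10 z u v := by
  unfold kl_y10
  rw [h39kl_Y10_smul, h39kl_pow_fifteen hc, one_mul]

theorem h39kl_x10_neg (z u v : K) : kl_x10 z (-u) (-v) = kl_x10 z u v := by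
  unfold kl_x10
  rw [h39kl_X10_neg]

theorem h39kl_y10_neg (z u v : K) : kl_y10 z (-u) (-v) = -kl_y10 z u v := by
  unfold kl_y10
  rw [h39kl_Y10_neg, neg_div]

variable {L : Type*} [Field L]

theorem h39kl_x10_map (φ : K →+* L) (z u v : K) :
    φ (kl_x10 z u v) = kl_x10 (φ z) (φ u) (φ v) := by
  unfold kl_x10
  rw [map_div₀, h39kl_X10_map, map_ofNat]

theorem h39kl_y10_map (φ : K →+* L) (z u v : K) :
    φ (kl_y10 z u v) = kl_y10 (φ z) (φ u) (φ v) := by
  unfold kl_y10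
  rw [map_div₀, h39kl_Y10_map, map_ofNat]

end field

/-! ### Base points and the scalar `-1` -/

theorem h39kl_Base_scal {A B : ℤ} {u v : Qbar} (hb : h86_Base A B u v) {lam : Qbar}
    (hl : lam ^ 5 = 1) : h86_Base A B (lam * u) (lam * v) :=
  h86_Base_smul hb (h39kl_pow_ten hl)

theorem h39kl_Base_neg {A B : ℤ} {u v : Qbar} (hb : h86_Base A B u v) :
    h86_Base A B (-u) (-v) := by
  have h := h86_Base_smul hb (lam := (-1 : Qbar)) (by norm_num)
  simpa using h

/-! ### The six laws -/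

/-- **(lawScal01)** A fifth root of unity, as a scalar, fixes `P01`. -/
theorem klLawScal01 (A B : ℤ) (u v lam : Qbar) (hb : h86_Base A B u v) (hl : lam ^ 5 = 1) :
    klP01 A B (lam * u) (lam * v) = klP01 A B u v := by
  rw [klP01_eq (h39kl_Base_scal hb hl), klP01_eq hb]
  apply h86_some_congr
  · rw [h39kl_x01_smul, h39kl_pow_ten hl, one_mul]
  · rw [h39kl_y01_smul, h39kl_pow_fifteen hl, one_mul]

/-- **(lawScal10)** A fifth root of unity, as a scalar, fixes `P10`. -/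
theorem klLawScal10 (ζ : Qbar) (A B : ℤ) (u v lam : Qbar) (hζ : h86_Z5 ζ)
    (hb : h86_Base A B u v) (hl : lam ^ 5 = 1) :
    klP10 ζ A B (lam * u) (lam * v) = klP10 ζ A B u v := by
  rw [klP10_eq hζ (h39kl_Base_scal hb hl), klP10_eq hζ hb]
  apply h86_some_congr
  · exact h39kl_x10_smul ζ lam u v hl
  · exact h39kl_y10_smul ζ lam u v hl

/-- **(lawNeg01)** The scalar `-1` acts on `P01` by negation. -/
theorem klLawNeg01 (A B : ℤ) (u v : Qbar) (hb : h86_Base A B u v) :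
    klP01 A B (-u) (-v) = -klP01 A B u v := by
  have hns : (h86_E A B).toAffine.Nonsingular (kl_x01 u v) (-kl_y01 u v) := by
    have h := h86_E_nonsingular (h39kl_Base_neg hb) (kl_on01 (-u) (-v))
    rwa [h39kl_x01_neg, h39kl_y01_neg] at h
  rw [klP01_eq (h39kl_Base_neg hb), klP01_eq hb,
    h86_short_neg (h86_E_a₁ A B) (h86_E_a₃ A B) _ hns]
  apply h86_some_congr
  · exact h39kl_x01_neg u v
  · exact h39kl_y01_neg u v

/-- **(lawNeg10)** The scalar `-1` acts on `P10` by negation. -/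
theorem klLawNeg10 (ζ : Qbar) (A B : ℤ) (u v : Qbar) (hζ : h86_Z5 ζ)
    (hb : h86_Base A B u v) :
    klP10 ζ A B (-u) (-v) = -klP10 ζ A B u v := by
  have hns : (h86_E A B).toAffine.Nonsingular (kl_x10 ζ u v) (-kl_y10 ζ u v) := by
    have h := h86_E_nonsingular (h39kl_Base_neg hb)
      (kl_on10_field h86_five_ne_zero (-u) (-v) ζ hζ)
    rwa [h39kl_x10_neg, h39kl_y10_neg] at h
  rw [klP10_eq hζ (h39kl_Base_neg hb), klP10_eq hζ hb,
    h86_short_neg (h86_E_a₁ A B) (h86_E_a₃ A B) _ hns]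
  apply h86_some_congr
  · exact h39kl_x10_neg ζ u v
  · exact h39kl_y10_neg ζ u v

/-- **(gal01)** Galois equivariance of `P01`. -/
theorem klGal01 (σ : Qbar ≃ₐ[ℚ] Qbar) (A B : ℤ) (u v : Qbar) (hb : h86_Base A B u v) :
    σ • klP01 A B u v = klP01 A B (σ u) (σ v) := by
  have hx : σ (kl_x01 u v) = kl_x01 (σ u) (σ v) :=
    h39kl_x01_map (σ : Qbar →+* Qbar) u v
  have hy : σ (kl_y01 u v) = kl_y01 (σ u) (σ v) :=
    h39kl_y01_map (σ : Qbar →+* Qbar) u v
  have hns : (h86_E A B).toAffine.Nonsingular (σ (kl_x01 u v)) (σ (kl_y01 u v)) := by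
    have h := h86_E_nonsingular (h86_Base_map hb σ) (kl_on01 (σ u) (σ v))
    rwa [← hx, ← hy] at h
  rw [klP01_eq (h86_Base_map hb σ), klP01_eq hb, h86_smul_some σ _ hns]
  exact h86_some_congr _ _ hx hy

/-- **(gal10)** Galois equivariance of `P10`. -/
theorem klGal10 (σ : Qbar ≃ₐ[ℚ] Qbar) (ζ : Qbar) (A B : ℤ) (u v : Qbar) (hζ : h86_Z5 ζ)
    (hb : h86_Base A B u v) :
    σ • klP10 ζ A B u v = klP10 (σ ζ) A B (σ u) (σ v) := by
  have hx : σ (kl_x10 ζ u v) = kl_x10 (σ ζ) (σ u) (σ v) :=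
    h39kl_x10_map (σ : Qbar →+* Qbar) ζ u v
  have hy : σ (kl_y10 ζ u v) = kl_y10 (σ ζ) (σ u) (σ v) :=
    h39kl_y10_map (σ : Qbar →+* Qbar) ζ u v
  have hns : (h86_E A B).toAffine.Nonsingular (σ (kl_x10 ζ u v)) (σ (kl_y10 ζ u v)) := by
    have h := h86_E_nonsingular (h86_Base_map hb σ)
      (kl_on10_field h86_five_ne_zero (σ u) (σ v) (σ ζ) (h86_Z5_map hζ σ))
    rwa [← hx, ← hy] at h
  rw [klP10_eq (h86_Z5_map hζ σ) (h86_Base_map hb σ), klP10_eq hζ hb, h86_smul_some σ _ hns]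
  exact h86_some_congr _ _ hx hy

end Fermat.Agent.S52
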