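import Fermat.Agent.S52.Klein.Defs

/-!
# S52 FORMULAS block: Klein's `S` at the level of `ℤ[τ]`, `τ = z + z⁴ = (-1 + √5)/2`

Owner: helper5.  `√5 • S = (z - z⁴) • [[-1, τ], [τ, 1]]`.  Here `t` is any element of a commutative
ring with `t² + t - 1 = 0`, and we record the effect of the substitution
`(u, v) ↦ (-u + t v, t u + v)` on all the forms.  `kl_X10t t`, `kl_Y10t t` are the forms with
`kl_X10 z = kl_X10t (z + z⁴)` and `kl_Y10 z = (z - z⁴) * kl_Y10t (z + z⁴)`.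
-/

set_option autoImplicit false
set_option maxRecDepth 100000

namespace Fermat.Agent.S52

variable {R : Type*} [CommRing R]

/-- `kl_X10 z = kl_X10t (z + z⁴)`. -/
def kl_X10t (t u v : R) : R :=
  -57 * u^10 + 36 * u^10 * t + 198 * u^5 * v^5 + 396 * u^5 * v^5 * t - 93 * v^10 - 36 * v^10 * t

/-- `kl_Y10 z = (z - z⁴) * kl_Y10t (z + z⁴)`. -/
def kl_Y10t (t u v : R) : R :=
  -108 * u^15 + 216 * u^15 * t - 972 * u^10 * v^5 + 2484 * u^10 * v^5 * t + 2484 * u^5 * v^10 + 972 * u^5 * v^10 * t - 216 * v^15 - 108 * v^15 * t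

/-- `f ∘ M = (τ - 2)⁶ f`. -/
theorem kl_tau_f (u v t : R) (ht : t ^ 2 + t - 1 = 0) :
    h42rr_f (-u + t * v) (t * u + v) = (625 - 1000 * t) * h42rr_f u v := by
  unfold h42rr_f
  linear_combination (u^12 * t + u^12 * t^2 + 2 * u^12 * t^3 + 3 * u^12 * t^4 + 5 * u^12 * t^5 - 3 * u^12 * t^6 + 2 * u^12 * t^7 - u^12 * t^8 + u^12 * t^9 + 626 * u^11 * v - 374 * u^11 * v * t + 241 * u^11 * v * t^2 - 133 * u^11 * v * t^3 + 108 * u^11 * v * t^4 - 91 * u^11 * v * t^5 + 17 * u^11 * v * t^6 - 8 * u^11 * v * t^7 + 9 * u^11 * v * t^8 + u^11 * v * t^9 - u^11 * v * t^10 - 11 * u^10 * v^2 * t - 11 * u^10 * v^2 * t^2 + 33 * u^10 * v^2 * t^3 - 143 * u^10 * v^2 * t^4 - 110 * u^10 * v^2 * t^5 + 143 * u^10 * v^2 * t^6 + 33 * u^10 * v^2 * t^7 + 11 * u^10 * v^2 * t^8 - 11 * u^10 * v^2 * t^9 + 55 * u^9 * v^3 * t^2 - 165 * u^9 * v^3 * t^3 - 275 * u^9 * v^3 * t^4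 + 550 * u^9 * v^3 * t^5 + 275 * u^9 * v^3 * t^6 - 165 * u^9 * v^3 * t^7 - 55 * u^9 * v^3 * t^8 - 165 * u^8 * v^4 * t^2 - 330 * u^8 * v^4 * t^3 + 825 * u^8 * v^4 * t^4 + 825 * u^8 * v^4 * t^5 - 825 * u^8 * v^4 * t^6 - 330 * u^8 * v^4 * t^7 + 165 * u^8 * v^4 * t^8 - 66 * u^7 * v^5 * t - 66 * u^7 * v^5 * t^2 + 858 * u^7 * v^5 * t^3 + 1122 * u^7 * v^5 * t^4 - 1320 * u^7 * v^5 * t^5 - 1122 * u^7 * v^5 * t^6 + 858 * u^7 * v^5 * t^7 + 66 * u^7 * v^5 * t^8 - 66 * u^7 * v^5 * t^9 + 6864 * u^6 * v^6 - 4136 * u^6 * v^6 * t + 3124 * u^6 * v^6 * t^2 - 1012 * u^6 * v^6 * t^3 - 363 * u^6 * v^6 * t^4 - 2299 * u^6 * v^6 * t^5 + 1738 * u^6 * v^6 * t^6 + 363 * u^6 * v^6 * t^7 - 374 * u^6 * v^6 * t^8 - 11 * u^6 * v^6 * t^9 + 11 * u^6 * v^6 * t^10 + 66 * u^5 * v^7 * t + 66 * u^5 * v^7 * t^2 - 858 * u^5 * v^7 * t^3 - 1122 * u^5 * v^7 * t^4 + 1320 * u^5 * v^7 *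 t^5 + 1122 * u^5 * v^7 * t^6 - 858 * u^5 * v^7 * t^7 - 66 * u^5 * v^7 * t^8 + 66 * u^5 * v^7 * t^9 - 165 * u^4 * v^8 * t^2 - 330 * u^4 * v^8 * t^3 + 825 * u^4 * v^8 * t^4 + 825 * u^4 * v^8 * t^5 - 825 * u^4 * v^8 * t^6 - 330 * u^4 * v^8 * t^7 + 165 * u^4 * v^8 * t^8 - 55 * u^3 * v^9 * t^2 + 165 * u^3 * v^9 * t^3 + 275 * u^3 * v^9 * t^4 - 550 * u^3 * v^9 * t^5 - 275 * u^3 * v^9 * t^6 + 165 * u^3 * v^9 * t^7 + 55 * u^3 * v^9 * t^8 - 11 * u^2 * v^10 * t - 11 * u^2 * v^10 * t^2 + 33 * u^2 * v^10 * t^3 - 143 * u^2 * v^10 * t^4 - 110 * u^2 * v^10 * t^5 + 143 * u^2 * v^10 * t^6 + 33 * u^2 * v^10 * t^7 + 11 * u^2 * v^10 * t^8 - 11 * u^2 * v^10 * t^9 - 626 * u * v^11 + 374 * u * v^11 * t - 241 * u * v^11 * t^2 + 133 * u * v^11 * t^3 - 108 * u * v^11 * t^4 + 91 * u * v^11 * t^5 - 17 * u * v^11 * t^6 + 8 * u * v^11 * t^7 - 9 * u * v^11 * t^8 - u * v^11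 * t^9 + u * v^11 * t^10 + v^12 * t + v^12 * t^2 + 2 * v^12 * t^3 + 3 * v^12 * t^4 + 5 * v^12 * t^5 - 3 * v^12 * t^6 + 2 * v^12 * t^7 - v^12 * t^8 + v^12 * t^9) * ht

/-- `H ∘ M = (τ - 2)¹⁰ H`. -/
theorem kl_tau_H (u v t : R) (ht : t ^ 2 + t - 1 = 0) :
    h42rr_H (-u + t * v) (t * u + v) = (106250 - 171875 * t) * h42rr_H u v := by
  unfold h42rr_H
  linear_combination (-106249 * u^20 + 65626 * u^20 * t - 40623 * u^20 * t^2 + 25003 * u^20 * t^3 - 15620 * u^20 * t^4 + 9611 * u^20 * t^5 - 6009 * u^20 * t^6 + 3602 * u^20 * t^7 - 2407 * u^20 * t^8 + 1195 * u^20 * t^9 - 718 * u^20 * t^10 + 477 * u^20 * t^11 - 241 * u^20 * t^12 + 236 * u^20 * t^13 - 5 * u^20 * t^14 + 3 * u^20 * t^15 - 2 * u^20 * t^16 + u^20 * t^17 - u^20 * t^18 - 20 * u^19 * v * t - 20 * u^19 * v * t^2 - 40 * u^19 * v * t^3 + 1080 * u^19 * v * t^4 + 1040 * u^19 * v * t^5 - 1300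 * u^19 * v * t^6 - 260 * u^19 * v * t^7 - 1560 * u^19 * v * t^8 + 3120 * u^19 * v * t^9 + 1560 * u^19 * v * t^10 - 260 * u^19 * v * t^11 + 1300 * u^19 * v * t^12 + 1040 * u^19 * v * t^13 - 1080 * u^19 * v * t^14 - 40 * u^19 * v * t^15 + 20 * u^19 * v * t^16 - 20 * u^19 * v * t^17 + 190 * u^18 * v^2 * t^2 + 2470 * u^18 * v^2 * t^3 + 2660 * u^18 * v^2 * t^4 - 11970 * u^18 * v^2 * t^5 - 9310 * u^18 * v^2 * t^6 + 2660 * u^18 * v^2 * t^7 + 15580 * u^18 * v^2 * t^8 + 18240 * u^18 * v^2 * t^9 - 15580 * u^18 * v^2 * t^10 + 2660 * u^18 * v^2 * t^11 + 9310 * u^18 * v^2 * t^12 - 11970 * u^18 * v^2 * t^13 - 2660 * u^18 * v^2 * t^14 + 2470 * u^18 * v^2 * t^15 - 190 * u^18 * v^2 * t^16 + 2280 * u^17 * v^3 * t^2 + 1140 * u^17 * v^3 * t^3 - 30780 * u^17 * v^3 * t^4 - 29640 * u^17 * v^3 * t^5 + 59280 * u^17 * v^3 * t^6 + 88920 * u^17 * v^3 * t^7 + 44460 *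 u^17 * v^3 * t^8 - 88920 * u^17 * v^3 * t^9 - 44460 * u^17 * v^3 * t^10 + 88920 * u^17 * v^3 * t^11 - 59280 * u^17 * v^3 * t^12 - 29640 * u^17 * v^3 * t^13 + 30780 * u^17 * v^3 * t^14 + 1140 * u^17 * v^3 * t^15 - 2280 * u^17 * v^3 * t^16 + 1140 * u^16 * v^4 * t + 1140 * u^16 * v^4 * t^2 - 31920 * u^16 * v^4 * t^3 - 25935 * u^16 * v^4 * t^4 + 181545 * u^16 * v^4 * t^5 + 259350 * u^16 * v^4 * t^6 - 77805 * u^16 * v^4 * t^7 - 411255 * u^16 * v^4 * t^8 - 177840 * u^16 * v^4 * t^9 + 411255 * u^16 * v^4 * t^10 - 77805 * u^16 * v^4 * t^11 - 259350 * u^16 * v^4 * t^12 + 181545 * u^16 * v^4 * t^13 + 25935 * u^16 * v^4 * t^14 - 31920 * u^16 * v^4 * t^15 - 1140 * u^16 * v^4 * t^16 + 1140 * u^16 * v^4 * t^17 + 24225228 * u^15 * v^5 - 14962272 * u^15 * v^5 * t + 9245856 * u^15 * v^5 * t^2 - 5716416 * u^15 * v^5 * t^3 + 3768840 * u^15 * v^5 * t^4 - 1838592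 * u^15 * v^5 * t^5 + 892848 * u^15 * v^5 * t^6 - 1983144 * u^15 * v^5 * t^7 + 465804 * u^15 * v^5 * t^8 + 1150260 * u^15 * v^5 * t^9 + 246696 * u^15 * v^5 * t^10 - 1270644 * u^15 * v^5 * t^11 + 532152 * u^15 * v^5 * t^12 + 298908 * u^15 * v^5 * t^13 - 206340 * u^15 * v^5 * t^14 - 16416 * u^15 * v^5 * t^15 + 16644 * u^15 * v^5 * t^16 + 228 * u^15 * v^5 * t^17 - 228 * u^15 * v^5 * t^18 - 3420 * u^14 * v^6 * t - 3420 * u^14 * v^6 * t^2 + 112860 * u^14 * v^6 * t^3 + 213180 * u^14 * v^6 * t^4 - 711360 * u^14 * v^6 * t^5 - 1704300 * u^14 * v^6 * t^6 + 696540 * u^14 * v^6 * t^7 + 3660540 * u^14 * v^6 * t^8 - 207480 * u^14 * v^6 * t^9 - 3660540 * u^14 * v^6 * t^10 + 696540 * u^14 * v^6 * t^11 + 1704300 * u^14 * v^6 * t^12 - 711360 * u^14 * v^6 * t^13 - 213180 * u^14 * v^6 * t^14 + 112860 * u^14 * v^6 * t^15 + 3420 * u^14 * v^6 * t^16 - 3420 * u^14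 * v^6 * t^17 + 23940 * u^13 * v^7 * t^2 + 83220 * u^13 * v^7 * t^3 - 411540 * u^13 * v^7 * t^4 - 1365720 * u^13 * v^7 * t^5 + 1334940 * u^13 * v^7 * t^6 + 5493660 * u^13 * v^7 * t^7 - 1485420 * u^13 * v^7 * t^8 - 8440560 * u^13 * v^7 * t^9 + 1485420 * u^13 * v^7 * t^10 + 5493660 * u^13 * v^7 * t^11 - 1334940 * u^13 * v^7 * t^12 - 1365720 * u^13 * v^7 * t^13 + 411540 * u^13 * v^7 * t^14 + 83220 * u^13 * v^7 * t^15 - 23940 * u^13 * v^7 * t^16 + 22230 * u^12 * v^8 * t^2 - 81510 * u^12 * v^8 * t^3 - 652080 * u^12 * v^8 * t^4 + 822510 * u^12 * v^8 * t^5 + 4838730 * u^12 * v^8 * t^6 - 2652780 * u^12 * v^8 * t^7 - 12626640 * u^12 * v^8 * t^8 + 3467880 * u^12 * v^8 * t^9 + 12626640 * u^12 * v^8 * t^10 - 2652780 * u^12 * v^8 * t^11 - 4838730 * u^12 * v^8 * t^12 + 822510 * u^12 * v^8 * t^13 + 652080 * u^12 * v^8 * t^14 - 81510 * u^12 * v^8 * t^15 -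 22230 * u^12 * v^8 * t^16 + 4940 * u^11 * v^9 * t + 4940 * u^11 * v^9 * t^2 - 212420 * u^11 * v^9 * t^3 + 103740 * u^11 * v^9 * t^4 + 2558920 * u^11 * v^9 * t^5 - 1901900 * u^11 * v^9 * t^6 - 11791780 * u^11 * v^9 * t^7 + 5053620 * u^11 * v^9 * t^8 + 19236360 * u^11 * v^9 * t^9 - 5053620 * u^11 * v^9 * t^10 - 11791780 * u^11 * v^9 * t^11 + 1901900 * u^11 * v^9 * t^12 + 2558920 * u^11 * v^9 * t^13 - 103740 * u^11 * v^9 * t^14 - 212420 * u^11 * v^9 * t^15 - 4940 * u^11 * v^9 * t^16 + 4940 * u^11 * v^9 * t^17 - 52487006 * u^10 * v^10 + 32419244 * u^10 * v^10 * t - 20117162 * u^10 * v^10 * t^2 + 12302082 * u^10 * v^10 * t^3 - 6814730 * u^10 * v^10 * t^4 + 4117984 * u^10 * v^10 * t^5 - 9810346 * u^10 * v^10 * t^6 + 5719038 * u^10 * v^10 * t^7 + 17694092 * u^10 * v^10 * t^8 - 5930470 * u^10 * v^10 * t^9 - 19237842 * u^10 * v^10 * t^10 + 4175288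 * u^10 * v^10 * t^11 + 6722846 * u^10 * v^10 * t^12 - 513266 * u^10 * v^10 * t^13 - 904020 * u^10 * v^10 * t^14 - 47918 * u^10 * v^10 * t^15 + 48412 * u^10 * v^10 * t^16 + 494 * u^10 * v^10 * t^17 - 494 * u^10 * v^10 * t^18 - 4940 * u^9 * v^11 * t - 4940 * u^9 * v^11 * t^2 + 212420 * u^9 * v^11 * t^3 - 103740 * u^9 * v^11 * t^4 - 2558920 * u^9 * v^11 * t^5 + 1901900 * u^9 * v^11 * t^6 + 11791780 * u^9 * v^11 * t^7 - 5053620 * u^9 * v^11 * t^8 - 19236360 * u^9 * v^11 * t^9 + 5053620 * u^9 * v^11 * t^10 + 11791780 * u^9 * v^11 * t^11 - 1901900 * u^9 * v^11 * t^12 - 2558920 * u^9 * v^11 * t^13 + 103740 * u^9 * v^11 * t^14 + 212420 * u^9 * v^11 * t^15 + 4940 * u^9 * v^11 * t^16 - 4940 * u^9 * v^11 * t^17 + 22230 * u^8 * v^12 * t^2 - 81510 * u^8 * v^12 * t^3 - 652080 * u^8 * v^12 * t^4 + 822510 * u^8 * v^12 * t^5 + 4838730 * u^8 * v^12 * t^6 -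 2652780 * u^8 * v^12 * t^7 - 12626640 * u^8 * v^12 * t^8 + 3467880 * u^8 * v^12 * t^9 + 12626640 * u^8 * v^12 * t^10 - 2652780 * u^8 * v^12 * t^11 - 4838730 * u^8 * v^12 * t^12 + 822510 * u^8 * v^12 * t^13 + 652080 * u^8 * v^12 * t^14 - 81510 * u^8 * v^12 * t^15 - 22230 * u^8 * v^12 * t^16 - 23940 * u^7 * v^13 * t^2 - 83220 * u^7 * v^13 * t^3 + 411540 * u^7 * v^13 * t^4 + 1365720 * u^7 * v^13 * t^5 - 1334940 * u^7 * v^13 * t^6 - 5493660 * u^7 * v^13 * t^7 + 1485420 * u^7 * v^13 * t^8 + 8440560 * u^7 * v^13 * t^9 - 1485420 * u^7 * v^13 * t^10 - 5493660 * u^7 * v^13 * t^11 + 1334940 * u^7 * v^13 * t^12 + 1365720 * u^7 * v^13 * t^13 - 411540 * u^7 * v^13 * t^14 - 83220 * u^7 * v^13 * t^15 + 23940 * u^7 * v^13 * t^16 - 3420 * u^6 * v^14 * t - 3420 * u^6 * v^14 * t^2 + 112860 * u^6 * v^14 * t^3 + 213180 * u^6 * v^14 * t^4 - 711360 * u^6 * v^14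 * t^5 - 1704300 * u^6 * v^14 * t^6 + 696540 * u^6 * v^14 * t^7 + 3660540 * u^6 * v^14 * t^8 - 207480 * u^6 * v^14 * t^9 - 3660540 * u^6 * v^14 * t^10 + 696540 * u^6 * v^14 * t^11 + 1704300 * u^6 * v^14 * t^12 - 711360 * u^6 * v^14 * t^13 - 213180 * u^6 * v^14 * t^14 + 112860 * u^6 * v^14 * t^15 + 3420 * u^6 * v^14 * t^16 - 3420 * u^6 * v^14 * t^17 - 24225228 * u^5 * v^15 + 14962272 * u^5 * v^15 * t - 9245856 * u^5 * v^15 * t^2 + 5716416 * u^5 * v^15 * t^3 - 3768840 * u^5 * v^15 * t^4 + 1838592 * u^5 * v^15 * t^5 - 892848 * u^5 * v^15 * t^6 + 1983144 * u^5 * v^15 * t^7 - 465804 * u^5 * v^15 * t^8 - 1150260 * u^5 * v^15 * t^9 - 246696 * u^5 * v^15 * t^10 + 1270644 * u^5 * v^15 * t^11 - 532152 * u^5 * v^15 * t^12 - 298908 * u^5 * v^15 * t^13 + 206340 * u^5 * v^15 * t^14 + 16416 * u^5 * v^15 * t^15 - 16644 * u^5 * v^15 * t^16 - 228 * u^5 * v^15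 * t^17 + 228 * u^5 * v^15 * t^18 + 1140 * u^4 * v^16 * t + 1140 * u^4 * v^16 * t^2 - 31920 * u^4 * v^16 * t^3 - 25935 * u^4 * v^16 * t^4 + 181545 * u^4 * v^16 * t^5 + 259350 * u^4 * v^16 * t^6 - 77805 * u^4 * v^16 * t^7 - 411255 * u^4 * v^16 * t^8 - 177840 * u^4 * v^16 * t^9 + 411255 * u^4 * v^16 * t^10 - 77805 * u^4 * v^16 * t^11 - 259350 * u^4 * v^16 * t^12 + 181545 * u^4 * v^16 * t^13 + 25935 * u^4 * v^16 * t^14 - 31920 * u^4 * v^16 * t^15 - 1140 * u^4 * v^16 * t^16 + 1140 * u^4 * v^16 * t^17 - 2280 * u^3 * v^17 * t^2 - 1140 * u^3 * v^17 * t^3 + 30780 * u^3 * v^17 * t^4 + 29640 * u^3 * v^17 * t^5 - 59280 * u^3 * v^17 * t^6 - 88920 * u^3 * v^17 * t^7 - 44460 * u^3 * v^17 * t^8 + 88920 * u^3 * v^17 * t^9 + 44460 * u^3 * v^17 * t^10 - 88920 * u^3 * v^17 * t^11 + 59280 * u^3 * v^17 * t^12 + 29640 * u^3 * v^17 * t^13 - 30780 * u^3 * v^17 *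 t^14 - 1140 * u^3 * v^17 * t^15 + 2280 * u^3 * v^17 * t^16 + 190 * u^2 * v^18 * t^2 + 2470 * u^2 * v^18 * t^3 + 2660 * u^2 * v^18 * t^4 - 11970 * u^2 * v^18 * t^5 - 9310 * u^2 * v^18 * t^6 + 2660 * u^2 * v^18 * t^7 + 15580 * u^2 * v^18 * t^8 + 18240 * u^2 * v^18 * t^9 - 15580 * u^2 * v^18 * t^10 + 2660 * u^2 * v^18 * t^11 + 9310 * u^2 * v^18 * t^12 - 11970 * u^2 * v^18 * t^13 - 2660 * u^2 * v^18 * t^14 + 2470 * u^2 * v^18 * t^15 - 190 * u^2 * v^18 * t^16 + 20 * u * v^19 * t + 20 * u * v^19 * t^2 + 40 * u * v^19 * t^3 - 1080 * u * v^19 * t^4 - 1040 * u * v^19 * t^5 + 1300 * u * v^19 * t^6 + 260 * u * v^19 * t^7 + 1560 * u * v^19 * t^8 - 3120 * u * v^19 * t^9 - 1560 * u * v^19 * t^10 + 260 * u * v^19 * t^11 - 1300 * u * v^19 * t^12 - 1040 * u * v^19 * t^13 + 1080 * u * v^19 * t^14 + 40 * u * v^19 * t^15 - 20 * u * v^19 * t^16 + 20 * u * v^19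 * t^17 - 106249 * v^20 + 65626 * v^20 * t - 40623 * v^20 * t^2 + 25003 * v^20 * t^3 - 15620 * v^20 * t^4 + 9611 * v^20 * t^5 - 6009 * v^20 * t^6 + 3602 * v^20 * t^7 - 2407 * v^20 * t^8 + 1195 * v^20 * t^9 - 718 * v^20 * t^10 + 477 * v^20 * t^11 - 241 * v^20 * t^12 + 236 * v^20 * t^13 - 5 * v^20 * t^14 + 3 * v^20 * t^15 - 2 * v^20 * t^16 + v^20 * t^17 - v^20 * t^18) * ht

/-- `T ∘ M = (τ - 2)¹⁵ T`. -/
theorem kl_tau_T (u v t : R) (ht : t ^ 2 + t - 1 = 0) :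
    h42rr_T (-u + t * v) (t * u + v) = (-65859375 + 106562500 * t) * h42rr_T u v := by
  unfold h42rr_T
  linear_combination (-65859376 * u^30 + 40703124 * u^30 * t - 25156252 * u^30 * t^2 + 15546872 * u^30 * t^3 - 9609380 * u^30 * t^4 + 5938014 * u^30 * t^5 - 3671366 * u^30 * t^6 + 2266648 * u^30 * t^7 - 1404718 * u^30 * t^8 + 861930 * u^30 * t^9 - 532783 * u^30 * t^10 + 329147 * u^30 * t^11 - 203636 * u^30 * t^12 + 125511 * u^30 * t^13 - 78125 * u^30 * t^14 + 47386 * u^30 * t^15 - 30739 * u^30 * t^16 + 16647 * u^30 * t^17 - 14092 * u^30 * t^18 + 2555 * u^30 * t^19 - 1532 * u^30 * t^20 + 1023 * u^30 * t^21 - 509 * u^30 * t^22 + 514 * u^30 * t^23 + 5 * u^30 * t^24 - 3 * u^30 * t^25 + 2 * u^30 * t^26 - u^30 * t^27 + u^30 * t^28 + 30 * u^29 * v * t + 30 * u^29 * v * t^2 + 60 * u^29 * v * t^3 + 2700 * u^29 * v * t^4 + 2760 * u^29 * v * t^5 -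 7590 * u^29 * v * t^6 - 4830 * u^29 * v * t^7 - 12420 * u^29 * v * t^8 + 82800 * u^29 * v * t^9 + 70380 * u^29 * v * t^10 - 46920 * u^29 * v * t^11 + 23460 * u^29 * v * t^12 - 23460 * u^29 * v * t^13 - 23460 * u^29 * v * t^15 - 23460 * u^29 * v * t^16 - 46920 * u^29 * v * t^17 - 70380 * u^29 * v * t^18 + 82800 * u^29 * v * t^19 + 12420 * u^29 * v * t^20 - 4830 * u^29 * v * t^21 + 7590 * u^29 * v * t^22 + 2760 * u^29 * v * t^23 - 2700 * u^29 * v * t^24 + 60 * u^29 * v * t^25 - 30 * u^29 * v * t^26 + 30 * u^29 * v * t^27 - 435 * u^28 * v^2 * t^2 + 4785 * u^28 * v^2 * t^3 + 4350 * u^28 * v^2 * t^4 - 56115 * u^28 * v^2 * t^5 - 51765 * u^28 * v^2 * t^6 + 48720 * u^28 * v^2 * t^7 + 447180 * u^28 * v^2 * t^8 + 495900 * u^28 * v^2 * t^9 - 1057920 * u^28 * v^2 * t^10 - 562020 * u^28 * v^2 * t^11 + 281010 * u^28 * v^2 * t^12 - 281010 * u^28 * v^2 *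 t^13 - 281010 * u^28 * v^2 * t^15 - 281010 * u^28 * v^2 * t^16 - 562020 * u^28 * v^2 * t^17 + 1057920 * u^28 * v^2 * t^18 + 495900 * u^28 * v^2 * t^19 - 447180 * u^28 * v^2 * t^20 + 48720 * u^28 * v^2 * t^21 + 51765 * u^28 * v^2 * t^22 - 56115 * u^28 * v^2 * t^23 - 4350 * u^28 * v^2 * t^24 + 4785 * u^28 * v^2 * t^25 + 435 * u^28 * v^2 * t^26 + 5220 * u^27 * v^3 * t^2 + 9280 * u^27 * v^3 * t^3 - 116000 * u^27 * v^3 * t^4 - 106720 * u^27 * v^3 * t^5 + 560280 * u^27 * v^3 * t^6 + 1654160 * u^27 * v^3 * t^7 + 1013840 * u^27 * v^3 * t^8 - 6336500 * u^27 * v^3 * t^9 - 5322660 * u^27 * v^3 * t^10 + 7350340 * u^27 * v^3 * t^11 + 2027680 * u^27 * v^3 * t^12 - 2027680 * u^27 * v^3 * t^13 - 2027680 * u^27 * v^3 * t^15 - 2027680 * u^27 * v^3 * t^16 + 7350340 * u^27 * v^3 * t^17 + 5322660 * u^27 * v^3 * t^18 - 6336500 * u^27 * v^3 * t^19 - 1013840 * u^27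 * v^3 * t^20 + 1654160 * u^27 * v^3 * t^21 - 560280 * u^27 * v^3 * t^22 - 106720 * u^27 * v^3 * t^23 + 116000 * u^27 * v^3 * t^24 + 9280 * u^27 * v^3 * t^25 - 5220 * u^27 * v^3 * t^26 + 2610 * u^26 * v^4 * t + 2610 * u^26 * v^4 * t^2 - 125280 * u^26 * v^4 * t^3 - 150075 * u^26 * v^4 * t^4 + 1290645 * u^26 * v^4 * t^5 + 3241620 * u^26 * v^4 * t^6 - 1470735 * u^26 * v^4 * t^7 - 22241115 * u^26 * v^4 * t^8 - 17108550 * u^26 * v^4 * t^9 + 46193085 * u^26 * v^4 * t^10 + 29084535 * u^26 * v^4 * t^11 - 38779380 * u^26 * v^4 * t^12 - 9694845 * u^26 * v^4 * t^13 - 9694845 * u^26 * v^4 * t^15 + 38779380 * u^26 * v^4 * t^16 + 29084535 * u^26 * v^4 * t^17 - 46193085 * u^26 * v^4 * t^18 - 17108550 * u^26 * v^4 * t^19 + 22241115 * u^26 * v^4 * t^20 - 1470735 * u^26 * v^4 * t^21 - 3241620 * u^26 * v^4 * t^22 + 1290645 * u^26 * v^4 * t^23 + 150075 * u^26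 * v^4 * t^24 - 125280 * u^26 * v^4 * t^25 - 2610 * u^26 * v^4 * t^26 + 2610 * u^26 * v^4 * t^27 - 34378593228 * u^25 * v^5 + 21247031772 * u^25 * v^5 * t - 13131626706 * u^25 * v^5 * t^2 + 8115405066 * u^25 * v^5 * t^3 - 5014655640 * u^25 * v^5 * t^4 + 3103413192 * u^25 * v^5 * t^5 - 1923248448 * u^25 * v^5 * t^6 + 1138143744 * u^25 * v^5 * t^7 - 752088204 * u^25 * v^5 * t^8 + 614169540 * u^25 * v^5 * t^9 - 165652524 * u^25 * v^5 * t^10 - 64739484 * u^25 * v^5 * t^11 - 230392008 * u^25 * v^5 * t^12 + 189610758 * u^25 * v^5 * t^13 - 40781250 * u^25 * v^5 * t^14 + 148829508 * u^25 * v^5 * t^15 + 108048258 * u^25 * v^5 * t^16 - 227864484 * u^25 * v^5 * t^17 - 119816226 * u^25 * v^5 * t^18 + 165575790 * u^25 * v^5 * t^19 + 18025704 * u^25 * v^5 * t^20 - 44512506 * u^25 * v^5 * t^21 + 6529698 * u^25 * v^5 * t^22 + 4038192 * u^25 * v^5 * t^23 -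 1438110 * u^25 * v^5 * t^24 - 63684 * u^25 * v^5 * t^25 + 64206 * u^25 * v^5 * t^26 + 522 * u^25 * v^5 * t^27 - 522 * u^25 * v^5 * t^28 - 13050 * u^24 * v^6 * t - 13050 * u^24 * v^6 * t^2 + 756900 * u^24 * v^6 * t^3 + 2844900 * u^24 * v^6 * t^4 - 8404200 * u^24 * v^6 * t^5 - 56578275 * u^24 * v^6 * t^6 + 1050525 * u^24 * v^6 * t^7 + 343671750 * u^24 * v^6 * t^8 + 206052975 * u^24 * v^6 * t^9 - 818959275 * u^24 * v^6 * t^10 - 520460100 * u^24 * v^6 * t^11 + 841920750 * u^24 * v^6 * t^12 + 321460650 * u^24 * v^6 * t^13 + 321460650 * u^24 * v^6 * t^15 - 841920750 * u^24 * v^6 * t^16 - 520460100 * u^24 * v^6 * t^17 + 818959275 * u^24 * v^6 * t^18 + 206052975 * u^24 * v^6 * t^19 - 343671750 * u^24 * v^6 * t^20 + 1050525 * u^24 * v^6 * t^21 + 56578275 * u^24 * v^6 * t^22 - 8404200 * u^24 * v^6 * t^23 - 2844900 * u^24 * v^6 * t^24 + 756900 * u^24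 * v^6 * t^25 + 13050 * u^24 * v^6 * t^26 - 13050 * u^24 * v^6 * t^27 + 156600 * u^23 * v^7 * t^2 + 1357200 * u^23 * v^7 * t^3 - 4489200 * u^23 * v^7 * t^4 - 45153000 * u^23 * v^7 * t^5 + 16390800 * u^23 * v^7 * t^6 + 452313000 * u^23 * v^7 * t^7 + 191365200 * u^23 * v^7 * t^8 - 1751518800 * u^23 * v^7 * t^9 - 1097922600 * u^23 * v^7 * t^10 + 2967465600 * u^23 * v^7 * t^11 + 1618617600 * u^23 * v^7 * t^12 - 1618617600 * u^23 * v^7 * t^13 - 1618617600 * u^23 * v^7 * t^15 - 1618617600 * u^23 * v^7 * t^16 + 2967465600 * u^23 * v^7 * t^17 + 1097922600 * u^23 * v^7 * t^18 - 1751518800 * u^23 * v^7 * t^19 - 191365200 * u^23 * v^7 * t^20 + 452313000 * u^23 * v^7 * t^21 - 16390800 * u^23 * v^7 * t^22 - 45153000 * u^23 * v^7 * t^23 + 4489200 * u^23 * v^7 * t^24 + 1357200 * u^23 * v^7 * t^25 - 156600 * u^23 * v^7 * t^26 + 450225 * u^22 * v^8 * t^2 -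 750375 * u^22 * v^8 * t^3 - 24312150 * u^22 * v^8 * t^4 + 7953975 * u^22 * v^8 * t^5 + 382841325 * u^22 * v^8 * t^6 + 113456700 * u^22 * v^8 * t^7 - 2383791300 * u^22 * v^8 * t^8 - 1345872600 * u^22 * v^8 * t^9 + 6449923350 * u^22 * v^8 * t^10 + 3849423750 * u^22 * v^8 * t^11 - 7054425450 * u^22 * v^8 * t^12 - 2640419550 * u^22 * v^8 * t^13 - 2640419550 * u^22 * v^8 * t^15 + 7054425450 * u^22 * v^8 * t^16 + 3849423750 * u^22 * v^8 * t^17 - 6449923350 * u^22 * v^8 * t^18 - 1345872600 * u^22 * v^8 * t^19 + 2383791300 * u^22 * v^8 * t^20 + 113456700 * u^22 * v^8 * t^21 - 382841325 * u^22 * v^8 * t^22 + 7953975 * u^22 * v^8 * t^23 + 24312150 * u^22 * v^8 * t^24 - 750375 * u^22 * v^8 * t^25 - 450225 * u^22 * v^8 * t^26 + 100050 * u^21 * v^9 * t + 100050 * u^21 * v^9 * t^2 - 8804400 * u^21 * v^9 * t^3 - 2101050 * u^21 * v^9 * t^4 + 217208550 *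 u^21 * v^9 * t^5 + 76438200 * u^21 * v^9 * t^6 - 2101550250 * u^21 * v^9 * t^7 - 1100650050 * u^21 * v^9 * t^8 + 9027611550 * u^21 * v^9 * t^9 + 5417707500 * u^21 * v^9 * t^10 - 16448920350 * u^21 * v^9 * t^11 - 8208302100 * u^21 * v^9 * t^12 + 9274735050 * u^21 * v^9 * t^13 + 9274735050 * u^21 * v^9 * t^15 + 8208302100 * u^21 * v^9 * t^16 - 16448920350 * u^21 * v^9 * t^17 - 5417707500 * u^21 * v^9 * t^18 + 9027611550 * u^21 * v^9 * t^19 + 1100650050 * u^21 * v^9 * t^20 - 2101550250 * u^21 * v^9 * t^21 - 76438200 * u^21 * v^9 * t^22 + 217208550 * u^21 * v^9 * t^23 + 2101050 * u^21 * v^9 * t^24 - 8804400 * u^21 * v^9 * t^25 - 100050 * u^21 * v^9 * t^26 + 100050 * u^21 * v^9 * t^27 + 658923056880 * u^20 * v^10 - 407234755620 * u^20 * v^10 * t + 251686300260 * u^20 * v^10 * t^2 - 155548455360 * u^20 * v^10 * t^3 + 96223387650 * u^20 * v^10 *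 t^4 - 59352801570 * u^20 * v^10 * t^5 + 35501902080 * u^20 * v^10 * t^6 - 23388668490 * u^20 * v^10 * t^7 + 22292820840 * u^20 * v^10 * t^8 - 3605101650 * u^20 * v^10 * t^9 - 18583457085 * u^20 * v^10 * t^10 - 16542737235 * u^20 * v^10 * t^11 + 29506105680 * u^20 * v^10 * t^12 + 7631203695 * u^20 * v^10 * t^13 + 781640625 * u^20 * v^10 * t^14 + 8412844320 * u^20 * v^10 * t^15 - 27161183805 * u^20 * v^10 * t^16 - 13416174735 * u^20 * v^10 * t^17 + 24054941460 * u^20 * v^10 * t^18 + 4992945225 * u^20 * v^10 * t^19 - 8223289590 * u^20 * v^10 * t^20 - 721090365 * u^20 * v^10 * t^21 + 1235207295 * u^20 * v^10 * t^22 + 51885930 * u^20 * v^10 * t^23 - 81590775 * u^20 * v^10 * t^24 - 1970985 * u^20 * v^10 * t^25 + 1980990 * u^20 * v^10 * t^26 + 10005 * u^20 * v^10 * t^27 - 10005 * u^20 * v^10 * t^28 - 200100 * u^19 * v^11 * t - 200100 * u^19 * v^11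 * t^2 + 18609300 * u^19 * v^11 * t^3 + 18409200 * u^19 * v^11 * t^4 - 476238000 * u^19 * v^11 * t^5 - 365382600 * u^19 * v^11 * t^6 + 4975286400 * u^19 * v^11 * t^7 + 3355276800 * u^19 * v^11 * t^8 - 22563676200 * u^19 * v^11 * t^9 - 13562577900 * u^19 * v^11 * t^10 + 43167573000 * u^19 * v^11 * t^11 + 18940665600 * u^19 * v^11 * t^12 - 25145366400 * u^19 * v^11 * t^13 - 25145366400 * u^19 * v^11 * t^15 - 18940665600 * u^19 * v^11 * t^16 + 43167573000 * u^19 * v^11 * t^17 + 13562577900 * u^19 * v^11 * t^18 - 22563676200 * u^19 * v^11 * t^19 - 3355276800 * u^19 * v^11 * t^20 + 4975286400 * u^19 * v^11 * t^21 + 365382600 * u^19 * v^11 * t^22 - 476238000 * u^19 * v^11 * t^23 - 18409200 * u^19 * v^11 * t^24 + 18609300 * u^19 * v^11 * t^25 + 200100 * u^19 * v^11 * t^26 - 200100 * u^19 * v^11 * t^27 + 1900950 * u^18 * v^12 * t^2 + 1900950 * u^18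 * v^12 * t^3 - 110255100 * u^18 * v^12 * t^4 - 108354150 * u^18 * v^12 * t^5 + 1962730875 * u^18 * v^12 * t^6 + 1603451325 * u^18 * v^12 * t^7 - 13787590350 * u^18 * v^12 * t^8 - 9361228275 * u^18 * v^12 * t^9 + 41483481375 * u^18 * v^12 * t^10 + 21457923600 * u^18 * v^12 * t^11 - 49411393350 * u^18 * v^12 * t^12 - 13605099150 * u^18 * v^12 * t^13 - 13605099150 * u^18 * v^12 * t^15 + 49411393350 * u^18 * v^12 * t^16 + 21457923600 * u^18 * v^12 * t^17 - 41483481375 * u^18 * v^12 * t^18 - 9361228275 * u^18 * v^12 * t^19 + 13787590350 * u^18 * v^12 * t^20 + 1603451325 * u^18 * v^12 * t^21 - 1962730875 * u^18 * v^12 * t^22 - 108354150 * u^18 * v^12 * t^23 + 110255100 * u^18 * v^12 * t^24 + 1900950 * u^18 * v^12 * t^25 - 1900950 * u^18 * v^12 * t^26 - 11405700 * u^17 * v^13 * t^3 - 11405700 * u^17 * v^13 * t^4 + 461930850 * u^17 * v^13 * t^5 +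 450525150 * u^17 * v^13 * t^6 - 5292244800 * u^17 * v^13 * t^7 - 4277137500 * u^17 * v^13 * t^8 + 24362575200 * u^17 * v^13 * t^9 + 14753272950 * u^17 * v^13 * t^10 - 48137756850 * u^17 * v^13 * t^11 - 19036113300 * u^17 * v^13 * t^12 + 28730958300 * u^17 * v^13 * t^13 + 28730958300 * u^17 * v^13 * t^15 + 19036113300 * u^17 * v^13 * t^16 - 48137756850 * u^17 * v^13 * t^17 - 14753272950 * u^17 * v^13 * t^18 + 24362575200 * u^17 * v^13 * t^19 + 4277137500 * u^17 * v^13 * t^20 - 5292244800 * u^17 * v^13 * t^21 - 450525150 * u^17 * v^13 * t^22 + 461930850 * u^17 * v^13 * t^23 + 11405700 * u^17 * v^13 * t^24 - 11405700 * u^17 * v^13 * t^25 + 48474225 * u^16 * v^14 * t^4 + 48474225 * u^16 * v^14 * t^5 - 1066432950 * u^16 * v^14 * t^6 - 1017958725 * u^16 * v^14 * t^7 + 7610453325 * u^16 * v^14 * t^8 + 5526061650 * u^16 * v^14 * t^9 - 23219153775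 * u^16 * v^14 * t^10 - 11488391325 * u^16 * v^14 * t^11 + 28308947400 * u^16 * v^14 * t^12 + 7125711075 * u^16 * v^14 * t^13 + 7125711075 * u^16 * v^14 * t^15 - 28308947400 * u^16 * v^14 * t^16 - 11488391325 * u^16 * v^14 * t^17 + 23219153775 * u^16 * v^14 * t^18 + 5526061650 * u^16 * v^14 * t^19 - 7610453325 * u^16 * v^14 * t^20 - 1017958725 * u^16 * v^14 * t^21 + 1066432950 * u^16 * v^14 * t^22 + 48474225 * u^16 * v^14 * t^23 - 48474225 * u^16 * v^14 * t^24 + 48474225 * u^14 * v^16 * t^4 + 48474225 * u^14 * v^16 * t^5 - 1066432950 * u^14 * v^16 * t^6 - 1017958725 * u^14 * v^16 * t^7 + 7610453325 * u^14 * v^16 * t^8 + 5526061650 * u^14 * v^16 * t^9 - 23219153775 * u^14 * v^16 * t^10 - 11488391325 * u^14 * v^16 * t^11 + 28308947400 * u^14 * v^16 * t^12 + 7125711075 * u^14 * v^16 * t^13 + 7125711075 * u^14 * v^16 * t^15 - 28308947400 * u^14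 * v^16 * t^16 - 11488391325 * u^14 * v^16 * t^17 + 23219153775 * u^14 * v^16 * t^18 + 5526061650 * u^14 * v^16 * t^19 - 7610453325 * u^14 * v^16 * t^20 - 1017958725 * u^14 * v^16 * t^21 + 1066432950 * u^14 * v^16 * t^22 + 48474225 * u^14 * v^16 * t^23 - 48474225 * u^14 * v^16 * t^24 + 11405700 * u^13 * v^17 * t^3 + 11405700 * u^13 * v^17 * t^4 - 461930850 * u^13 * v^17 * t^5 - 450525150 * u^13 * v^17 * t^6 + 5292244800 * u^13 * v^17 * t^7 + 4277137500 * u^13 * v^17 * t^8 - 24362575200 * u^13 * v^17 * t^9 - 14753272950 * u^13 * v^17 * t^10 + 48137756850 * u^13 * v^17 * t^11 + 19036113300 * u^13 * v^17 * t^12 - 28730958300 * u^13 * v^17 * t^13 - 28730958300 * u^13 * v^17 * t^15 - 19036113300 * u^13 * v^17 * t^16 + 48137756850 * u^13 * v^17 * t^17 + 14753272950 * u^13 * v^17 * t^18 - 24362575200 * u^13 * v^17 * t^19 - 4277137500 * u^13 * v^17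 * t^20 + 5292244800 * u^13 * v^17 * t^21 + 450525150 * u^13 * v^17 * t^22 - 461930850 * u^13 * v^17 * t^23 - 11405700 * u^13 * v^17 * t^24 + 11405700 * u^13 * v^17 * t^25 + 1900950 * u^12 * v^18 * t^2 + 1900950 * u^12 * v^18 * t^3 - 110255100 * u^12 * v^18 * t^4 - 108354150 * u^12 * v^18 * t^5 + 1962730875 * u^12 * v^18 * t^6 + 1603451325 * u^12 * v^18 * t^7 - 13787590350 * u^12 * v^18 * t^8 - 9361228275 * u^12 * v^18 * t^9 + 41483481375 * u^12 * v^18 * t^10 + 21457923600 * u^12 * v^18 * t^11 - 49411393350 * u^12 * v^18 * t^12 - 13605099150 * u^12 * v^18 * t^13 - 13605099150 * u^12 * v^18 * t^15 + 49411393350 * u^12 * v^18 * t^16 + 21457923600 * u^12 * v^18 * t^17 - 41483481375 * u^12 * v^18 * t^18 - 9361228275 * u^12 * v^18 * t^19 + 13787590350 * u^12 * v^18 * t^20 + 1603451325 * u^12 * v^18 * t^21 - 1962730875 * u^12 * v^18 * t^22 - 108354150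 * u^12 * v^18 * t^23 + 110255100 * u^12 * v^18 * t^24 + 1900950 * u^12 * v^18 * t^25 - 1900950 * u^12 * v^18 * t^26 + 200100 * u^11 * v^19 * t + 200100 * u^11 * v^19 * t^2 - 18609300 * u^11 * v^19 * t^3 - 18409200 * u^11 * v^19 * t^4 + 476238000 * u^11 * v^19 * t^5 + 365382600 * u^11 * v^19 * t^6 - 4975286400 * u^11 * v^19 * t^7 - 3355276800 * u^11 * v^19 * t^8 + 22563676200 * u^11 * v^19 * t^9 + 13562577900 * u^11 * v^19 * t^10 - 43167573000 * u^11 * v^19 * t^11 - 18940665600 * u^11 * v^19 * t^12 + 25145366400 * u^11 * v^19 * t^13 + 25145366400 * u^11 * v^19 * t^15 + 18940665600 * u^11 * v^19 * t^16 - 43167573000 * u^11 * v^19 * t^17 - 13562577900 * u^11 * v^19 * t^18 + 22563676200 * u^11 * v^19 * t^19 + 3355276800 * u^11 * v^19 * t^20 - 4975286400 * u^11 * v^19 * t^21 - 365382600 * u^11 * v^19 * t^22 + 476238000 * u^11 * v^19 * t^23 + 18409200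 * u^11 * v^19 * t^24 - 18609300 * u^11 * v^19 * t^25 - 200100 * u^11 * v^19 * t^26 + 200100 * u^11 * v^19 * t^27 + 658923056880 * u^10 * v^20 - 407234755620 * u^10 * v^20 * t + 251686300260 * u^10 * v^20 * t^2 - 155548455360 * u^10 * v^20 * t^3 + 96223387650 * u^10 * v^20 * t^4 - 59352801570 * u^10 * v^20 * t^5 + 35501902080 * u^10 * v^20 * t^6 - 23388668490 * u^10 * v^20 * t^7 + 22292820840 * u^10 * v^20 * t^8 - 3605101650 * u^10 * v^20 * t^9 - 18583457085 * u^10 * v^20 * t^10 - 16542737235 * u^10 * v^20 * t^11 + 29506105680 * u^10 * v^20 * t^12 + 7631203695 * u^10 * v^20 * t^13 + 781640625 * u^10 * v^20 * t^14 + 8412844320 * u^10 * v^20 * t^15 - 27161183805 * u^10 * v^20 * t^16 - 13416174735 * u^10 * v^20 * t^17 + 24054941460 * u^10 * v^20 * t^18 + 4992945225 * u^10 * v^20 * t^19 - 8223289590 * u^10 * v^20 * t^20 - 721090365 * u^10 * v^20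 * t^21 + 1235207295 * u^10 * v^20 * t^22 + 51885930 * u^10 * v^20 * t^23 - 81590775 * u^10 * v^20 * t^24 - 1970985 * u^10 * v^20 * t^25 + 1980990 * u^10 * v^20 * t^26 + 10005 * u^10 * v^20 * t^27 - 10005 * u^10 * v^20 * t^28 - 100050 * u^9 * v^21 * t - 100050 * u^9 * v^21 * t^2 + 8804400 * u^9 * v^21 * t^3 + 2101050 * u^9 * v^21 * t^4 - 217208550 * u^9 * v^21 * t^5 - 76438200 * u^9 * v^21 * t^6 + 2101550250 * u^9 * v^21 * t^7 + 1100650050 * u^9 * v^21 * t^8 - 9027611550 * u^9 * v^21 * t^9 - 5417707500 * u^9 * v^21 * t^10 + 16448920350 * u^9 * v^21 * t^11 + 8208302100 * u^9 * v^21 * t^12 - 9274735050 * u^9 * v^21 * t^13 - 9274735050 * u^9 * v^21 * t^15 - 8208302100 * u^9 * v^21 * t^16 + 16448920350 * u^9 * v^21 * t^17 + 5417707500 * u^9 * v^21 * t^18 - 9027611550 * u^9 * v^21 * t^19 - 1100650050 * u^9 * v^21 * t^20 + 2101550250 * u^9 * v^21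 * t^21 + 76438200 * u^9 * v^21 * t^22 - 217208550 * u^9 * v^21 * t^23 - 2101050 * u^9 * v^21 * t^24 + 8804400 * u^9 * v^21 * t^25 + 100050 * u^9 * v^21 * t^26 - 100050 * u^9 * v^21 * t^27 + 450225 * u^8 * v^22 * t^2 - 750375 * u^8 * v^22 * t^3 - 24312150 * u^8 * v^22 * t^4 + 7953975 * u^8 * v^22 * t^5 + 382841325 * u^8 * v^22 * t^6 + 113456700 * u^8 * v^22 * t^7 - 2383791300 * u^8 * v^22 * t^8 - 1345872600 * u^8 * v^22 * t^9 + 6449923350 * u^8 * v^22 * t^10 + 3849423750 * u^8 * v^22 * t^11 - 7054425450 * u^8 * v^22 * t^12 - 2640419550 * u^8 * v^22 * t^13 - 2640419550 * u^8 * v^22 * t^15 + 7054425450 * u^8 * v^22 * t^16 + 3849423750 * u^8 * v^22 * t^17 - 6449923350 * u^8 * v^22 * t^18 - 1345872600 * u^8 * v^22 * t^19 + 2383791300 * u^8 * v^22 * t^20 + 113456700 * u^8 * v^22 * t^21 - 382841325 * u^8 * v^22 * t^22 + 7953975 * u^8 * v^22 * t^23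 + 24312150 * u^8 * v^22 * t^24 - 750375 * u^8 * v^22 * t^25 - 450225 * u^8 * v^22 * t^26 - 156600 * u^7 * v^23 * t^2 - 1357200 * u^7 * v^23 * t^3 + 4489200 * u^7 * v^23 * t^4 + 45153000 * u^7 * v^23 * t^5 - 16390800 * u^7 * v^23 * t^6 - 452313000 * u^7 * v^23 * t^7 - 191365200 * u^7 * v^23 * t^8 + 1751518800 * u^7 * v^23 * t^9 + 1097922600 * u^7 * v^23 * t^10 - 2967465600 * u^7 * v^23 * t^11 - 1618617600 * u^7 * v^23 * t^12 + 1618617600 * u^7 * v^23 * t^13 + 1618617600 * u^7 * v^23 * t^15 + 1618617600 * u^7 * v^23 * t^16 - 2967465600 * u^7 * v^23 * t^17 - 1097922600 * u^7 * v^23 * t^18 + 1751518800 * u^7 * v^23 * t^19 + 191365200 * u^7 * v^23 * t^20 - 452313000 * u^7 * v^23 * t^21 + 16390800 * u^7 * v^23 * t^22 + 45153000 * u^7 * v^23 * t^23 - 4489200 * u^7 * v^23 * t^24 - 1357200 * u^7 * v^23 * t^25 + 156600 * u^7 * v^23 * t^26 - 13050 *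 u^6 * v^24 * t - 13050 * u^6 * v^24 * t^2 + 756900 * u^6 * v^24 * t^3 + 2844900 * u^6 * v^24 * t^4 - 8404200 * u^6 * v^24 * t^5 - 56578275 * u^6 * v^24 * t^6 + 1050525 * u^6 * v^24 * t^7 + 343671750 * u^6 * v^24 * t^8 + 206052975 * u^6 * v^24 * t^9 - 818959275 * u^6 * v^24 * t^10 - 520460100 * u^6 * v^24 * t^11 + 841920750 * u^6 * v^24 * t^12 + 321460650 * u^6 * v^24 * t^13 + 321460650 * u^6 * v^24 * t^15 - 841920750 * u^6 * v^24 * t^16 - 520460100 * u^6 * v^24 * t^17 + 818959275 * u^6 * v^24 * t^18 + 206052975 * u^6 * v^24 * t^19 - 343671750 * u^6 * v^24 * t^20 + 1050525 * u^6 * v^24 * t^21 + 56578275 * u^6 * v^24 * t^22 - 8404200 * u^6 * v^24 * t^23 - 2844900 * u^6 * v^24 * t^24 + 756900 * u^6 * v^24 * t^25 + 13050 * u^6 * v^24 * t^26 - 13050 * u^6 * v^24 * t^27 + 34378593228 * u^5 * v^25 - 21247031772 * u^5 * v^25 * t + 13131626706 * u^5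 * v^25 * t^2 - 8115405066 * u^5 * v^25 * t^3 + 5014655640 * u^5 * v^25 * t^4 - 3103413192 * u^5 * v^25 * t^5 + 1923248448 * u^5 * v^25 * t^6 - 1138143744 * u^5 * v^25 * t^7 + 752088204 * u^5 * v^25 * t^8 - 614169540 * u^5 * v^25 * t^9 + 165652524 * u^5 * v^25 * t^10 + 64739484 * u^5 * v^25 * t^11 + 230392008 * u^5 * v^25 * t^12 - 189610758 * u^5 * v^25 * t^13 + 40781250 * u^5 * v^25 * t^14 - 148829508 * u^5 * v^25 * t^15 - 108048258 * u^5 * v^25 * t^16 + 227864484 * u^5 * v^25 * t^17 + 119816226 * u^5 * v^25 * t^18 - 165575790 * u^5 * v^25 * t^19 - 18025704 * u^5 * v^25 * t^20 + 44512506 * u^5 * v^25 * t^21 - 6529698 * u^5 * v^25 * t^22 - 4038192 * u^5 * v^25 * t^23 + 1438110 * u^5 * v^25 * t^24 + 63684 * u^5 * v^25 * t^25 - 64206 * u^5 * v^25 * t^26 - 522 * u^5 * v^25 * t^27 + 522 * u^5 * v^25 * t^28 + 2610 * u^4 * v^26 * t + 2610 * u^4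 * v^26 * t^2 - 125280 * u^4 * v^26 * t^3 - 150075 * u^4 * v^26 * t^4 + 1290645 * u^4 * v^26 * t^5 + 3241620 * u^4 * v^26 * t^6 - 1470735 * u^4 * v^26 * t^7 - 22241115 * u^4 * v^26 * t^8 - 17108550 * u^4 * v^26 * t^9 + 46193085 * u^4 * v^26 * t^10 + 29084535 * u^4 * v^26 * t^11 - 38779380 * u^4 * v^26 * t^12 - 9694845 * u^4 * v^26 * t^13 - 9694845 * u^4 * v^26 * t^15 + 38779380 * u^4 * v^26 * t^16 + 29084535 * u^4 * v^26 * t^17 - 46193085 * u^4 * v^26 * t^18 - 17108550 * u^4 * v^26 * t^19 + 22241115 * u^4 * v^26 * t^20 - 1470735 * u^4 * v^26 * t^21 - 3241620 * u^4 * v^26 * t^22 + 1290645 * u^4 * v^26 * t^23 + 150075 * u^4 * v^26 * t^24 - 125280 * u^4 * v^26 * t^25 - 2610 * u^4 * v^26 * t^26 + 2610 * u^4 * v^26 * t^27 - 5220 * u^3 * v^27 * t^2 - 9280 * u^3 * v^27 * t^3 + 116000 * u^3 * v^27 * t^4 + 106720 * u^3 * v^27 * t^5 - 560280 * u^3 *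 v^27 * t^6 - 1654160 * u^3 * v^27 * t^7 - 1013840 * u^3 * v^27 * t^8 + 6336500 * u^3 * v^27 * t^9 + 5322660 * u^3 * v^27 * t^10 - 7350340 * u^3 * v^27 * t^11 - 2027680 * u^3 * v^27 * t^12 + 2027680 * u^3 * v^27 * t^13 + 2027680 * u^3 * v^27 * t^15 + 2027680 * u^3 * v^27 * t^16 - 7350340 * u^3 * v^27 * t^17 - 5322660 * u^3 * v^27 * t^18 + 6336500 * u^3 * v^27 * t^19 + 1013840 * u^3 * v^27 * t^20 - 1654160 * u^3 * v^27 * t^21 + 560280 * u^3 * v^27 * t^22 + 106720 * u^3 * v^27 * t^23 - 116000 * u^3 * v^27 * t^24 - 9280 * u^3 * v^27 * t^25 + 5220 * u^3 * v^27 * t^26 - 435 * u^2 * v^28 * t^2 + 4785 * u^2 * v^28 * t^3 + 4350 * u^2 * v^28 * t^4 - 56115 * u^2 * v^28 * t^5 - 51765 * u^2 * v^28 * t^6 + 48720 * u^2 * v^28 * t^7 + 447180 * u^2 * v^28 * t^8 + 495900 * u^2 * v^28 * t^9 - 1057920 * u^2 * v^28 * t^10 - 562020 * u^2 * v^28 * t^11 + 281010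 * u^2 * v^28 * t^12 - 281010 * u^2 * v^28 * t^13 - 281010 * u^2 * v^28 * t^15 - 281010 * u^2 * v^28 * t^16 - 562020 * u^2 * v^28 * t^17 + 1057920 * u^2 * v^28 * t^18 + 495900 * u^2 * v^28 * t^19 - 447180 * u^2 * v^28 * t^20 + 48720 * u^2 * v^28 * t^21 + 51765 * u^2 * v^28 * t^22 - 56115 * u^2 * v^28 * t^23 - 4350 * u^2 * v^28 * t^24 + 4785 * u^2 * v^28 * t^25 + 435 * u^2 * v^28 * t^26 - 30 * u * v^29 * t - 30 * u * v^29 * t^2 - 60 * u * v^29 * t^3 - 2700 * u * v^29 * t^4 - 2760 * u * v^29 * t^5 + 7590 * u * v^29 * t^6 + 4830 * u * v^29 * t^7 + 12420 * u * v^29 * t^8 - 82800 * u * v^29 * t^9 - 70380 * u * v^29 * t^10 + 46920 * u * v^29 * t^11 - 23460 * u * v^29 * t^12 + 23460 * u * v^29 * t^13 + 23460 * u * v^29 * t^15 + 23460 * u * v^29 * t^16 + 46920 * u * v^29 * t^17 + 70380 * u * v^29 * t^18 - 82800 * u * v^29 * t^19 - 12420 * u * v^29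 * t^20 + 4830 * u * v^29 * t^21 - 7590 * u * v^29 * t^22 - 2760 * u * v^29 * t^23 + 2700 * u * v^29 * t^24 - 60 * u * v^29 * t^25 + 30 * u * v^29 * t^26 - 30 * u * v^29 * t^27 - 65859376 * v^30 + 40703124 * v^30 * t - 25156252 * v^30 * t^2 + 15546872 * v^30 * t^3 - 9609380 * v^30 * t^4 + 5938014 * v^30 * t^5 - 3671366 * v^30 * t^6 + 2266648 * v^30 * t^7 - 1404718 * v^30 * t^8 + 861930 * v^30 * t^9 - 532783 * v^30 * t^10 + 329147 * v^30 * t^11 - 203636 * v^30 * t^12 + 125511 * v^30 * t^13 - 78125 * v^30 * t^14 + 47386 * v^30 * t^15 - 30739 * v^30 * t^16 + 16647 * v^30 * t^17 - 14092 * v^30 * t^18 + 2555 * v^30 * t^19 - 1532 * v^30 * t^20 + 1023 * v^30 * t^21 - 509 * v^30 * t^22 + 514 * v^30 * t^23 + 5 * v^30 * t^24 - 3 * v^30 * t^25 + 2 * v^30 * t^26 - v^30 * t^27 + v^30 * t^28) * ht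

/-- Covariance of `(f_v, -f_u)`, first component. -/
theorem kl_tau_fv (u v t : R) (ht : t ^ 2 + t - 1 = 0) :
    h42rr_fv (-u + t * v) (t * u + v) = (-175 + 275 * t) * (-1 * h42rr_fv u v + t * -h42rr_fu u v) := by
  unfold h42rr_fv h42rr_fu
  linear_combination (176 * u^11 - 99 * u^11 * t + 77 * u^11 * t^2 - 22 * u^11 * t^3 + 55 * u^11 * t^4 - 33 * u^11 * t^5 + 22 * u^11 * t^6 - 11 * u^11 * t^7 + 11 * u^11 * t^8 + 1914 * u^10 * v * t - 1111 * u^10 * v * t^2 + 803 * u^10 * v * t^3 - 638 * u^10 * v * t^4 + 165 * u^10 * v * t^5 - 77 * u^10 * v * t^6 + 88 * u^10 * v * t^7 + 11 * u^10 * v * t^8 - 11 * u^10 * v * t^9 + 55 * u^9 * v^2 * t^2 - 605 * u^9 * v^2 * t^3 - 550 * u^9 * v^2 * t^4 + 825 * u^9 * v^2 * t^5 + 275 * u^9 * v^2 * t^6 + 110 * u^9 * v^2 * t^7 - 110 * u^9 * v^2 * t^8 - 660 * u^8 * v^3 * t^2 - 825 * u^8 * v^3 * t^3 + 2475 * u^8 *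 v^3 * t^4 + 1650 * u^8 * v^3 * t^5 - 825 * u^8 * v^3 * t^6 - 495 * u^8 * v^3 * t^7 - 330 * u^7 * v^4 * t - 330 * u^7 * v^4 * t^2 + 3300 * u^7 * v^4 * t^3 + 3300 * u^7 * v^4 * t^4 - 3300 * u^7 * v^4 * t^5 - 2310 * u^7 * v^4 * t^6 + 990 * u^7 * v^4 * t^7 + 11484 * u^6 * v^5 - 6666 * u^6 * v^5 * t + 6798 * u^6 * v^5 * t^2 + 132 * u^6 * v^5 * t^3 - 2970 * u^6 * v^5 * t^4 - 6072 * u^6 * v^5 * t^5 + 4158 * u^6 * v^5 * t^6 + 396 * u^6 * v^5 * t^7 - 396 * u^6 * v^5 * t^8 + 11946 * u^5 * v^6 * t - 6204 * u^5 * v^6 * t^2 + 792 * u^5 * v^6 * t^3 - 7722 * u^5 * v^6 * t^4 + 6270 * u^5 * v^6 * t^5 + 1782 * u^5 * v^6 * t^6 - 1848 * u^5 * v^6 * t^7 - 66 * u^5 * v^6 * t^8 + 66 * u^5 * v^6 * t^9 - 990 * u^4 * v^7 * t^2 - 2310 * u^4 * v^7 * t^3 + 3300 * u^4 * v^7 * t^4 + 3300 * u^4 * v^7 * t^5 - 3300 * u^4 * v^7 * t^6 - 330 * u^4 * v^7 * t^7 + 330 * u^4 * v^7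 * t^8 - 495 * u^3 * v^8 * t^2 + 825 * u^3 * v^8 * t^3 + 1650 * u^3 * v^8 * t^4 - 2475 * u^3 * v^8 * t^5 - 825 * u^3 * v^8 * t^6 + 660 * u^3 * v^8 * t^7 - 110 * u^2 * v^9 * t - 110 * u^2 * v^9 * t^2 + 275 * u^2 * v^9 * t^3 - 825 * u^2 * v^9 * t^4 - 550 * u^2 * v^9 * t^5 + 605 * u^2 * v^9 * t^6 + 55 * u^2 * v^9 * t^7 - 1936 * u * v^10 + 1089 * u * v^10 * t - 737 * u * v^10 * t^2 + 352 * u * v^10 * t^3 - 385 * u * v^10 * t^4 + 363 * u * v^10 * t^5 - 22 * u * v^10 * t^6 + 11 * u * v^10 * t^7 - 11 * u * v^10 * t^8 - 164 * v^11 * t + 111 * v^11 * t^2 - 53 * v^11 * t^3 + 58 * v^11 * t^4 + 5 * v^11 * t^5 - 3 * v^11 * t^6 + 2 * v^11 * t^7 - v^11 * t^8 + v^11 * t^9) * ht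

/-- Covariance of `(f_v, -f_u)`, second component. -/
theorem kl_tau_fu (u v t : R) (ht : t ^ 2 + t - 1 = 0) :
    -h42rr_fu (-u + t * v) (t * u + v) = (-175 + 275 * t) * (t * h42rr_fv u v + 1 * -h42rr_fu u v) := by
  unfold h42rr_fv h42rr_fu
  linear_combination (-164 * u^11 * t + 111 * u^11 * t^2 - 53 * u^11 * t^3 + 58 * u^11 * t^4 + 5 * u^11 * t^5 - 3 * u^11 * t^6 + 2 * u^11 * t^7 - u^11 * t^8 + u^11 * t^9 + 1936 * u^10 * v - 1089 * u^10 * v * t + 737 * u^10 * v * t^2 - 352 * u^10 * v * t^3 + 385 * u^10 * v * t^4 - 363 * u^10 * v * t^5 + 22 * u^10 * v * t^6 - 11 * u^10 * v * t^7 + 11 * u^10 * v * t^8 - 110 * u^9 * v^2 * t - 110 * u^9 * v^2 * t^2 + 275 * u^9 * v^2 * t^3 - 825 * u^9 * v^2 * t^4 - 550 * u^9 * v^2 * t^5 + 605 * u^9 * v^2 * t^6 + 55 * u^9 * v^2 * t^7 + 495 * u^8 * v^3 * t^2 - 825 * u^8 * v^3 * t^3 - 1650 * u^8 * v^3 * t^4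 + 2475 * u^8 * v^3 * t^5 + 825 * u^8 * v^3 * t^6 - 660 * u^8 * v^3 * t^7 - 990 * u^7 * v^4 * t^2 - 2310 * u^7 * v^4 * t^3 + 3300 * u^7 * v^4 * t^4 + 3300 * u^7 * v^4 * t^5 - 3300 * u^7 * v^4 * t^6 - 330 * u^7 * v^4 * t^7 + 330 * u^7 * v^4 * t^8 - 11946 * u^6 * v^5 * t + 6204 * u^6 * v^5 * t^2 - 792 * u^6 * v^5 * t^3 + 7722 * u^6 * v^5 * t^4 - 6270 * u^6 * v^5 * t^5 - 1782 * u^6 * v^5 * t^6 + 1848 * u^6 * v^5 * t^7 + 66 * u^6 * v^5 * t^8 - 66 * u^6 * v^5 * t^9 + 11484 * u^5 * v^6 - 6666 * u^5 * v^6 * t + 6798 * u^5 * v^6 * t^2 + 132 * u^5 * v^6 * t^3 - 2970 * u^5 * v^6 * t^4 - 6072 * u^5 * v^6 * t^5 + 4158 * u^5 * v^6 * t^6 + 396 * u^5 * v^6 * t^7 - 396 * u^5 * v^6 * t^8 + 330 * u^4 * v^7 * t + 330 * u^4 * v^7 * t^2 - 3300 * u^4 * v^7 * t^3 - 3300 * u^4 * v^7 * t^4 + 3300 * u^4 * v^7 * t^5 + 2310 * u^4 * v^7 * t^6 - 990 * u^4 * v^7 * t^7 -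 660 * u^3 * v^8 * t^2 - 825 * u^3 * v^8 * t^3 + 2475 * u^3 * v^8 * t^4 + 1650 * u^3 * v^8 * t^5 - 825 * u^3 * v^8 * t^6 - 495 * u^3 * v^8 * t^7 - 55 * u^2 * v^9 * t^2 + 605 * u^2 * v^9 * t^3 + 550 * u^2 * v^9 * t^4 - 825 * u^2 * v^9 * t^5 - 275 * u^2 * v^9 * t^6 - 110 * u^2 * v^9 * t^7 + 110 * u^2 * v^9 * t^8 + 1914 * u * v^10 * t - 1111 * u * v^10 * t^2 + 803 * u * v^10 * t^3 - 638 * u * v^10 * t^4 + 165 * u * v^10 * t^5 - 77 * u * v^10 * t^6 + 88 * u * v^10 * t^7 + 11 * u * v^10 * t^8 - 11 * u * v^10 * t^9 - 176 * v^11 + 99 * v^11 * t - 77 * v^11 * t^2 + 22 * v^11 * t^3 - 55 * v^11 * t^4 + 33 * v^11 * t^5 - 22 * v^11 * t^6 + 11 * v^11 * t^7 - 11 * v^11 * t^8) * ht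

/-- `x01 ∘ M`. -/
theorem kl_tau_x01 (u v t : R) (ht : t ^ 2 + t - 1 = 0) :
    kl_x01 (-u + t * v) (t * u + v) = (-35 + 55 * t) * kl_X10t t u v := by
  unfold kl_x01 kl_X10t
  linear_combination (1992 * u^10 - 2403 * u^10 * t + 1533 * u^10 * t^2 - 906 * u^10 * t^3 + 555 * u^10 * t^4 - 261 * u^10 * t^5 + 114 * u^10 * t^6 - 39 * u^10 * t^7 + 3 * u^10 * t^8 - 42 * u^9 * v * t - 150 * u^9 * v * t^2 - 192 * u^9 * v * t^3 + 360 * u^9 * v * t^4 - 480 * u^9 * v * t^5 + 186 * u^9 * v * t^6 - 150 * u^9 * v * t^7 + 36 * u^9 * v * t^8 - 36 * u^8 * v^2 - 144 * u^8 * v^2 * t - 171 * u^8 * v^2 * t^2 + 1341 * u^8 * v^2 * t^3 - 810 * u^8 * v^2 * t^4 - 207 * u^8 * v^2 * t^5 + 207 * u^8 * v^2 * t^6 - 72 * u^8 * v^2 * t^7 + 72 * u^8 * v^2 * t^8 - 36 * u^7 * v^3 - 36 * u^7 * v^3 * t + 1584 * u^7 * v^3 * t^2 - 1116 * u^7 * v^3 * t^3 - 2520 * u^7 * v^3 * t^4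 + 828 * u^7 * v^3 * t^5 + 288 * u^7 * v^3 * t^6 - 252 * u^7 * v^3 * t^7 + 108 * u^7 * v^3 * t^8 - 72 * u^6 * v^4 + 630 * u^6 * v^4 * t - 1422 * u^6 * v^4 * t^2 - 3780 * u^6 * v^4 * t^3 + 1080 * u^6 * v^4 * t^4 + 3276 * u^6 * v^4 * t^5 - 1170 * u^6 * v^4 * t^6 + 126 * u^6 * v^4 * t^7 + 180 * u^6 * v^4 * t^8 - 6840 * u^5 * v^5 - 10458 * u^5 * v^5 * t + 3744 * u^5 * v^5 * t^2 - 2250 * u^5 * v^5 * t^3 + 7470 * u^5 * v^5 * t^4 - 2700 * u^5 * v^5 * t^5 - 1206 * u^5 * v^5 * t^6 + 558 * u^5 * v^5 * t^7 + 90 * u^5 * v^5 * t^8 - 180 * u^4 * v^6 + 126 * u^4 * v^6 * t + 1170 * u^4 * v^6 * t^2 + 3276 * u^4 * v^6 * t^3 - 1080 * u^4 * v^6 * t^4 - 3780 * u^4 * v^6 * t^5 + 1422 * u^4 * v^6 * t^6 + 630 * u^4 * v^6 * t^7 + 72 * u^4 * v^6 * t^8 + 108 * u^3 * v^7 + 252 * u^3 * v^7 * t + 288 * u^3 * v^7 * t^2 - 828 * u^3 * v^7 * t^3 - 2520 * u^3 * v^7 * t^4 +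 1116 * u^3 * v^7 * t^5 + 1584 * u^3 * v^7 * t^6 + 36 * u^3 * v^7 * t^7 - 36 * u^3 * v^7 * t^8 - 72 * u^2 * v^8 - 72 * u^2 * v^8 * t - 207 * u^2 * v^8 * t^2 - 207 * u^2 * v^8 * t^3 + 810 * u^2 * v^8 * t^4 + 1341 * u^2 * v^8 * t^5 + 171 * u^2 * v^8 * t^6 - 144 * u^2 * v^8 * t^7 + 36 * u^2 * v^8 * t^8 + 36 * u * v^9 + 150 * u * v^9 * t + 186 * u * v^9 * t^2 + 480 * u * v^9 * t^3 + 360 * u * v^9 * t^4 + 192 * u * v^9 * t^5 - 150 * u * v^9 * t^6 + 42 * u * v^9 * t^7 + 3252 * v^10 - 639 * v^10 * t + 561 * v^10 * t^2 - 186 * v^10 * t^3 + 195 * v^10 * t^4 - 81 * v^10 * t^5 + 42 * v^10 * t^6 - 3 * v^10 * t^7 + 3 * v^10 * t^8) * ht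

/-- `y01 ∘ M`. -/
theorem kl_tau_y01 (u v t : R) (ht : t ^ 2 + t - 1 = 0) :
    kl_y01 (-u + t * v) (t * u + v) = (1000 - 1625 * t) * kl_Y10t t u v := by
  unfold kl_y01 kl_Y10t
  linear_combination (-108000 * u^15 + 283500 * u^15 * t - 175392 * u^15 * t^2 + 108000 * u^15 * t^3 - 66960 * u^15 * t^4 + 41040 * u^15 * t^5 - 25380 * u^15 * t^6 + 15012 * u^15 * t^7 - 8100 * u^15 * t^8 + 3780 * u^15 * t^9 - 1620 * u^15 * t^10 + 540 * u^15 * t^11 - 108 * u^15 * t^12 + 216 * u^14 * v * t - 108 * u^14 * v * t^2 + 432 * u^14 * v * t^3 + 1620 * u^14 * v * t^4 + 540 * u^14 * v * t^5 - 2376 * u^14 * v * t^6 + 11448 * u^14 * v * t^7 - 13932 * u^14 * v * t^8 + 8640 * u^14 * v * t^9 - 4320 * u^14 * v * t^10 + 2484 * u^14 * v * t^11 - 972 * u^14 * v * t^12 + 108 * u^14 * v * t^13 + 108 * u^13 * v^2 - 216 * u^13 * v^2 * t - 324 * u^13 * v^2 * t^2 + 3348 *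 u^13 * v^2 * t^3 + 540 * u^13 * v^2 * t^4 - 16848 * u^13 * v^2 * t^5 + 41796 * u^13 * v^2 * t^6 - 51516 * u^13 * v^2 * t^7 + 4212 * u^13 * v^2 * t^8 + 14580 * u^13 * v^2 * t^9 - 4428 * u^13 * v^2 * t^10 + 756 * u^13 * v^2 * t^11 - 1836 * u^13 * v^2 * t^12 + 432 * u^13 * v^2 * t^13 - 108 * u^12 * v^3 + 216 * u^12 * v^3 * t + 3996 * u^12 * v^3 * t^2 + 3348 * u^12 * v^3 * t^3 - 36720 * u^12 * v^3 * t^4 + 84888 * u^12 * v^3 * t^5 - 82296 * u^12 * v^3 * t^6 - 72576 * u^12 * v^3 * t^7 + 127332 * u^12 * v^3 * t^8 - 3240 * u^12 * v^3 * t^9 - 29592 * u^12 * v^3 * t^10 + 4644 * u^12 * v^3 * t^11 - 1836 * u^12 * v^3 * t^12 + 972 * u^12 * v^3 * t^13 + 432 * u^11 * v^4 + 1728 * u^11 * v^4 * t - 324 * u^11 * v^4 * t^2 - 42660 * u^11 * v^4 * t^3 + 99360 * u^11 * v^4 * t^4 - 85212 * u^11 * v^4 * t^5 - 224208 * u^11 * v^4 * t^6 + 300024 * u^11 * v^4 * t^7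 + 140940 * u^11 * v^4 * t^8 - 235980 * u^11 * v^4 * t^9 + 19548 * u^11 * v^4 * t^10 + 14472 * u^11 * v^4 * t^11 - 3456 * u^11 * v^4 * t^12 + 1620 * u^11 * v^4 * t^13 - 972000 * u^10 * v^5 + 3089988 * u^10 * v^5 * t - 1939248 * u^10 * v^5 * t^2 + 1269000 * u^10 * v^5 * t^3 - 812160 * u^10 * v^5 * t^4 + 141480 * u^10 * v^5 * t^5 + 153252 * u^10 * v^5 * t^6 + 647568 * u^10 * v^5 * t^7 - 715500 * u^10 * v^5 * t^8 - 69120 * u^10 * v^5 * t^9 + 166860 * u^10 * v^5 * t^10 - 16848 * u^10 * v^5 * t^11 - 3672 * u^10 * v^5 * t^12 + 2700 * u^10 * v^5 * t^13 + 540 * u^9 * v^6 - 3996 * u^9 * v^6 * t + 54648 * u^9 * v^6 * t^2 - 79812 * u^9 * v^6 * t^3 - 263520 * u^9 * v^6 * t^4 + 480600 * u^9 * v^6 * t^5 + 717336 * u^9 * v^6 * t^6 - 942408 * u^9 * v^6 * t^7 - 577908 * u^9 * v^6 * t^8 + 593460 * u^9 * v^6 * t^9 + 16740 * u^9 * v^6 * t^10 - 66744 * u^9 * v^6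 * t^11 + 7992 * u^9 * v^6 * t^12 + 3132 * u^9 * v^6 * t^13 - 648 * u^8 * v^7 + 12636 * u^8 * v^7 * t - 64476 * u^8 * v^7 * t^2 - 127008 * u^8 * v^7 * t^3 + 417960 * u^8 * v^7 * t^4 + 643788 * u^8 * v^7 * t^5 - 1078596 * u^8 * v^7 * t^6 - 977184 * u^8 * v^7 * t^7 + 941868 * u^8 * v^7 * t^8 + 317520 * u^8 * v^7 * t^9 - 256932 * u^8 * v^7 * t^10 - 4536 * u^8 * v^7 * t^11 + 20736 * u^8 * v^7 * t^12 + 2268 * u^8 * v^7 * t^13 + 2268 * u^7 * v^8 - 20736 * u^7 * v^8 * t - 4536 * u^7 * v^8 * t^2 + 256932 * u^7 * v^8 * t^3 + 317520 * u^7 * v^8 * t^4 - 941868 * u^7 * v^8 * t^5 - 977184 * u^7 * v^8 * t^6 + 1078596 * u^7 * v^8 * t^7 + 643788 * u^7 * v^8 * t^8 - 417960 * u^7 * v^8 * t^9 - 127008 * u^7 * v^8 * t^10 + 64476 * u^7 * v^8 * t^11 + 12636 * u^7 * v^8 * t^12 + 648 * u^7 * v^8 * t^13 - 3132 * u^6 * v^9 + 7992 * u^6 * v^9 * t + 66744 * u^6 * v^9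 * t^2 + 16740 * u^6 * v^9 * t^3 - 593460 * u^6 * v^9 * t^4 - 577908 * u^6 * v^9 * t^5 + 942408 * u^6 * v^9 * t^6 + 717336 * u^6 * v^9 * t^7 - 480600 * u^6 * v^9 * t^8 - 263520 * u^6 * v^9 * t^9 + 79812 * u^6 * v^9 * t^10 + 54648 * u^6 * v^9 * t^11 + 3996 * u^6 * v^9 * t^12 + 540 * u^6 * v^9 * t^13 + 2486700 * u^5 * v^10 - 576828 * u^5 * v^10 * t + 307152 * u^5 * v^10 * t^2 - 423360 * u^5 * v^10 * t^3 - 1620 * u^5 * v^10 * t^4 + 526500 * u^5 * v^10 * t^5 + 526068 * u^5 * v^10 * t^6 - 463752 * u^5 * v^10 * t^7 - 290520 * u^5 * v^10 * t^8 + 69660 * u^5 * v^10 * t^9 + 94500 * u^5 * v^10 * t^10 + 22248 * u^5 * v^10 * t^11 - 1512 * u^5 * v^10 * t^12 - 1620 * u^4 * v^11 - 3456 * u^4 * v^11 * t - 14472 * u^4 * v^11 * t^2 + 19548 * u^4 * v^11 * t^3 + 235980 * u^4 * v^11 * t^4 + 140940 * u^4 * v^11 * t^5 - 300024 * u^4 * v^11 * t^6 - 224208 * u^4 *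 v^11 * t^7 + 85212 * u^4 * v^11 * t^8 + 99360 * u^4 * v^11 * t^9 + 42660 * u^4 * v^11 * t^10 - 324 * u^4 * v^11 * t^11 - 1728 * u^4 * v^11 * t^12 + 432 * u^4 * v^11 * t^13 + 972 * u^3 * v^12 + 1836 * u^3 * v^12 * t + 4644 * u^3 * v^12 * t^2 + 29592 * u^3 * v^12 * t^3 - 3240 * u^3 * v^12 * t^4 - 127332 * u^3 * v^12 * t^5 - 72576 * u^3 * v^12 * t^6 + 82296 * u^3 * v^12 * t^7 + 84888 * u^3 * v^12 * t^8 + 36720 * u^3 * v^12 * t^9 + 3348 * u^3 * v^12 * t^10 - 3996 * u^3 * v^12 * t^11 + 216 * u^3 * v^12 * t^12 + 108 * u^3 * v^12 * t^13 - 432 * u^2 * v^13 - 1836 * u^2 * v^13 * t - 756 * u^2 * v^13 * t^2 - 4428 * u^2 * v^13 * t^3 - 14580 * u^2 * v^13 * t^4 + 4212 * u^2 * v^13 * t^5 + 51516 * u^2 * v^13 * t^6 + 41796 * u^2 * v^13 * t^7 + 16848 * u^2 * v^13 * t^8 + 540 * u^2 * v^13 * t^9 - 3348 * u^2 * v^13 * t^10 - 324 * u^2 * v^13 * t^11 + 216 *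 u^2 * v^13 * t^12 + 108 * u^2 * v^13 * t^13 + 108 * u * v^14 + 972 * u * v^14 * t + 2484 * u * v^14 * t^2 + 4320 * u * v^14 * t^3 + 8640 * u * v^14 * t^4 + 13932 * u * v^14 * t^5 + 11448 * u * v^14 * t^6 + 2376 * u * v^14 * t^7 + 540 * u * v^14 * t^8 - 1620 * u * v^14 * t^9 + 432 * u * v^14 * t^10 + 108 * u * v^14 * t^11 + 216 * u * v^14 * t^12 - 216000 * v^15 + 26892 * v^15 * t - 14040 * v^15 * t^2 + 11880 * v^15 * t^3 - 3780 * v^15 * t^4 + 5400 * v^15 * t^5 - 1512 * v^15 * t^6 + 1620 * v^15 * t^7 - 540 * v^15 * t^8 + 540 * v^15 * t^9 + 108 * v^15 * t^11) * ht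

/-- `X10 ∘ M`. -/
theorem kl_tau_X10 (u v t : R) (ht : t ^ 2 + t - 1 = 0) :
    kl_X10t t (-u + t * v) (t * u + v) = (-875 + 1375 * t) * kl_x01 u v := by
  unfold kl_x01 kl_X10t
  linear_combination (-2568 * u^10 + 1521 * u^10 * t - 1047 * u^10 * t^2 + 474 * u^10 * t^3 - 573 * u^10 * t^4 + 99 * u^10 * t^5 - 78 * u^10 * t^6 + 21 * u^10 * t^7 - 57 * u^10 * t^8 - 36 * u^10 * t^9 - 570 * u^9 * v * t - 210 * u^9 * v * t^2 - 780 * u^9 * v * t^3 + 1200 * u^9 * v * t^5 + 210 * u^9 * v * t^6 - 570 * u^9 * v * t^7 - 360 * u^9 * v * t^8 - 31500 * u^8 * v^2 + 18000 * u^8 * v^2 * t - 10935 * u^8 * v^2 * t^2 + 7425 * u^8 * v^2 * t^3 + 450 * u^8 * v^2 * t^4 + 2925 * u^8 * v^2 * t^5 - 6525 * u^8 * v^2 * t^6 - 1620 * u^8 * v^2 * t^7 + 31500 * u^7 * v^3 - 18000 * u^7 * v^3 * t + 15480 * u^7 * v^3 * t^2 - 5400 * u^7 * v^3 * t^3 + 4500 * u^7 * v^3 * t^4 - 20700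 * u^7 * v^3 * t^5 - 6300 * u^7 * v^3 * t^6 + 3960 * u^7 * v^3 * t^7 - 63000 * u^6 * v^4 + 36990 * u^6 * v^4 * t - 24030 * u^6 * v^4 * t^2 + 3060 * u^6 * v^4 * t^3 - 28800 * u^6 * v^4 * t^4 - 13500 * u^6 * v^4 * t^5 + 16830 * u^6 * v^4 * t^6 + 990 * u^6 * v^4 * t^7 - 1980 * u^6 * v^4 * t^8 - 78552 * u^5 * v^5 + 45594 * u^5 * v^5 * t - 37908 * u^5 * v^5 * t^2 - 2214 * u^5 * v^5 * t^3 - 20322 * u^5 * v^5 * t^4 + 26136 * u^5 * v^5 * t^5 + 4158 * u^5 * v^5 * t^6 - 9306 * u^5 * v^5 * t^7 - 198 * u^5 * v^5 * t^8 + 396 * u^5 * v^5 * t^9 - 157500 * u^4 * v^6 + 89010 * u^4 * v^6 * t - 70470 * u^4 * v^6 * t^2 + 28440 * u^4 * v^6 * t^3 - 2700 * u^4 * v^6 * t^4 + 13500 * u^4 * v^6 * t^5 - 16830 * u^4 * v^6 * t^6 - 990 * u^4 * v^6 * t^7 + 1980 * u^4 * v^6 * t^8 - 94500 * u^3 * v^7 + 54000 * u^3 * v^7 * t - 38520 * u^3 * v^7 * t^2 + 30600 * u^3 * v^7 *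 t^3 - 13500 * u^3 * v^7 * t^4 - 2700 * u^3 * v^7 * t^5 - 6300 * u^3 * v^7 * t^6 + 3960 * u^3 * v^7 * t^7 - 63000 * u^2 * v^8 + 36000 * u^2 * v^8 * t - 22815 * u^2 * v^8 * t^2 + 12825 * u^2 * v^8 * t^3 - 13950 * u^2 * v^8 * t^4 + 3825 * u^2 * v^8 * t^5 - 225 * u^2 * v^8 * t^6 + 1620 * u^2 * v^8 * t^7 - 31500 * u * v^9 + 18930 * u * v^9 * t - 12210 * u * v^9 * t^2 + 6720 * u * v^9 * t^3 - 4500 * u * v^9 * t^4 + 4200 * u * v^9 * t^5 - 1290 * u * v^9 * t^6 + 930 * u * v^9 * t^7 - 360 * u * v^9 * t^8 - 2532 * v^10 + 1629 * v^10 * t - 903 * v^10 * t^2 + 726 * v^10 * t^3 - 177 * v^10 * t^4 + 351 * v^10 * t^5 - 222 * v^10 * t^6 + 129 * v^10 * t^7 - 93 * v^10 * t^8 + 36 * v^10 * t^9) * ht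

/-- `Y10 ∘ M`. -/
theorem kl_tau_Y10 (u v t : R) (ht : t ^ 2 + t - 1 = 0) :
    kl_Y10t t (-u + t * v) (t * u + v) = (18125 - 29375 * t) * kl_y01 u v := by
  unfold kl_y01 kl_Y10t
  linear_combination (-108 * u^15 + 108 * u^15 * t + 108 * u^15 * t^3 + 108 * u^15 * t^4 + 1188 * u^15 * t^5 - 1188 * u^15 * t^6 - 1188 * u^15 * t^8 - 1188 * u^15 * t^9 + 108 * u^15 * t^10 - 108 * u^15 * t^11 - 108 * u^15 * t^13 - 108 * u^15 * t^14 + 1620 * u^14 * v * t - 1620 * u^14 * v * t^2 + 3240 * u^14 * v * t^4 - 9180 * u^14 * v * t^5 - 15660 * u^14 * v * t^6 - 15660 * u^14 * v * t^8 + 9180 * u^14 * v * t^9 + 3240 * u^14 * v * t^10 - 1620 * u^14 * v * t^12 - 1620 * u^14 * v * t^13 + 1957500 * u^13 * v^2 - 1215000 * u^13 * v^2 * t + 731160 * u^13 * v^2 * t^2 - 451440 * u^13 * v^2 * t^3 + 254880 * u^13 * v^2 * t^4 - 245160 * u^13 * v^2 * t^5 + 133920 * u^13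 * v^2 * t^6 - 67500 * u^13 * v^2 * t^7 + 66420 * u^13 * v^2 * t^8 + 42660 * u^13 * v^2 * t^9 - 15120 * u^13 * v^2 * t^10 - 21060 * u^13 * v^2 * t^11 - 11340 * u^13 * v^2 * t^12 + 1957500 * u^12 * v^3 - 1215000 * u^12 * v^3 * t + 752220 * u^12 * v^3 * t^2 - 438480 * u^12 * v^3 * t^3 + 118260 * u^12 * v^3 * t^4 - 71820 * u^12 * v^3 * t^5 + 265140 * u^12 * v^3 * t^6 - 67500 * u^12 * v^3 * t^7 + 197640 * u^12 * v^3 * t^8 - 130680 * u^12 * v^3 * t^9 - 151740 * u^12 * v^3 * t^10 - 34020 * u^12 * v^3 * t^11 + 9720 * u^12 * v^3 * t^12 + 7830000 * u^11 * v^4 - 4855140 * u^11 * v^4 * t + 2962440 * u^11 * v^4 * t^2 - 1989900 * u^11 * v^4 * t^3 + 1073520 * u^11 * v^4 * t^4 - 184140 * u^11 * v^4 * t^5 + 293220 * u^11 * v^4 * t^6 - 270000 * u^11 * v^4 * t^7 + 23220 * u^11 * v^4 * t^8 - 625860 * u^11 * v^4 * t^9 - 6480 * u^11 * v^4 * t^10 + 99900 * u^11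 * v^4 * t^11 - 7560 * u^11 * v^4 * t^12 - 4860 * u^11 * v^4 * t^13 + 972 * u^10 * v^5 - 1512 * u^10 * v^5 * t - 49140 * u^10 * v^5 * t^2 + 73548 * u^10 * v^5 * t^3 + 461808 * u^10 * v^5 * t^4 + 367848 * u^10 * v^5 * t^5 - 740448 * u^10 * v^5 * t^6 - 740448 * u^10 * v^5 * t^8 - 367848 * u^10 * v^5 * t^9 + 461808 * u^10 * v^5 * t^10 - 73548 * u^10 * v^5 * t^11 - 49140 * u^10 * v^5 * t^12 + 1512 * u^10 * v^5 * t^13 + 972 * u^10 * v^5 * t^14 + 9787500 * u^9 * v^6 - 6084720 * u^9 * v^6 * t + 3727620 * u^9 * v^6 * t^2 - 2138400 * u^9 * v^6 * t^3 + 1551960 * u^9 * v^6 * t^4 - 1548720 * u^9 * v^6 * t^5 - 686340 * u^9 * v^6 * t^6 - 337500 * u^9 * v^6 * t^7 - 1023840 * u^9 * v^6 * t^8 + 536220 * u^9 * v^6 * t^9 + 201960 * u^9 * v^6 * t^10 - 224100 * u^9 * v^6 * t^11 + 15120 * u^9 * v^6 * t^12 + 9720 * u^9 * v^6 * t^13 + 11745000 * u^8 * v^7 - 7290000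 * u^8 * v^7 * t + 4498740 * u^8 * v^7 * t^2 - 2604960 * u^8 * v^7 * t^3 + 1427220 * u^8 * v^7 * t^4 - 2295540 * u^8 * v^7 * t^5 + 152280 * u^8 * v^7 * t^6 - 405000 * u^8 * v^7 * t^7 - 252720 * u^8 * v^7 * t^8 + 1080540 * u^8 * v^7 * t^9 - 192780 * u^8 * v^7 * t^10 - 230040 * u^8 * v^7 * t^11 + 43740 * u^8 * v^7 * t^12 + 41107500 * u^7 * v^8 - 25515000 * u^7 * v^8 * t + 15704280 * u^7 * v^8 * t^2 - 9883620 * u^7 * v^8 * t^3 + 4628340 * u^7 * v^8 * t^4 - 4817880 * u^7 * v^8 * t^5 + 2418660 * u^7 * v^8 * t^6 - 1417500 * u^7 * v^8 * t^7 + 1001160 * u^7 * v^8 * t^8 + 565380 * u^7 * v^8 * t^9 - 1041660 * u^7 * v^8 * t^10 - 38880 * u^7 * v^8 * t^11 + 111780 * u^7 * v^8 * t^12 + 56767500 * u^6 * v^9 - 35210160 * u^6 * v^9 * t + 21567060 * u^6 * v^9 * t^2 - 14202000 * u^6 * v^9 * t^3 + 7350480 * u^6 * v^9 * t^4 - 4392360 * u^6 * v^9 * t^5 + 3980880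 * u^6 * v^9 * t^6 - 1957500 * u^6 * v^9 * t^7 + 2023380 * u^6 * v^9 * t^8 - 1480140 * u^6 * v^9 * t^9 - 479520 * u^6 * v^9 * t^10 + 499500 * u^6 * v^9 * t^11 + 34560 * u^6 * v^9 * t^12 - 24840 * u^6 * v^9 * t^13 + 48939984 * u^5 * v^10 - 30371544 * u^5 * v^10 * t + 18444240 * u^5 * v^10 * t^2 - 11975904 * u^5 * v^10 * t^3 + 7586136 * u^5 * v^10 * t^4 - 3548664 * u^5 * v^10 * t^5 + 2006964 * u^5 * v^10 * t^6 - 1687500 * u^5 * v^10 * t^7 + 319464 * u^5 * v^10 * t^8 - 1513836 * u^5 * v^10 * t^9 + 836136 * u^5 * v^10 * t^10 + 163404 * u^5 * v^10 * t^11 - 118260 * u^5 * v^10 * t^12 - 3456 * u^5 * v^10 * t^13 + 2484 * u^5 * v^10 * t^14 + 29362500 * u^4 * v^11 - 18237420 * u^4 * v^11 * t + 11120220 * u^4 * v^11 * t^2 - 6868800 * u^4 * v^11 * t^3 + 4643460 * u^4 * v^11 * t^4 - 3195720 * u^4 * v^11 * t^5 + 1214460 * u^4 * v^11 * t^6 - 1012500 * u^4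 * v^11 * t^7 + 201960 * u^4 * v^11 * t^8 + 158220 * u^4 * v^11 * t^9 + 593460 * u^4 * v^11 * t^10 - 218700 * u^4 * v^11 * t^11 - 17280 * u^4 * v^11 * t^12 + 12420 * u^4 * v^11 * t^13 + 17617500 * u^3 * v^12 - 10935000 * u^3 * v^12 * t + 6707340 * u^3 * v^12 * t^2 - 4119660 * u^3 * v^12 * t^3 + 2388420 * u^3 * v^12 * t^4 - 1828440 * u^3 * v^12 * t^5 + 1118880 * u^3 * v^12 * t^6 - 607500 * u^3 * v^12 * t^7 + 511380 * u^3 * v^12 * t^8 + 5940 * u^3 * v^12 * t^9 - 41580 * u^3 * v^12 * t^10 - 132840 * u^3 * v^12 * t^11 + 24840 * u^3 * v^12 * t^12 + 7830000 * u^2 * v^13 - 4860000 * u^2 * v^13 * t + 2992680 * u^2 * v^13 * t^2 - 1880820 * u^2 * v^13 * t^3 + 1102140 * u^2 * v^13 * t^4 - 654480 * u^2 * v^13 * t^5 + 496260 * u^2 * v^13 * t^6 - 270000 * u^2 * v^13 * t^7 + 226260 * u^2 * v^13 * t^8 - 155520 * u^2 * v^13 * t^9 + 22140 * u^2 * v^13 * t^10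 - 9180 * u^2 * v^13 * t^11 + 22680 * u^2 * v^13 * t^12 + 1957500 * u * v^14 - 1211760 * u * v^14 * t + 747360 * u * v^14 * t^2 - 464400 * u * v^14 * t^3 + 295380 * u * v^14 * t^4 - 164160 * u * v^14 * t^5 + 106380 * u * v^14 * t^6 - 67500 * u * v^14 * t^7 + 38880 * u * v^14 * t^8 - 38340 * u * v^14 * t^9 + 25380 * u * v^14 * t^10 - 8100 * u * v^14 * t^11 + 4860 * u * v^14 * t^12 - 3240 * u * v^14 * t^13 + 216 * v^15 + 324 * v^15 * t + 540 * v^15 * t^2 + 864 * v^15 * t^3 + 1404 * v^15 * t^4 - 216 * v^15 * t^5 + 216 * v^15 * t^6 + 216 * v^15 * t^8 + 216 * v^15 * t^9 + 1404 * v^15 * t^10 - 864 * v^15 * t^11 + 540 * v^15 * t^12 - 324 * v^15 * t^13 + 216 * v^15 * t^14) * ht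

end Fermat.Agent.S52
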